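import Fermat.Agent.RT.GammaH.NebHecke
import Fermat.Agent.GaloisReps.JacobianModel
import Fermat.Prelude.Def_GaloisRep_Adic
import Fermat.Prelude.Def_CuspForm_Newforms

/-!
# Inertia at a prime of twisted level: the statement

A form `f` of nebentypus `χ⁻²` at `q` only, whose twist by `χ` has the eigenvalues of the newform
`g`, forces the eigenvalues `χ^{±1}` of inertia at `q` in the representations attached to `g`.
-/

set_option autoImplicit false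

noncomputable section

open UpperHalfPlane ModularFormClass IsLocalRing
open Fermat.Agent.GaloisReps (AbsGal)
open Fermat.Agent.RT.GammaH (IsNeb HasCoeff seqOp nebWeight)

namespace Fermat.Agent.RT.InertiaTW

/-- The trace of inertia at `q`. -/
def TraceInertia (p q R M : ℕ) [Fact p.Prime] [Fact q.Prime] [NeZero R] [NeZero M]
    (g : CuspForm (CongruenceSubgroup.Gamma0 M) 2) : Prop :=
  p ≠ 2 → p ≠ q → ¬ q ∣ R → M ∣ q ^ 2 * R → g.IsNewform →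
  haveI : NeZero (q ^ 2 * R) :=
    ⟨mul_ne_zero (pow_ne_zero 2 (Fact.out : q.Prime).ne_zero) (NeZero.ne R)⟩
  GaloisReps.CongruenceProperty (q ^ 2 * R) p →
  ∀ (χ : DirichletCharacter ℂ q), χ ≠ 1 → (∃ k : ℕ, χ ^ p ^ k = 1) →
  ∀ (f : ℍ → ℂ) (a : ℕ → ℂ), IsNeb (q * R) (χ⁻¹ ^ 2) f → HasCoeff f a → f ≠ 0 →
  ∀ (S : Finset ℕ), (∀ v : ℕ, v.Prime → v ∣ q * R * p → v ∈ S) →
  (∀ ℓ : ℕ, ℓ.Prime → ℓ ∉ S → ∀ n : ℕ,
    seqOp (nebWeight (χ⁻¹ ^ 2)) ℓ a n = χ⁻¹ (ℓ : ZMod q) * qCoeff g ℓ * a n) →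
  ∀ (O : Type) [CommRing O] [IsDomain O] [IsDiscreteValuationRing O]
    [IsAdicComplete (maximalIdeal O) O] [Finite (ResidueField O)] [CharZero O],
  (p : O) ∈ maximalIdeal O →
  ∀ (j : O →+* ℂ), Function.Injective j →
  ∀ (ρ : GaloisRepAdic O), ρ.residual.IsAbsolutelyIrreducible →
  (∀ ℓ : ℕ, ℓ.Prime → ℓ ∉ S → ∀ A : ValuationSubring (AlgebraicClosure ℚ), A.LiesOverPrime ℓ →
    ∀ σ : AbsGal, A.IsFrobeniusAt σ ℓ →
      j (ρ.trace σ) = qCoeff g ℓ ∧ LinearMap.det (ρ.ρ σ) = (ℓ : O)) →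
  ∀ (A : ValuationSubring (AlgebraicClosure ℚ)), A.LiesOverPrime q →
  (∀ σ ∈ A.inertiaSubgroupIn ℚ,
    LinearMap.det (ρ.ρ σ) = 1 ∧ ρ.trace σ - 2 ∈ maximalIdeal O) →
  ∀ σ ∈ A.inertiaSubgroupIn ℚ, ∀ u : (ZMod q)ˣ,
    (∀ μ : AlgebraicClosure ℚ, μ ^ q = 1 → σ μ = μ ^ (u : ZMod q).val) →
      j (ρ.trace σ) = χ (u : ZMod q) + χ⁻¹ (u : ZMod q)

end Fermat.Agent.RT.InertiaTW
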