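import Fermat.Agent.GaloisReps.Attach
import Fermat.Agent.GaloisReps.Constructor
import Fermat.Agent.RT.InertiaTW.Divisible

/-!
# The quadratic relations on Hecke eigenvectors in the torsion

On a Hecke eigenvector of the completed lattice with the eigenvalues of a two dimensional `ρ`,
every Galois element is killed by the characteristic polynomial of `ρ`.
-/

set_option autoImplicit false

noncomputable section

open Matrix IsLocalRing
open Fermat.Agent.GaloisReps

namespace Fermat.Agent.RT.InertiaTW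

theorem DivPow.zero {R K : Type*} [CommRing R] [CommRing K] [Algebra R K] (ϖ : R) (n : ℕ) :
    DivPow ϖ n (0 : K) :=
  ⟨0, isIntegral_zero, (mul_zero _).symm⟩

theorem DivPow.neg {R K : Type*} [CommRing R] [CommRing K] [Algebra R K] {ϖ : R} {n : ℕ} {x : K}
    (h : DivPow ϖ n x) : DivPow ϖ n (-x) := by
  obtain ⟨y, hy, rfl⟩ := h
  exact ⟨-y, hy.neg, (mul_neg _ _).symm⟩

theorem DivPow.sub {R K : Type*} [CommRing R] [CommRing K] [Algebra R K] {ϖ : R} {n : ℕ} {x y : K}
    (h : DivPow ϖ n x) (h' : DivPow ϖ n y) : DivPow ϖ n (x - y) := by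
  rw [sub_eq_add_neg]
  exact h.add h'.neg

theorem DivPow.sum {R K ι : Type*} [CommRing R] [CommRing K] [Algebra R K] {ϖ : R} {n : ℕ}
    (s : Finset ι) {x : ι → K} (h : ∀ i ∈ s, DivPow ϖ n (x i)) : DivPow ϖ n (∑ i ∈ s, x i) :=
  Finset.sum_induction _ (DivPow ϖ n) (fun _ _ => DivPow.add) (DivPow.zero ϖ n) h

theorem divPow_algebraMap {R : Type*} (K : Type*) [CommRing R] [CommRing K] [Algebra R K] {ϖ : R}
    {n : ℕ} {x : R} (h : ϖ ^ n ∣ x) : DivPow ϖ n (algebraMap R K x) := by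
  obtain ⟨y, rfl⟩ := h
  exact ⟨algebraMap R K y, isIntegral_algebraMap, by rw [map_mul, map_pow]⟩

/-- The powers of a two by two matrix satisfy the relations of a root of its characteristic
polynomial. -/
theorem quadratic_pow {O K : Type*} [CommRing O] [CommRing K] (f : O →+* K) {d : ℕ}
    (M : Matrix (Fin 2) (Fin 2) O) (F : Matrix (Fin d) (Fin d) K) (v : Fin d → K)
    (h : F.mulVec (F.mulVec v) - f M.trace • F.mulVec v + f M.det • v = 0) (i : ℕ) :
    (F ^ i).mulVec ((F ^ i).mulVec v) - f (M ^ i).trace • (F ^ i).mulVec v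
      + f (M ^ i).det • v = 0 := by
  have hFF : F.mulVec (F.mulVec v) = f M.trace • F.mulVec v - f M.det • v :=
    sub_eq_zero.mp (by rw [← h]; module)
  have hMM : M * M = M.trace • M - M.det • 1 := by
    ext a b
    fin_cases a <;> fin_cases b <;>
      simp [Matrix.mul_apply, Fin.sum_univ_two, Matrix.trace_fin_two, Matrix.det_fin_two] <;> ring
  obtain ⟨a, b, hM, hF⟩ : ∃ a b : O, M ^ i = a • M + b • 1 ∧
      ∀ w, F.mulVec (F.mulVec w) = f M.trace • F.mulVec w - f M.det • w →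
        (F ^ i).mulVec w = f a • F.mulVec w + f b • w := by
    induction i with
    | zero => exact ⟨0, 1, by simp, fun w _ => by simp⟩
    | succ i ih =>
      obtain ⟨a, b, hM, hF⟩ := ih
      refine ⟨a * M.trace + b, -(a * M.det), ?_, fun w hw => ?_⟩
      · rw [pow_succ', hM, mul_add, mul_smul_comm, mul_smul_comm, hMM, mul_one]
        module
      · rw [pow_succ', ← Matrix.mulVec_mulVec, hF w hw, Matrix.mulVec_add, Matrix.mulVec_smul,
          Matrix.mulVec_smul, hw, map_add, map_neg, map_mul, map_mul]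
        module
  have htr : (M ^ i).trace = a * M.trace + 2 * b := by
    rw [hM, Matrix.trace_fin_two, Matrix.trace_fin_two]
    simp
    ring
  have hdet : (M ^ i).det = a ^ 2 * M.det + a * b * M.trace + b ^ 2 := by
    rw [hM, Matrix.det_fin_two, Matrix.det_fin_two, Matrix.trace_fin_two]
    simp
    ring
  have hFFF : F.mulVec (F.mulVec (F.mulVec v)) =
      f M.trace • F.mulVec (F.mulVec v) - f M.det • F.mulVec v := by
    conv_lhs => rw [hFF]
    rw [Matrix.mulVec_sub, Matrix.mulVec_smul, Matrix.mulVec_smul]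
  rw [hF v hFF, Matrix.mulVec_add, Matrix.mulVec_smul, Matrix.mulVec_smul, hF v hFF, hF _ hFFF,
    hFF, htr, hdet]
  simp only [map_add, map_mul, map_pow, map_ofNat]
  module

/-- On a Hecke eigenvector with the eigenvalues of `ρ`, every Galois element is killed by the
characteristic polynomial of `ρ`. -/
theorem quadratic_on_eigen {N p : ℕ} [NeZero N] [Fact p.Prime] (E : GaloisReps.TorsionIso N p)
    (G : GaloisReps.TorsionGalois N p) {O : Type} [CommRing O] [IsDomain O]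
    [IsDiscreteValuationRing O] (hpO : (p : O) ∈ IsLocalRing.maximalIdeal O)
    {K : Type} [Field K] [Algebra O K] [Algebra.IsAlgebraic O K]
    (hinj : Function.Injective (algebraMap O K)) (ι : ℤ_[p] →+* O)
    (ρ : GaloisReps.AbsGal →* Matrix (Fin 2) (Fin 2) O)
    (hcont : ∀ n : ℕ, ∃ L : IntermediateField ℚ (AlgebraicClosure ℚ), FiniteDimensional ℚ L ∧
      ∀ σ : GaloisReps.AbsGal, (∀ x ∈ L, σ x = x) →
        ∀ i j, (ρ σ - 1) i j ∈ IsLocalRing.maximalIdeal O ^ n)
    (S : Finset ℕ) (hS : ∀ ℓ : ℕ, ℓ.Prime → ℓ ∣ N * p → ℓ ∈ S) (t : ℕ → O)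
    (hfrob : ∀ ℓ : ℕ, ℓ.Prime → ℓ ∉ S → ∀ A : ValuationSubring (AlgebraicClosure ℚ),
      A.LiesOverPrime ℓ → ∀ σ : GaloisReps.AbsGal, A.IsFrobeniusAt σ ℓ →
        (ρ σ).trace = t ℓ ∧ (ρ σ).det = (ℓ : O))
    (v : Fin (2 * Gamma0.genus N) → K)
    (hv : ∀ (ℓ : ℕ) (hℓ : ℓ.Prime), ℓ ∉ S →
      ((GaloisReps.opMat N ℓ hℓ).map (Int.castRingHom K)).mulVec v = algebraMap O K (t ℓ) • v)
    (g : GaloisReps.AbsGal) :
    ((E.gal g).map ((algebraMap O K).comp ι)).mulVec
        (((E.gal g).map ((algebraMap O K).comp ι)).mulVec v)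
      - algebraMap O K (ρ g).trace • ((E.gal g).map ((algebraMap O K).comp ι)).mulVec v
      + algebraMap O K (ρ g).det • v = 0 := by
  classical
  set φ : ℤ_[p] →+* K := (algebraMap O K).comp ι with hφ
  let Φ : AbsGal →* Matrix (Fin (2 * Gamma0.genus N)) (Fin (2 * Gamma0.genus N)) K :=
    φ.mapMatrix.toMonoidHom.comp E.gal
  -- scale to an integral vector
  obtain ⟨c, hc, hint⟩ : ∃ c : O, c ≠ 0 ∧ ∀ j, IsIntegral O (c • v j) := by
    choose y hy0 hy using fun j =>
      (Algebra.IsAlgebraic.isAlgebraic (R := O) (v j)).exists_integral_multiple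
    refine ⟨∏ j, y j, Finset.prod_ne_zero_iff.mpr fun j _ => hy0 j, fun j => ?_⟩
    rw [← Finset.prod_erase_mul _ _ (Finset.mem_univ j), mul_smul]
    exact (hy j).smul _
  obtain ⟨w, hw⟩ : ∃ w : Fin (2 * Gamma0.genus N) → K, w = algebraMap O K c • v := ⟨_, rfl⟩
  have hwint : ∀ j, IsIntegral O (w j) := fun j => by
    simpa [hw, Algebra.smul_def] using hint j
  have hwv : ∀ (ℓ : ℕ) (hℓ : ℓ.Prime), ℓ ∉ S →
      ((GaloisReps.opMat N ℓ hℓ).map (Int.castRingHom K)).mulVec w = algebraMap O K (t ℓ) • w :=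
    fun ℓ hℓ hℓS => by rw [hw, Matrix.mulVec_smul, hv ℓ hℓ hℓS, smul_comm]
  suffices hX : (Φ g).mulVec ((Φ g).mulVec w) - algebraMap O K (ρ g).trace • (Φ g).mulVec w
      + algebraMap O K (ρ g).det • w = 0 by
    have hc0 : algebraMap O K c ≠ 0 := fun h => hc (hinj (h.trans (map_zero _).symm))
    refine (smul_eq_zero.mp (Eq.trans ?_ hX)).resolve_left hc0
    show algebraMap O K c • ((Φ g).mulVec ((Φ g).mulVec v) -
      algebraMap O K (ρ g).trace • (Φ g).mulVec v + algebraMap O K (ρ g).det • v) = _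
    rw [hw, Matrix.mulVec_smul, Matrix.mulVec_smul]
    module
  obtain ⟨ϖ, hϖ⟩ := IsDiscreteValuationRing.exists_irreducible O
  have hmax : maximalIdeal O = Ideal.span {ϖ} := hϖ.maximalIdeal_eq
  have hϖm : ϖ ∈ maximalIdeal O := hmax ▸ Ideal.mem_span_singleton_self ϖ
  have hmem : ∀ (n : ℕ) (x : O), x ∈ maximalIdeal O ^ n ↔ ϖ ^ n ∣ x := fun n x => by
    rw [hmax, Ideal.span_singleton_pow, Ideal.mem_span_singleton]
  have hΦint : ∀ h i j, IsIntegral O (Φ h i j) := fun h i j =>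
    isIntegral_algebraMap (x := ι (E.gal h i j))
  have hintV : ∀ h (u : Fin (2 * Gamma0.genus N) → K), (∀ j, IsIntegral O (u j)) →
      ∀ j, IsIntegral O ((Φ h).mulVec u j) := fun h u hu j => by
    show IsIntegral O (∑ k, Φ h j k * u k)
    exact IsIntegral.sum _ fun k _ => (hΦint h j k).mul (hu k)
  let X : AbsGal → Fin (2 * Gamma0.genus N) → K := fun h =>
    (Φ h).mulVec ((Φ h).mulVec w) - algebraMap O K (ρ h).trace • (Φ h).mulVec w
      + algebraMap O K (ρ h).det • w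
  refine funext fun j => eq_zero_of_forall_divPow hinj hϖm ?_ fun n => ?_
  · exact ((hintV g _ (hintV g w hwint) j).sub (isIntegral_algebraMap.mul (hintV g w hwint j))).add
      (isIntegral_algebraMap.mul (hwint j))
  -- replace `g` by a power of a Frobenius
  obtain ⟨L₁, hL₁, h₁⟩ := E.gal_continuous G n
  obtain ⟨L₂, hL₂, h₂⟩ := hcont n
  obtain ⟨ℓ, hℓ, hℓS, A, hA, σ, hσ, i, hi⟩ := frobeniusDensity (L₁ ⊔ L₂) inferInstance g S
  have hfix := inv_mul_fixes hi
  have hρ : ∀ a b, ϖ ^ n ∣ (ρ (σ ^ i) a b - ρ g a b) := fun a b => by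
    have e : ρ (σ ^ i) - ρ g = ρ g * (ρ (g⁻¹ * σ ^ i) - 1) := by
      rw [mul_sub, mul_one, ← map_mul, mul_inv_cancel_left]
    rw [← hmem, ← Matrix.sub_apply, e, Matrix.mul_apply]
    exact sum_mem fun k _ => Ideal.mul_mem_left _ _
      (h₂ _ (fun x hx => hfix x ((le_sup_right : L₂ ≤ L₁ ⊔ L₂) hx)) k b)
  have hgal : ∀ a b, ϖ ^ n ∣ ι (E.gal (σ ^ i) a b) - ι (E.gal g a b) := fun a b => by
    have e : E.gal (σ ^ i) - E.gal g = E.gal g * (E.gal (g⁻¹ * σ ^ i) - 1) := by
      rw [mul_sub, mul_one, ← map_mul, mul_inv_cancel_left]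
    rw [← map_sub, ← Matrix.sub_apply, e, Matrix.mul_apply, map_sum]
    refine Finset.dvd_sum fun k _ => ?_
    rw [map_mul]
    refine dvd_mul_of_dvd_right ?_ _
    have h := congrFun (congrFun (h₁ _ fun x hx => hfix x ((le_sup_left : L₁ ≤ L₁ ⊔ L₂) hx)) k) b
    have hker : (E.gal (g⁻¹ * σ ^ i) - 1) k b ∈ RingHom.ker (PadicInt.toZModPow n) := by
      rw [RingHom.mem_ker, Matrix.sub_apply, map_sub, ← Matrix.map_apply (f := PadicInt.toZModPow n), h]
      rcases eq_or_ne k b with rfl | hkb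
      · rw [Matrix.one_apply_eq, Matrix.one_apply_eq, map_one, sub_self]
      · rw [Matrix.one_apply_ne hkb, Matrix.one_apply_ne hkb, map_zero, sub_self]
    rw [PadicInt.ker_toZModPow, Ideal.mem_span_singleton] at hker
    obtain ⟨y, hy⟩ := hker
    rw [hy, map_mul, map_pow, map_natCast]
    exact dvd_mul_of_dvd_left (pow_dvd_pow_of_dvd
      (Ideal.mem_span_singleton.mp (hmax ▸ hpO)) n) _
  -- the relation at a power of Frobenius
  have hℓN : ¬ ℓ ∣ N * p := fun h => hℓS (hS ℓ hℓ h)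
  obtain ⟨ht, hd⟩ := hfrob ℓ hℓ hℓS A hA σ hσ
  have hzero : X (σ ^ i) = 0 := by
    have hF := congrArg (fun M => (φ.mapMatrix M).mulVec w) (E.gal_frobenius G ℓ hℓ hℓN A hA σ hσ)
    have hT : φ.mapMatrix ((opMat N ℓ hℓ).map (Int.castRingHom ℤ_[p])) =
        (opMat N ℓ hℓ).map (Int.castRingHom K) := by
      ext a b
      simp
    have hcomm := congrArg φ.mapMatrix (E.gal_commute_opMat G σ ℓ hℓ).eq
    rw [map_mul, map_mul, hT] at hcomm
    simp only [matIn_apply, latticeMat_heckeOp, map_add, map_sub, map_mul, Nat.cast_smul_eq_nsmul,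
      map_nsmul, map_one, map_zero, hT, Matrix.add_mulVec, Matrix.sub_mulVec, Matrix.zero_mulVec,
      ← Matrix.mulVec_mulVec, Matrix.smul_mulVec, Matrix.one_mulVec] at hF
    rw [Matrix.mulVec_mulVec w ((opMat N ℓ hℓ).map _), ← hcomm, ← Matrix.mulVec_mulVec,
      hwv ℓ hℓ hℓS, Matrix.mulVec_smul, ← Nat.cast_smul_eq_nsmul K ℓ] at hF
    have h0 := quadratic_pow (algebraMap O K) (ρ σ) (Φ σ) w
      (by rw [ht, hd, map_natCast]; exact hF) i
    show (Φ (σ ^ i)).mulVec ((Φ (σ ^ i)).mulVec w) - algebraMap O K (ρ (σ ^ i)).trace •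
      (Φ (σ ^ i)).mulVec w + algebraMap O K (ρ (σ ^ i)).det • w = 0
    rw [map_pow Φ, map_pow ρ]
    exact h0
  -- congruence
  have hΦd : ∀ a b, DivPow ϖ n (Φ g a b - Φ (σ ^ i) a b) := fun a b => by
    show DivPow ϖ n (algebraMap O K (ι (E.gal g a b)) - algebraMap O K (ι (E.gal (σ ^ i) a b)))
    rw [← map_sub]
    exact divPow_algebraMap K (by rw [← neg_sub]; exact (hgal a b).neg_right)
  have hvecd : ∀ (u u' : Fin (2 * Gamma0.genus N) → K), (∀ k, IsIntegral O (u' k)) →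
      (∀ k, DivPow ϖ n (u k - u' k)) →
      ∀ k, DivPow ϖ n ((Φ g).mulVec u k - (Φ (σ ^ i)).mulVec u' k) := fun u u' hu' hd' k => by
    rw [Matrix.mulVec, Matrix.mulVec, dotProduct, dotProduct, ← Finset.sum_sub_distrib]
    refine DivPow.sum _ fun l _ => ?_
    rw [show Φ g k l * u l - Φ (σ ^ i) k l * u' l =
      (u l - u' l) * Φ g k l + (Φ g k l - Φ (σ ^ i) k l) * u' l by ring]
    exact ((hd' l).mul (hΦint g k l)).add ((hΦd k l).mul (hu' l))
  have h1 := hvecd w w hwint fun k => by rw [sub_self]; exact DivPow.zero ϖ n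
  have htr : ϖ ^ n ∣ (ρ g).trace - (ρ (σ ^ i)).trace := by
    rw [← neg_sub, dvd_neg, Matrix.trace_fin_two, Matrix.trace_fin_two, add_sub_add_comm]
    exact dvd_add (hρ 0 0) (hρ 1 1)
  have hdt : ϖ ^ n ∣ (ρ g).det - (ρ (σ ^ i)).det := by
    rw [← neg_sub, dvd_neg, Matrix.det_fin_two, Matrix.det_fin_two,
      show ∀ a b c d a' b' c' d' : O, a * d - b * c - (a' * d' - b' * c') =
        (a - a') * d + a' * (d - d') - ((b - b') * c + b' * (c - c')) by intros; ring]
    exact dvd_sub (dvd_add ((hρ 0 0).mul_right _) ((hρ 1 1).mul_left _))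
      (dvd_add ((hρ 0 1).mul_right _) ((hρ 1 0).mul_left _))
  have key : DivPow ϖ n (X g j - X (σ ^ i) j) := by
    simp only [X, Pi.add_apply, Pi.sub_apply, Pi.smul_apply, smul_eq_mul]
    have h2 := hvecd _ _ (hintV (σ ^ i) w hwint) h1 j
    have h3 : DivPow ϖ n (algebraMap O K (ρ g).trace * (Φ g).mulVec w j -
        algebraMap O K (ρ (σ ^ i)).trace * (Φ (σ ^ i)).mulVec w j) := by
      rw [show ∀ a b a' b' : K, a * b - a' * b' = (b - b') * a + (a - a') * b' by intros; ring,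
        ← map_sub]
      exact ((h1 j).mul isIntegral_algebraMap).add
        ((divPow_algebraMap K htr).mul (hintV _ w hwint j))
    have h4 : DivPow ϖ n (algebraMap O K (ρ g).det * w j -
        algebraMap O K (ρ (σ ^ i)).det * w j) := by
      rw [← sub_mul, ← map_sub]
      exact (divPow_algebraMap K hdt).mul (hwint j)
    rw [add_sub_add_comm, sub_sub_sub_comm]
    exact (h2.sub h3).add h4
  rwa [hzero, Pi.zero_apply, sub_zero] at key

end Fermat.Agent.RT.InertiaTW

end
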