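import Fermat.Agent.RT.InertiaTW.Quadratic
import Mathlib.LinearAlgebra.Matrix.ToLinearEquiv
import Mathlib.LinearAlgebra.Matrix.Determinant.Basic
import Mathlib.RingTheory.RootsOfUnity.PrimitiveRoots
import Mathlib.RingTheory.RootsOfUnity.EnoughRootsOfUnity
import Mathlib.RingTheory.RootsOfUnity.AlgebraicallyClosed
import Mathlib.FieldTheory.IsAlgClosed.Basic
import Mathlib.Analysis.Complex.Polynomial.Basic

/-!
# Linear algebra of an eigenline and lifting of characters of finite order

A space with an action of the matrices of a spanning representation is spanned by the translates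
of the vectors coming from one line of matrices; characters of finite order lift along embeddings.
-/

set_option autoImplicit false

noncomputable section

namespace Fermat.Agent.RT.InertiaTW

variable {K : Type*} [Field K] {G : Type*} [Group G] {V : Type*} [AddCommGroup V] [Module K V]

/-- The translates of the image of the matrices with columns on a line exhaust the module. -/
theorem eq_top_of_eigen {ρ : G →* Matrix (Fin 2) (Fin 2) K}
    (hspan : Submodule.span K (Set.range ρ) = ⊤) (Φ : Matrix (Fin 2) (Fin 2) K →ₐ[K] Module.End K V)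
    {v : Fin 2 → K} (hv : v ≠ 0) (W : Submodule K V)
    (hW : ∀ (τ : G) (lam : Fin 2 → K) (y : V),
      Φ (ρ τ) (Φ (Matrix.vecMulVec v lam) y) ∈ W) : W = ⊤ := by
  classical
  refine eq_top_iff.mpr fun y _ => ?_
  have h : ∀ (M : Matrix (Fin 2) (Fin 2) K) (lam : Fin 2 → K),
      Φ (M * Matrix.vecMulVec v lam) y ∈ W := by
    intro M lam
    have hM : M ∈ Submodule.span K (Set.range ρ) := hspan ▸ Submodule.mem_top
    induction hM using Submodule.span_induction with
    | mem M hM =>
      obtain ⟨τ, rfl⟩ := hM
      rw [map_mul]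
      exact hW τ lam y
    | zero => rw [zero_mul, map_zero]; exact zero_mem _
    | add x x' _ _ hx hx' => rw [add_mul, map_add]; exact add_mem hx hx'
    | smul c x _ hx => rw [smul_mul_assoc, map_smul]; exact Submodule.smul_mem _ c hx
  obtain ⟨i, hi⟩ : ∃ i, v i ≠ 0 := Function.ne_iff.mp hv
  have e : (1 : Matrix (Fin 2) (Fin 2) K) =
      ∑ j, Matrix.single j i (v i)⁻¹ * Matrix.vecMulVec v (Pi.single j 1) := by
    ext a b
    rw [Matrix.sum_apply]
    fin_cases a <;> fin_cases b <;> fin_cases i <;>
      simp_all [Fin.sum_univ_two, Matrix.mul_apply, Matrix.vecMulVec, Matrix.single]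
  have := congrArg (fun M => Φ M y) e
  simp only [map_one, Module.End.one_apply, map_sum, LinearMap.sum_apply] at this
  rw [this]
  exact sum_mem fun j _ => h _ _

/-- The trace of a matrix of determinant one with eigenvalue `c` is `c + c⁻¹`. -/
theorem trace_eq_add_inv_of_eigen {M : Matrix (Fin 2) (Fin 2) K} {v : Fin 2 → K} {c : K}
    (hv : v ≠ 0) (hd : M.det = 1) (h : M.mulVec v = c • v) : M.trace = c + c⁻¹ := by
  have h0 : (M - c • (1 : Matrix (Fin 2) (Fin 2) K)).det = 0 :=
    Matrix.exists_mulVec_eq_zero_iff.mp ⟨v, hv, by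
      rw [Matrix.sub_mulVec, h, Matrix.smul_mulVec, Matrix.one_mulVec, sub_self]⟩
  rw [Matrix.det_fin_two] at hd
  simp [Matrix.det_fin_two] at h0
  have hc : c ≠ 0 := by
    intro hc
    subst hc
    exact one_ne_zero (by linear_combination h0 - hd : (1 : K) = 0)
  rw [Matrix.trace_fin_two]
  field_simp
  linear_combination hd - h0

/-- A character of finite order into `ℂ` takes its values in every algebraically closed subfield. -/
theorem exists_monoidHom_lift {K : Type*} [Field K] [IsAlgClosed K] [CharZero K] {H : Type*}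
    [Monoid H] (ι : K →+* ℂ) (χ : H →* ℂ) {m : ℕ} [NeZero m] (hχ : ∀ x, χ x ^ m = 1) :
    ∃ χK : H →* K, ∀ x, ι (χK x) = χ x := by
  obtain ⟨ζ, hζ⟩ := HasEnoughRootsOfUnity.exists_primitiveRoot K m
  have h : ∀ x, ∃ y : K, ι y = χ x := fun x => by
    obtain ⟨i, -, hi⟩ := (hζ.map_of_injective ι.injective).eq_pow_of_pow_eq_one (hχ x)
    exact ⟨ζ ^ i, by rw [map_pow]; exact hi⟩
  choose y hy using h
  refine ⟨{ toFun := y, map_one' := ι.injective ?_, map_mul' := fun a b => ι.injective ?_ }, hy⟩
  · rw [hy, map_one, map_one]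
  · rw [hy, map_mul, map_mul, hy, hy]

end Fermat.Agent.RT.InertiaTW

end
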