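import Fermat.Agent.RT.InertiaTW.GroupSum
import Fermat.Agent.RT.InertiaTW.LevelAction
import Fermat.Agent.RT.GammaH.Twist
import Fermat.Agent.RT.GammaH.NebHecke
import Fermat.Agent.Periods.Congruence.Injective
import Fermat.Agent.NewformLocal.Toric.Homs

/-!
# Periods of a twisted form on `Γ(qn)`

A form of nebentypus `χ⁻²` at `q` has rescaled periods fixed by the lower unipotents of
`SL₂(𝔽_q)` and of weight `χ²` under the torus, and the periods of its twist are their twist.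
-/

set_option autoImplicit false

noncomputable section

open CongruenceSubgroup UpperHalfPlane Matrix.SpecialLinearGroup ModularFormClass
open ModularCurve.Period
open scoped MatrixGroups ModularForm

namespace Fermat.Agent.RT.InertiaTW

open Fermat.Agent.RT.GammaH (IsNeb HasCoeff seqOp nebWeight translSum transl)
open ModularCurve (periodMap)
open Fermat.Agent.Periods (IsPrimitive)
open Fermat.Agent.Periods.Congruence (per per_eq)

variable {q n : ℕ} [NeZero (q * n)] {A : Type*} [AddCommGroup A]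

/-- Rescaled homomorphisms. -/
def resHom {Γ : Subgroup SL(2, ℤ)} (hres : ∀ γ : CongruenceSubgroup.Gamma (q * n), rescale q n γ ∈ Γ)
    (φ : Additive Γ →+ A) : Additive (CongruenceSubgroup.Gamma (q * n)) →+ A :=
  φ.comp (MonoidHom.toAdditive ((rescale q n).codRestrict Γ hres))

theorem resHom_apply {Γ : Subgroup SL(2, ℤ)}
    (hres : ∀ γ : CongruenceSubgroup.Gamma (q * n), rescale q n γ ∈ Γ) (φ : Additive Γ →+ A)
    (γ : CongruenceSubgroup.Gamma (q * n)) :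
    resHom hres φ (Additive.ofMul γ) = φ (Additive.ofMul ⟨rescale q n γ, hres γ⟩) := rfl

variable (q) in
/-- `diag(1, q)` over `ℤ`. -/
def dMat : Matrix (Fin 2) (Fin 2) ℤ := !![1, 0; 0, (q : ℤ)]

theorem rescale_mul_dMat (γ : CongruenceSubgroup.Gamma (q * n)) :
    (rescale q n γ : Matrix (Fin 2) (Fin 2) ℤ) * dMat q =
      dMat q * ((γ : SL(2, ℤ)) : Matrix (Fin 2) (Fin 2) ℤ) := by
  have e := upper_div_mul γ
  rw [coe_rescale]
  ext i j
  fin_cases i <;> fin_cases j <;> simp [dMat, Matrix.mul_apply, Fin.sum_univ_two, mul_comm] at e ⊢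
  exact e

omit [NeZero (q * n)] in
theorem eq_of_mul_dMat [NeZero q] {X Y : SL(2, ℤ)}
    (h : (X : Matrix (Fin 2) (Fin 2) ℤ) * dMat q = (Y : Matrix (Fin 2) (Fin 2) ℤ) * dMat q) :
    X = Y := by
  have hq : (q : ℤ) ≠ 0 := Int.natCast_ne_zero.mpr (NeZero.ne q)
  refine Subtype.ext (Matrix.ext fun i j => ?_)
  have e := congrFun (congrFun h i) j
  fin_cases j <;> simp [dMat, Matrix.mul_apply, Fin.sum_univ_two] at e ⊢
  · exact e
  · exact e.resolve_right (NeZero.ne q)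

theorem exists_conj_rescale [NeZero q] {R : ℕ} (hR : R ∣ n) {l : SL(2, ℤ)}
    (hl : l ∈ CongruenceSubgroup.Gamma n) (hq : (q : ℤ) ∣ l 0 1) :
    ∃ l' : SL(2, ℤ), l' ∈ Gamma0 (q * R) ∧ l' 1 1 = l 1 1 ∧
      ∀ γ : CongruenceSubgroup.Gamma (q * n),
        rescale q n ⟨l * γ * l⁻¹, (Gamma_normal _).conj_mem _ γ.2 l⟩ * l' = l' * rescale q n γ := by
  obtain ⟨b, hb⟩ := hq
  have hdet : (!![l 0 0, b; l 1 0 * (q : ℤ), l 1 1] : Matrix (Fin 2) (Fin 2) ℤ).det = 1 := by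
    have h := l.det_coe
    rw [Matrix.det_fin_two, hb] at h
    rw [Matrix.det_fin_two_of]
    linear_combination h
  let l' : SL(2, ℤ) := ⟨_, hdet⟩
  have hl' : (l' : Matrix (Fin 2) (Fin 2) ℤ) = !![l 0 0, b; l 1 0 * (q : ℤ), l 1 1] := rfl
  have hlD : (l' : Matrix (Fin 2) (Fin 2) ℤ) * dMat q =
      dMat q * (l : Matrix (Fin 2) (Fin 2) ℤ) := by
    rw [hl']
    ext i j
    fin_cases i <;> fin_cases j <;> simp [dMat, Matrix.mul_apply, Fin.sum_univ_two, hb, mul_comm]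
  refine ⟨l', ?_, rfl, fun γ => eq_of_mul_dMat (q := q) ?_⟩
  · rw [Gamma0_mem, ZMod.intCast_zmod_eq_zero_iff_dvd, hl']
    simp only [Matrix.of_apply, Matrix.cons_val', Matrix.cons_val_zero, Matrix.cons_val_one,
      Matrix.cons_val_fin_one, Fin.isValue, Nat.cast_mul]
    rw [mul_comm (l 1 0)]
    exact mul_dvd_mul_left _ ((Int.natCast_dvd_natCast.mpr hR).trans (entry_mem_Gamma hl).2.2.1)
  · rw [Matrix.SpecialLinearGroup.coe_mul, Matrix.SpecialLinearGroup.coe_mul,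
      Matrix.mul_assoc, hlD, ← Matrix.mul_assoc, rescale_mul_dMat, Matrix.mul_assoc,
      Matrix.mul_assoc, rescale_mul_dMat, ← Matrix.mul_assoc (l' : Matrix (Fin 2) (Fin 2) ℤ), hlD,
      Matrix.mul_assoc]
    congr 1
    rw [← Matrix.SpecialLinearGroup.coe_mul, ← Matrix.SpecialLinearGroup.coe_mul]
    congr 1
    show l * γ * l⁻¹ * l = l * γ
    group

theorem mem_range_rescale [NeZero q] {X : SL(2, ℤ)}
    (hX : X ∈ CongruenceSubgroup.Gamma (q * (q * n))) :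
    ∃ γ : CongruenceSubgroup.Gamma (q * n), rescale q n γ = X := by
  obtain ⟨⟨k, hk⟩, ⟨b, hb⟩, ⟨c, hc⟩, ⟨e, he⟩⟩ := entry_mem_Gamma hX
  have hdet : (!![X 0 0, X 0 1 * (q : ℤ); (q : ℤ) * n * c, X 1 1] :
      Matrix (Fin 2) (Fin 2) ℤ).det = 1 := by
    have h := X.det_coe
    rw [Matrix.det_fin_two, hc] at h
    rw [Matrix.det_fin_two_of]
    push_cast at h
    linear_combination h
  have hmem : (⟨_, hdet⟩ : SL(2, ℤ)) ∈ CongruenceSubgroup.Gamma (q * n) := by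
    refine Gamma_mem.mpr ⟨?_, ?_, ?_, ?_⟩ <;>
      simp only [Matrix.of_apply, Matrix.cons_val', Matrix.cons_val_zero, Matrix.cons_val_one,
        Matrix.cons_val_fin_one, Fin.isValue]
    · simpa [sub_eq_zero] using (ZMod.intCast_zmod_eq_zero_iff_dvd (X 0 0 - 1) (q * n)).mpr
        ⟨(q : ℤ) * k, by rw [hk]; push_cast; ring⟩
    · rw [ZMod.intCast_zmod_eq_zero_iff_dvd, hb]
      exact ⟨(q : ℤ) * b * q, by push_cast; ring⟩
    · rw [ZMod.intCast_zmod_eq_zero_iff_dvd]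
      exact ⟨c, by push_cast; ring⟩
    · simpa [sub_eq_zero] using (ZMod.intCast_zmod_eq_zero_iff_dvd (X 1 1 - 1) (q * n)).mpr
        ⟨(q : ℤ) * e, by rw [he]; push_cast; ring⟩
  refine ⟨⟨_, hmem⟩, eq_of_mul_dMat (q := q) ?_⟩
  rw [rescale_mul_dMat]
  ext i j
  fin_cases i <;> fin_cases j <;> simp [dMat, Matrix.mul_apply, Fin.sum_univ_two, hc, mul_comm]
  ring

theorem gamma_le_gamma1 (M : ℕ) : CongruenceSubgroup.Gamma M ≤ Gamma1 M := fun γ hγ => by
  obtain ⟨h1, -, h3, h4⟩ := Gamma_mem.mp hγ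
  exact (Gamma1_mem M γ).mpr ⟨h1, h4, h3⟩

variable [Fact q.Prime] {R : ℕ} [NeZero (q * R)] (χ : DirichletCharacter ℂ q) {f : ℍ → ℂ}
  (hf : IsNeb (q * R) (χ⁻¹ ^ 2) f) (hR : R ∣ n)

/-- `χ` on units. -/
def chiU : (ZMod q)ˣ →* ℂ := χ.toMonoidHom.comp (Units.coeHom (ZMod q))

theorem chiU_apply (u : (ZMod q)ˣ) : chiU χ u = χ (u : ZMod q) := rfl

theorem sum_units_eq (F : ZMod q → ℂ) (h0 : F 0 = 0) :
    ∑ x : ZMod q, F x = ∑ u : (ZMod q)ˣ, F (u : ZMod q) := by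
  classical
  rw [← Finset.add_sum_erase _ _ (Finset.mem_univ (0 : ZMod q)), h0, zero_add]
  refine (Finset.sum_bij (fun (u : (ZMod q)ˣ) _ => (u : ZMod q)) (fun u _ => ?_)
    (fun a _ b _ => Units.ext)
    (fun v hv => ⟨Units.mk0 v (Finset.ne_of_mem_erase hv), Finset.mem_univ _, rfl⟩)
    (fun u _ => rfl)).symm
  exact Finset.mem_erase.mpr ⟨u.ne_zero, Finset.mem_univ _⟩

theorem sum_chiU {ψ : DirichletCharacter ℂ q} (h : ψ ≠ 1) :
    ∑ u : (ZMod q)ˣ, ψ (u : ZMod q) = 0 :=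
  (sum_units_eq (fun x => ψ x) (MulChar.map_zero ψ)).symm.trans (MulChar.sum_eq_zero_of_ne_one h)

/-- The rescaled periods. -/
def perFun : Additive (CongruenceSubgroup.Gamma (q * n)) →+ ℂ :=
  resHom (fun γ => rescale_mem_Gamma1 hR γ) (per (hf.toForm (dvd_mul_right q R)))

theorem conjHomG_perFun {l : SL(2, ℤ)} (hl : l ∈ CongruenceSubgroup.Gamma n)
    (hq : (q : ℤ) ∣ l 0 1) :
    conjHomG l (perFun χ hf hR) = (χ⁻¹ ^ 2) ((l 1 1 : ℤ) : ZMod q) • perFun χ hf hR := by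
  obtain ⟨l', hl0, hld, hconj⟩ := exists_conj_rescale hR hl hq
  obtain ⟨F, hF, -⟩ := Periods.Congruence.exists_primitive (M := q * R)
    (gamma_le_gamma1 _) (hf.toForm (dvd_mul_right q R))
  rw [IsNeb.coe_toForm] at hF
  refine AddMonoidHom.ext fun γ => ?_
  obtain ⟨γ, rfl⟩ := Additive.ofMul.surjective γ
  rw [conjHomG_apply, AddMonoidHom.smul_apply, perFun, resHom_apply, resHom_apply,
    per_eq (F := F) hF _ (l' • I), per_eq (F := F) hF _ I]
  have h1 := hF.comp_SL l'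
  rw [hf.neb l' hl0, hld] at h1
  have h2 := h1.sub_eq (hF.const_smul ((χ⁻¹ ^ 2) ((l 1 1 : ℤ) : ZMod q)))
    (rescale q n γ • I) I
  simp only [Pi.smul_apply, smul_eq_mul] at h2
  rw [smul_smul, hconj γ, mul_smul, smul_eq_mul]
  linear_combination h2

theorem sDiag_inv (u : (ZMod q)ˣ) : (sDiag u)⁻¹ = sDiag u⁻¹ := by
  refine inv_eq_of_mul_eq_one_right (Subtype.ext ?_)
  rw [Matrix.SpecialLinearGroup.coe_mul, coe_sDiag, coe_sDiag, Matrix.SpecialLinearGroup.coe_one,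
    inv_inv, Matrix.mul_fin_two, Matrix.one_fin_two]
  simp only [mul_zero, zero_mul, add_zero, zero_add, Units.inv_mul, Units.mul_inv]

variable [hcop : Fact (q.Coprime n)]

theorem liftSL_entry (s : SL(2, ZMod q)) (i j : Fin 2) :
    ((liftSL (n := n) s i j : ℤ) : ZMod q) = s i j := by
  have e := congrFun (congrFun (congrArg Subtype.val (map_liftSL (n := n) s)) i) j
  simpa using e

theorem sMinus_smul_perFun (s : ZMod q) : sMinus s • perFun χ hf hR = perFun χ hf hR := by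
  have hinv : (sMinus s)⁻¹ = sMinus (-s) :=
    inv_eq_of_mul_eq_one_right (by rw [sMinus_mul, add_neg_cancel, sMinus_zero])
  show conjHomG (liftSL (n := n) (sMinus s)⁻¹) _ = _
  rw [hinv, conjHomG_perFun χ hf hR (liftSL_mem _) ((ZMod.intCast_zmod_eq_zero_iff_dvd _ q).mp
    (by rw [liftSL_entry, coe_sMinus]; rfl)), liftSL_entry, coe_sMinus]
  show ((χ⁻¹ ^ 2) (1 : ZMod q)) • _ = _
  rw [MulChar.map_one, one_smul]

theorem sDiag_smul_perFun (u : (ZMod q)ˣ) :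
    sDiag u • perFun χ hf hR = ((χ ^ 2) (u : ZMod q)) • perFun χ hf hR := by
  show conjHomG (liftSL (n := n) (sDiag u)⁻¹) _ = _
  rw [sDiag_inv, conjHomG_perFun χ hf hR (liftSL_mem _) ((ZMod.intCast_zmod_eq_zero_iff_dvd _ q).mp
    (by rw [liftSL_entry, coe_sDiag]; rfl)), liftSL_entry, coe_sDiag]
  congr 1
  simp only [Matrix.of_apply, Matrix.cons_val', Matrix.cons_val_one, Matrix.cons_val_fin_one,
    Fin.isValue]
  rw [inv_pow, MulChar.inv_apply, Ring.inverse_unit, inv_inv]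

omit hcop [Fact q.Prime] in
theorem perFun_ne_zero [NeZero q] (hne : f ≠ 0) : perFun χ hf hR ≠ 0 := by
  intro h
  refine hne ?_
  have key : per (hf.toForm (dvd_mul_right q R)) = 0 := by
    refine AddMonoidHom.ext fun x => ?_
    obtain ⟨x, rfl⟩ := Additive.ofMul.surjective x
    have : NeZero (q * (q * n)) := ⟨mul_ne_zero (NeZero.ne q) (NeZero.ne (q * n))⟩
    set H := (CongruenceSubgroup.Gamma (q * (q * n))).subgroupOf (Gamma1 (q * R)) with hH
    have : H.Normal := (Gamma_normal _).subgroupOf _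
    have : H.FiniteIndex := inferInstance
    obtain ⟨γ, hγ⟩ := mem_range_rescale (n := n) (X := ((x ^ H.index : Gamma1 (q * R)) : SL(2, ℤ)))
      (Subgroup.mem_subgroupOf.mp (Subgroup.pow_index_mem H x))
    have e := DFunLike.congr_fun h (Additive.ofMul γ)
    rw [perFun, resHom_apply, AddMonoidHom.zero_apply,
      show (⟨rescale q n γ, rescale_mem_Gamma1 hR γ⟩ : Gamma1 (q * R)) = x ^ H.index from
        Subtype.ext hγ, ofMul_pow, map_nsmul, nsmul_eq_mul] at e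
    exact (mul_eq_zero.mp e).resolve_left (Nat.cast_ne_zero.mpr Subgroup.FiniteIndex.index_ne_zero)
  exact congrArg DFunLike.coe (Periods.Congruence.per_injective (M := q * R) (gamma_le_gamma1 _) key)

omit [NeZero (q * R)] hcop in
theorem transl_mul_rescale (t : ℤ) (γ : CongruenceSubgroup.Gamma (q * n)) :
    transl q t * mapGL ℝ (rescale q n γ) =
      mapGL ℝ (rescale q n ⟨ModularGroup.T ^ t * γ * (ModularGroup.T ^ t)⁻¹,
        (Gamma_normal _).conj_mem _ γ.2 _⟩) * transl q t := by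
  have hq : (q : ℝ) ≠ 0 := Nat.cast_ne_zero.mpr (Fact.out : q.Prime).ne_zero
  set δ : CongruenceSubgroup.Gamma (q * n) := ⟨ModularGroup.T ^ t * γ * (ModularGroup.T ^ t)⁻¹,
    (Gamma_normal _).conj_mem _ γ.2 _⟩ with hδ
  set D : Matrix (Fin 2) (Fin 2) ℝ := !![1, 0; 0, (q : ℝ)] with hD
  have hres : ∀ γ : CongruenceSubgroup.Gamma (q * n),
      ((mapGL ℝ (rescale q n γ) : GL (Fin 2) ℝ) : Matrix (Fin 2) (Fin 2) ℝ) * D =
        D * ((mapGL ℝ (γ : SL(2, ℤ)) : GL (Fin 2) ℝ) : Matrix (Fin 2) (Fin 2) ℝ) := by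
    intro γ
    have e := upper_div_mul γ
    have e' : (((γ : SL(2, ℤ)) 0 1 / (q : ℤ) : ℤ) : ℝ) * (q : ℝ) = (((γ : SL(2, ℤ)) 0 1 : ℤ) : ℝ) := by
      exact_mod_cast e
    ext i j
    fin_cases i <;> fin_cases j <;>
      simp [hD, coe_rescale, Matrix.mul_apply, Fin.sum_univ_two, mul_comm] at e' ⊢
    exact e'
  have hT : (transl q t : Matrix (Fin 2) (Fin 2) ℝ) * D =
      D * ((mapGL ℝ (ModularGroup.T ^ t) : GL (Fin 2) ℝ) : Matrix (Fin 2) (Fin 2) ℝ) := by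
    rw [GammaH.val_transl, mapGL_coe_matrix, map_apply_coe, ModularGroup.coe_T_zpow]
    ext i j
    fin_cases i <;> fin_cases j <;> simp [hD, Matrix.mul_apply, Fin.sum_univ_two, hq]
  have hcanc : IsUnit D := (Matrix.isUnit_iff_isUnit_det D).mpr (by
    rw [hD, Matrix.det_fin_two_of, mul_zero, sub_zero, one_mul]; exact isUnit_iff_ne_zero.mpr hq)
  refine Units.ext (hcanc.mul_left_injective ?_)
  simp only [Units.val_mul]
  rw [Matrix.mul_assoc, hres γ, ← Matrix.mul_assoc, hT, Matrix.mul_assoc, Matrix.mul_assoc,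
    hT, ← Matrix.mul_assoc (_ : Matrix (Fin 2) (Fin 2) ℝ) D, hres δ, Matrix.mul_assoc]
  congr 1
  rw [← Units.val_mul, ← Units.val_mul, ← map_mul, ← map_mul, hδ]
  congr 2
  show ModularGroup.T ^ t * (γ : SL(2, ℤ)) =
    ModularGroup.T ^ t * γ * (ModularGroup.T ^ t)⁻¹ * ModularGroup.T ^ t
  group

omit hcop [NeZero (q * n)] [NeZero (q * R)] in
theorem exists_int_lift [NeZero n] (hqn : q.Coprime n) (x : ZMod q) :
    ∃ t : ℤ, (t : ZMod q) = x ∧ (n : ℤ) ∣ t := by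
  refine ⟨(n : ℤ) * (((n : ZMod q)⁻¹ * x).val : ℤ), ?_, dvd_mul_right _ _⟩
  have hn : (n : ZMod q) ≠ 0 := ((ZMod.isUnit_iff_coprime n q).mpr hqn.symm).ne_zero
  push_cast
  rw [ZMod.natCast_zmod_val, mul_inv_cancel_left₀ hn]

/-- The periods of the twist. -/
theorem exists_twist_periods [NeZero (q ^ 2 * R)] (hχ : χ ≠ 1) {a : ℕ → ℂ} (ha : HasCoeff f a) :
    ∃ (φ : CuspForm (Gamma0 (q ^ 2 * R)) 2) (c : ℂ), c ≠ 0 ∧
      (∀ m, qCoeff φ m = χ (m : ZMod q) * a m) ∧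
      resHom (fun γ => rescale_mem_Gamma0 dvd_rfl hR γ) (periodMap (q ^ 2 * R) φ) =
        c • ∑ w : (ZMod q)ˣ, chiU χ w⁻¹ • (sPlus (w : ZMod q) • perFun χ hf hR) := by
  classical
  have hqn : q.Coprime n := hcop.out
  have : NeZero n := ⟨right_ne_zero_of_mul (NeZero.ne (q * n))⟩
  have hqM : q ∣ q * R := dvd_mul_right q R
  obtain ⟨F, hF, hFa, hFdef⟩ :=
    GammaH.exists_twist_prime (M := q * R) hqM dvd_rfl hqM hf ha hχ
  rw [DirichletCharacter.changeLevel_self, ← mul_pow, inv_mul_cancel, one_pow] at hF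
  have hdvd : q * R * q ∣ q ^ 2 * R := dvd_of_eq (by ring)
  have hF' := hF.of_dvd hdvd
  have hqN : q ∣ q ^ 2 * R := (dvd_pow_self q two_ne_zero).mul_right R
  have hinv : ∀ γ ∈ Gamma0 (q ^ 2 * R), F ∣[(2 : ℤ)] γ = F := fun γ hγ => by
    rw [hF'.neb γ hγ, MulChar.one_apply, one_smul]
    rw [← map_intCast (ZMod.castHom hqN (ZMod q))]
    exact (DeligneSerre.isUnit_lowerRight hγ).map _
  let φ : CuspForm (Gamma0 (q ^ 2 * R)) 2 := DeligneSerre.mkCuspForm (Gamma0 (q ^ 2 * R)) 2 F hinv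
    hF'.cusp.1 fun γ => by simpa [SlashAction.slash_one] using (hF'.cusp.slash_SL γ).2 1
  have hφ : ⇑φ = F := rfl
  set G := gaussSum χ⁻¹ (ZMod.stdAddChar (N := q)) with hG
  have hG0 : G ≠ 0 := gaussSum_ne_zero_of_nontrivial (by simp [NeZero.ne q])
    (inv_ne_one.2 hχ) (ZMod.isPrimitive_stdAddChar q)
  refine ⟨φ, G⁻¹ * χ⁻¹ (-1), mul_ne_zero (inv_ne_zero hG0)
    ((IsUnit.map χ⁻¹ isUnit_one.neg).ne_zero), fun m => ?_, ?_⟩
  · rw [hφ]
    exact hF'.qCoeff_eq hqN hFa m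
  choose t ht htn using exists_int_lift (q := q) (n := n) hqn
  obtain ⟨F₀, hF₀, -⟩ := Periods.Congruence.exists_primitive (M := q * R)
    (gamma_le_gamma1 _) (hf.toForm hqM)
  rw [IsNeb.coe_toForm] at hF₀
  have hsl : ∀ x : ZMod q, f ∣[(2 : ℤ)] transl q x.val = f ∣[(2 : ℤ)] transl q (t x) := by
    intro x
    obtain ⟨k, hk⟩ : (q : ℤ) ∣ t x - (x.val : ℤ) := by
      rw [← ZMod.intCast_zmod_eq_zero_iff_dvd]
      push_cast
      rw [ht, ZMod.natCast_zmod_val, sub_self]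
    have hTk : ModularGroup.T ^ k ∈ Gamma1 (q * R) := by
      rw [Gamma1_mem]
      simp [ModularGroup.coe_T_zpow]
    have e : transl q (t x) = mapGL ℝ (ModularGroup.T ^ k) * transl q x.val := by
      refine Units.ext ?_
      rw [Units.val_mul, GammaH.val_transl, GammaH.val_transl, mapGL_coe_matrix, map_apply_coe,
        ModularGroup.coe_T_zpow]
      have hq : (q : ℝ) ≠ 0 := Nat.cast_ne_zero.mpr (NeZero.ne q)
      have hkR : (t x : ℝ) - (x.val : ℝ) = q * k := by exact_mod_cast hk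
      ext i j
      fin_cases i <;> fin_cases j <;>
        simp [Matrix.mul_apply, Fin.sum_univ_two, -ZMod.natCast_val]
      field_simp
      linear_combination hkR
    rw [e, SlashAction.slash_mul]
    congr 1
    exact (hf.gamma1 hqM hTk).symm
  set w : ZMod q → ℂ := fun x => G⁻¹ * χ⁻¹ x with hw
  set P : ZMod q → ℍ → ℂ := fun x τ => F₀ (transl q (t x) • τ) with hP
  have hprim : IsPrimitive ⇑φ (∑ x : ZMod q, w x • P x) := by
    intro τ
    have h : ∀ x : ZMod q, HasDerivAt ((w x • P x) ∘ ofComplex)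
        ((w x • (f ∣[(2 : ℤ)] transl q x.val)) τ) (τ : ℂ) := fun x => by
      rw [hsl]
      exact (hF₀.comp_smul (GammaH.det_transl_pos q (t x))).const_smul (w x) τ
    have e := HasDerivAt.sum (u := Finset.univ) fun x _ => h x
    rw [hφ, hFdef]
    refine (e.congr_of_eventuallyEq (Filter.Eventually.of_forall fun z => ?_)).congr_deriv ?_
    · simp [Finset.sum_apply]
    · simp [translSum, Finset.sum_apply, hw]
  set pf := perFun χ hf hR with hpf
  have hterm : ∀ (x : ZMod q) (γ : CongruenceSubgroup.Gamma (q * n)),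
      P x (rescale q n γ • I) - P x I = (sPlus (-x) • pf) (Additive.ofMul γ) := by
    intro x γ
    have hT : ModularGroup.T ^ t x ∈ CongruenceSubgroup.Gamma n :=
      Gamma_mem.mpr (by
        have h := (ZMod.intCast_zmod_eq_zero_iff_dvd (t x) n).mpr (htn x)
        simp [ModularGroup.coe_T_zpow, h])
    have hmap : map (Int.castRingHom (ZMod q)) (ModularGroup.T ^ t x) = (sPlus (-x))⁻¹ := by
      rw [inv_eq_of_mul_eq_one_right (a := sPlus (-x)) (b := sPlus x)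
        (by rw [sPlus_mul, neg_add_cancel, sPlus_zero])]
      refine Subtype.ext ?_
      rw [map_apply_coe, ModularGroup.coe_T_zpow, coe_sPlus]
      ext i j
      fin_cases i <;> fin_cases j <;> simp [ht]
    rw [smul_eq_conjHomG hT hmap, conjHomG_apply, hpf, perFun, resHom_apply,
      per_eq (F := F₀) hF₀ _ (transl q (t x) • I)]
    simp only [hP]
    congr 2
    show transl q (t x) • (mapGL ℝ (rescale q n γ) • I) = _
    rw [smul_smul, transl_mul_rescale, mul_smul]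
    rfl
  refine AddMonoidHom.ext fun γ => ?_
  obtain ⟨γ, rfl⟩ := Additive.ofMul.surjective γ
  rw [resHom_apply, Periods.periodMap_eq hprim _ I]
  simp only [Finset.sum_apply, Pi.smul_apply, smul_eq_mul, AddMonoidHom.smul_apply,
    AddMonoidHom.finsetSum_apply, ← Finset.sum_sub_distrib, ← mul_sub, hterm, hw]
  rw [sum_units_eq (fun x => G⁻¹ * χ⁻¹ x * (sPlus (-x) • pf) (Additive.ofMul γ))
    (by rw [MulChar.map_zero, mul_zero, zero_mul]), Finset.mul_sum]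
  refine Fintype.sum_equiv (Equiv.neg _) _ _ fun u => ?_
  rw [Equiv.neg_apply, Units.val_neg, chiU_apply,
    show (((-u)⁻¹ : (ZMod q)ˣ) : ZMod q) = (((-u) : (ZMod q)ˣ) : ZMod q)⁻¹ from
      Units.val_inv_eq_inv_val _,
    Units.val_neg, ← MulChar.inv_apply', ← neg_one_mul ((u : ZMod q)), map_mul]
  have h1 : χ⁻¹ (-1) * χ⁻¹ (-1) = 1 := by rw [← map_mul, neg_one_mul, neg_neg, MulChar.map_one]
  rw [neg_one_mul]
  linear_combination (-(G⁻¹ * χ⁻¹ (u : ZMod q) * (sPlus (-(u : ZMod q)) • pf) (Additive.ofMul γ))) * h1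

include hf in
/-- The twisted trace of the periods of the twist does not vanish. -/
theorem exists_twist_lowerTr_ne_zero [NeZero (q ^ 2 * R)] (hχ : χ ≠ 1) (hχ2 : χ ^ 2 ≠ 1)
    {a : ℕ → ℂ} (ha : HasCoeff f a) (hne : f ≠ 0) :
    ∃ φ : CuspForm (Gamma0 (q ^ 2 * R)) 2, (∀ m, qCoeff φ m = χ (m : ZMod q) * a m) ∧
      lowerTr (q := q) (twistOp (chiU χ)
        (resHom (fun γ => rescale_mem_Gamma0 (n := n) dvd_rfl hR γ)
          (periodMap (q ^ 2 * R) φ))) ≠ 0 := by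
  obtain ⟨φ, c, hc, hcoef, hφ⟩ := exists_twist_periods χ hf hR hχ ha
  refine ⟨φ, hcoef, fun h => ?_⟩
  set pf := perFun χ hf hR with hpf
  have hcomm : ∀ X : Additive (CongruenceSubgroup.Gamma (q * n)) →+ ℂ,
      lowerTr (q := q) (twistOp (chiU χ) (c • X)) = c • lowerTr (q := q) (twistOp (chiU χ) X) :=
    fun X => by
      simp only [lowerTr, twistOp, Finset.smul_sum, smul_comm (sPlus _) c,
        smul_comm (sMinus _) c, smul_comm (chiU χ _) c]
  rw [hφ, hcomm, lowerTr_twistOp_twistOp (chiU χ) (by simpa [chiU_apply] using sum_chiU hχ)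
    (μ := fun u => (χ ^ 2) (u : ZMod q)) (sum_chiU hχ2) (sMinus_smul_perFun χ hf hR)
    (sDiag_smul_perFun χ hf hR), ← Int.cast_smul_eq_zsmul ℂ] at h
  have hq0 : ((q : ℤ) * ((q : ℤ) - 1) : ℂ) ≠ 0 := by
    have := (Fact.out : q.Prime).two_le
    exact_mod_cast mul_ne_zero (Int.natCast_ne_zero.mpr (NeZero.ne q))
      (by omega : (q : ℤ) - 1 ≠ 0)
  have hm : chiU χ (-1) ≠ 0 := ((-1 : (ZMod q)ˣ).isUnit.map χ).ne_zero
  rw [smul_eq_zero, smul_eq_zero, smul_eq_zero] at h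
  rcases h with h | h | h | h
  · exact hc h
  · exact hm h
  · exact hq0 (by exact_mod_cast h)
  · exact perFun_ne_zero χ hf hR hne h

omit [NeZero (q * n)] [NeZero (q * R)] hcop hR in
/-- The twist has the eigenvalues of `χ ⊗ a`. -/
theorem heckeOp_twist [NeZero (q ^ 2 * R)] {a : ℕ → ℂ} {φ : CuspForm (Gamma0 (q ^ 2 * R)) 2}
    (hcoef : ∀ m, qCoeff φ m = χ (m : ZMod q) * a m) {ℓ : ℕ} (hℓ : ℓ.Prime)
    (hℓN : ¬ ℓ ∣ q ^ 2 * R) {b : ℂ}
    (heig : ∀ m, seqOp (nebWeight (χ⁻¹ ^ 2)) ℓ a m = χ⁻¹ (ℓ : ZMod q) * b * a m) :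
    (HeckeDuality.heckeOp (q ^ 2 * R) 2 ℓ hℓ).1 φ = b • φ := by
  refine HeckeDuality.ext_coeff fun m => ?_
  have hsmul : qCoeff ⇑(b • φ) m = b * qCoeff φ m := Newforms.qCoeff_smul _ _ _
  rw [HeckeDuality.coeff_heckeOp hℓ, hsmul, HeckeDuality.eulerWeight, if_neg hℓN]
  simp only [hcoef]
  have e := heig m
  rw [seqOp, nebWeight] at e
  have hu : IsUnit (ℓ : ZMod q) := (ZMod.isUnit_iff_coprime _ _).mpr
    ((Nat.coprime_primes hℓ Fact.out).mpr fun h => hℓN (h ▸ (dvd_pow_self q two_ne_zero).mul_right R))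
  have hv : χ (ℓ : ZMod q) * χ⁻¹ (ℓ : ZMod q) = 1 := by
    rw [← MulChar.mul_apply, mul_inv_cancel, MulChar.one_apply hu]
  rw [MulChar.pow_apply' _ two_ne_zero] at e
  rw [Nat.cast_mul, map_mul]
  split_ifs at e ⊢ with hm
  · obtain ⟨k, rfl⟩ := hm
    rw [Nat.mul_div_cancel_left _ hℓ.pos] at e ⊢
    rw [hcoef, Nat.cast_mul, map_mul] at *
    linear_combination (χ (ℓ : ZMod q) ^ 2 * χ (k : ZMod q)) * e +
      (χ (k : ZMod q) * χ (ℓ : ZMod q) * b * a (ℓ * k) -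
        (ℓ : ℂ) * χ (k : ZMod q) * a k * (1 + χ (ℓ : ZMod q) * χ⁻¹ (ℓ : ZMod q))) * hv
  · linear_combination (χ (m : ZMod q) * χ (ℓ : ZMod q)) * e + (χ (m : ZMod q) * b * a m) * hv

omit [NeZero (q * n)] in
theorem periodMap_mem_ellParHoms {N : ℕ} [NeZero N] (φ : CuspForm (Gamma0 N) 2) :
    periodMap N φ ∈ Gamma0.ellParHoms (Gamma0 N) ℂ := by
  have h := GaloisReps.periodHomPair_mem (N := N) ((2⁻¹ : ℂ) • φ, (2⁻¹ : ℂ) • φ)
  rw [GaloisReps.periodHomPair_apply, add_add_sub_cancel, ← two_smul ℂ, ← map_smul, smul_smul,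
    mul_inv_cancel₀ two_ne_zero, one_smul] at h
  exact h

omit [NeZero (q * n)] in
/-- Coordinates of the conjugated periods of an eigenform. -/
theorem opMat_mulVec_periods {N : ℕ} [NeZero N] {φ : CuspForm (Gamma0 N) 2} {ℓ : ℕ}
    (hℓ : ℓ.Prime) (hℓN : ¬ ℓ ∣ N) {b : ℂ}
    (h : (HeckeDuality.heckeOp N 2 ℓ hℓ).1 φ = b • φ) :
    ((GaloisReps.opMat N ℓ hℓ).map (Int.castRingHom ℂ)).mulVec
        (GaloisReps.coord N ℂ (GaloisReps.atkinHom N ℂ (periodMap N φ))) =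
      b • GaloisReps.coord N ℂ (GaloisReps.atkinHom N ℂ (periodMap N φ)) := by
  rw [← GaloisReps.coord_homOp ℓ hℓ (GaloisReps.atkinHom_mem (periodMap_mem_ellParHoms φ))]
  have e : GaloisReps.homOp N ℂ ℓ hℓ (GaloisReps.atkinHom N ℂ (periodMap N φ)) =
      GaloisReps.atkinHom N ℂ (GaloisReps.homOp N ℂ ℓ hℓ (periodMap N φ)) := by
    rw [GaloisReps.homOp, dif_neg hℓN]
    exact NewformLocal.Toric.homT_atkinHom hℓ hℓN ℤ _
  rw [e, ← Periods.periodMapLin_apply, GaloisReps.homOp_periodMap, h, map_smul]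
  rfl

end Fermat.Agent.RT.InertiaTW

end
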