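import Fermat.Agent.RT.InertiaTW.VanishInertial
import Fermat.Agent.RT.InertiaTW.Periods
import Fermat.Agent.RT.InertiaTW.Divisible
import Fermat.Agent.GaloisReps.JacobianModel
import Mathlib.Algebra.Module.CharacterModule

/-!
# Eigenvectors of inertia in the completed lattice have vanishing twisted trace

A vector on which inertia at `q` acts through a character orthogonal to `χ` and `χ⁻¹` is reduced
modulo powers of `p` to families of torsion classes, whose twisted traces the integral study kills.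
-/

set_option autoImplicit false
set_option synthInstance.maxHeartbeats 400000
set_option maxHeartbeats 1000000

noncomputable section

open CongruenceSubgroup
open ModularCurve (JZero)
open Fermat.Agent.GaloisReps
open scoped MatrixGroups

namespace Fermat.Agent.RT.InertiaTW

section HomOf

variable {N : ℕ} [NeZero N] {B B' : Type} [AddCommGroup B] [AddCommGroup B']

/-- The homomorphism with given coordinates. -/
def homOf (x : Fin (2 * Gamma0.genus N) → B) : Additive (Gamma0 N) →+ B :=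
  ∑ j, (zmultiplesHom B (x j)).comp (dualHom N j)

theorem homOf_coord {φ : Additive (Gamma0 N) →+ B} (hφ : φ ∈ Gamma0.ellParHoms (Gamma0 N) B) :
    homOf (coord N B φ) = φ :=
  (eq_sum_dualHom hφ).symm

theorem homOf_comp (g : B →+ B') (x : Fin (2 * Gamma0.genus N) → B) :
    homOf (fun i => g (x i)) = g.comp (homOf x) := by
  refine AddMonoidHom.ext fun γ => ?_
  simp [homOf, AddMonoidHom.finsetSum_apply]

end HomOf

section PsiTw

variable {q n N : ℕ} [Fact q.Prime] [NeZero N] [NeZero (q * n)] [hcop : Fact (q.Coprime n)]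
  (hres : ∀ γ : CongruenceSubgroup.Gamma (q * n), rescale q n γ ∈ Gamma0 N)
  {B B' : Type} [CommRing B] [CommRing B']

/-- The twisted trace of the homomorphism with coordinates `x`. -/
def psiTw (χ : (ZMod q)ˣ →* B) (x : Fin (2 * Gamma0.genus N) → B) :
    Additive (CongruenceSubgroup.Gamma (q * n)) →+ B :=
  lowerTr (q := q) (twistOp χ (resHom hres (atkinHom N B (homOf x))))

theorem psiTw_natural (g : B →+ B') (χ : (ZMod q)ˣ →* B) (χ' : (ZMod q)ˣ →* B')
    (h : ∀ u y, g (χ u * y) = χ' u * g y) (x : Fin (2 * Gamma0.genus N) → B) :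
    psiTw hres χ' (fun i => g (x i)) = g.comp (psiTw hres χ x) := by
  rw [psiTw, psiTw, homOf_comp, atkinHom_comp,
    show resHom hres (g.comp (atkinHom N B (homOf x))) =
      g.comp (resHom hres (atkinHom N B (homOf x))) from rfl]
  set X := resHom hres (atkinHom N B (homOf x))
  have hsum : ∀ {ι : Type} (s : Finset ι)
      (F : ι → Additive (CongruenceSubgroup.Gamma (q * n)) →+ B),
      g.comp (∑ i ∈ s, F i) = ∑ i ∈ s, g.comp (F i) := fun s F =>
    map_sum (AddMonoidHom.compHom g) F s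
  simp only [lowerTr, twistOp, hsum, comp_smul]
  refine Finset.sum_congr rfl fun s _ => congrArg _ (Finset.sum_congr rfl fun u _ => ?_)
  rw [← comp_smul g]
  refine AddMonoidHom.ext fun γ => ?_
  simp [h]

theorem psiTw_add (χ : (ZMod q)ˣ →* B) (x y : Fin (2 * Gamma0.genus N) → B) :
    psiTw hres χ (x + y) = psiTw hres χ x + psiTw hres χ y := by
  have e : homOf (x + y) = homOf x + homOf y := by
    refine AddMonoidHom.ext fun γ => ?_
    simp [homOf, AddMonoidHom.finsetSum_apply, smul_add, Finset.sum_add_distrib]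
  rw [psiTw, e, map_add]
  simp [psiTw, lowerTr, twistOp, resHom, AddMonoidHom.add_comp, smul_add, Finset.sum_add_distrib]

theorem psiTw_smul (χ : (ZMod q)ˣ →* B) (c : B) (x : Fin (2 * Gamma0.genus N) → B) :
    psiTw hres χ (c • x) = c • psiTw hres χ x :=
  psiTw_natural hres (AddMonoidHom.mulLeft c) χ χ (fun u y => mul_left_comm c (χ u) y) x

/-- The vectors of vanishing twisted trace. -/
def psiKer (χ : (ZMod q)ˣ →* B) : Submodule B (Fin (2 * Gamma0.genus N) → B) where
  carrier := {x | psiTw hres χ x = 0}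
  add_mem' {x y} hx hy := by simp_all [psiTw_add]
  zero_mem' := by
    have h := psiTw_smul hres χ 0 0
    rwa [zero_smul, zero_smul] at h
  smul_mem' c x hx := by simp_all [psiTw_smul]

theorem mem_psiKer {χ : (ZMod q)ˣ →* B} {x : Fin (2 * Gamma0.genus N) → B} :
    x ∈ psiKer hres χ ↔ psiTw hres χ x = 0 := Iff.rfl

end PsiTw

/-- Homomorphisms to `ZMod n` separate the points of groups killed by `n`. -/
theorem exists_addHom_zmod_ne_zero {B : Type*} [AddCommGroup B] {n : ℕ} [NeZero n]
    (h : ∀ b : B, n • b = 0) {b : B} (hb : b ≠ 0) : ∃ f : B →+ ZMod n, f b ≠ 0 := by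
  obtain ⟨c, hc⟩ := CharacterModule.exists_character_apply_ne_zero_of_ne_zero hb
  have hn : (n : ℚ) ≠ 0 := Nat.cast_ne_zero.mpr (NeZero.ne n)
  let f₀ : ℤ →+ AddCircle (1 : ℚ) := zmultiplesHom _ ((n : ℚ)⁻¹ : ℚ)
  have hf₀ : f₀ n = 0 := by
    show ((n : ℤ) • (((n : ℚ)⁻¹ : ℚ) : AddCircle (1 : ℚ))) = 0
    rw [← AddCircle.coe_zsmul, zsmul_eq_mul, Int.cast_natCast, mul_inv_cancel₀ hn]
    exact (AddCircle.coe_eq_zero_iff 1).mpr ⟨1, by simp⟩
  let f : ZMod n →+ AddCircle (1 : ℚ) := ZMod.lift n ⟨f₀, hf₀⟩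
  have hinj : Function.Injective f := by
    refine (injective_iff_map_eq_zero f).mpr fun x hx => ?_
    obtain ⟨k, rfl⟩ := ZMod.intCast_surjective x
    have hx' : k • (((n : ℚ)⁻¹ : ℚ) : AddCircle (1 : ℚ)) = 0 := by
      simpa [f, f₀] using hx
    rw [← AddCircle.coe_zsmul, AddCircle.coe_eq_zero_iff] at hx'
    obtain ⟨m, hm⟩ := hx'
    rw [zsmul_eq_mul, zsmul_eq_mul, mul_one, eq_mul_inv_iff_mul_eq₀ hn] at hm
    rw [ZMod.intCast_zmod_eq_zero_iff_dvd]
    exact ⟨m, by rw [mul_comm]; exact_mod_cast hm.symm⟩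
  have hrange : ∀ y : B, ∃ z : ZMod n, f z = c y := fun y => by
    obtain ⟨r, hr⟩ := QuotientAddGroup.mk_surjective (c y)
    have h0 : n • ((r : ℚ) : AddCircle (1 : ℚ)) = 0 := by
      show n • (QuotientAddGroup.mk r : AddCircle (1 : ℚ)) = 0
      rw [hr, ← map_nsmul, h y, map_zero]
    rw [← AddCircle.coe_nsmul, AddCircle.coe_eq_zero_iff] at h0
    obtain ⟨m, hm⟩ := h0
    rw [zsmul_eq_mul, mul_one, nsmul_eq_mul] at hm
    refine ⟨(m : ZMod n), ?_⟩
    rw [← hr]
    show f (m : ZMod n) = _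
    simp only [f, ZMod.lift_coe, f₀, zmultiplesHom_apply, ← AddCircle.coe_zsmul]
    refine congrArg _ ?_
    rw [zsmul_eq_mul, hm, mul_comm, inv_mul_cancel_left₀ hn]
  choose z hz using hrange
  refine ⟨AddMonoidHom.mk' z fun a b => hinj ?_, fun h0 => hc ?_⟩
  · rw [map_add, hz, hz, hz, map_add]
  · rw [← hz b, show z b = 0 from h0, map_zero]

section Reduce

variable {p q R n L : ℕ} [Fact p.Prime] [Fact q.Prime] [NeZero (q ^ 2 * R)] [NeZero n]
  [NeZero (q * n)] [hcop : Fact (q.Coprime n)] (hR : R ∣ n) (hL : L = 7 ∨ L = 9) (hLn : L ∣ n)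
  (E : TorsionIso (q ^ 2 * R) p)
  (hE : ∀ (t : ℕ) (y : JTors (q ^ 2 * R) p t),
    (E.e t y : Additive (Gamma0 (q ^ 2 * R)) →+ ZMod (p ^ t)) =
      atkinHom (q ^ 2 * R) (ZMod (p ^ t)) (JacTorsion.torsionEquiv (q ^ 2 * R) (p ^ t) y).1)

include hR hL hLn hE in
/-- The twisted trace of a family modulo `p ^ t` is killed by the exponent of the integral study. -/
theorem glueExp_smul_psiTw_eq_zero {A : ValuationSubring (AlgebraicClosure ℚ)}
    (hA : A.LiesOverPrime q) (hpq : p ≠ q) (t : ℕ) {B : Type} [CommRing B]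
    (hB : ∀ b : B, (p ^ t) • b = 0) (ι : ℤ_[p] →+* B) (θ χ : (ZMod q)ˣ →* B)
    (x : Fin (2 * Gamma0.genus (q ^ 2 * R)) → B)
    (hgal : ∀ σ ∈ A.inertiaSubgroupIn ℚ, ∀ u : (ZMod q)ˣ,
      (∀ μ : AlgebraicClosure ℚ, μ ^ q = 1 → σ μ = μ ^ (u : ZMod q).val) →
        ((E.gal σ).map ι).mulVec x = θ u • x)
    (h1 : ∑ u : (ZMod q)ˣ, θ u * χ u = 0) (h2 : ∑ u : (ZMod q)ˣ, θ u * χ u⁻¹ = 0) :
    Carayol.glueExp (upperComb q) •
      psiTw (n := n) (fun γ => rescale_mem_Gamma0 dvd_rfl hR γ) χ x = 0 := by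
  classical
  have : NeZero (p ^ t) := ⟨pow_ne_zero _ (Fact.out : p.Prime).ne_zero⟩
  set hres := fun γ : CongruenceSubgroup.Gamma (q * n) =>
    rescale_mem_Gamma0 (q := q) (n := n) (N := q ^ 2 * R) dvd_rfl hR γ with hhres
  refine AddMonoidHom.ext fun γ => ?_
  by_contra hne
  obtain ⟨f, hf⟩ := exists_addHom_zmod_ne_zero hB hne
  have hι : ∀ (a : ℤ_[p]) (b : B), f (ι a * b) = PadicInt.toZModPow t a * f b := fun a b => by
    obtain ⟨k, hk⟩ := ZMod.intCast_surjective (PadicInt.toZModPow t a)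
    obtain ⟨a', ha'⟩ : ∃ a', a - (k : ℤ_[p]) = (p : ℤ_[p]) ^ t * a' := by
      refine Ideal.mem_span_singleton.mp ?_
      rw [← PadicInt.ker_toZModPow, RingHom.mem_ker, map_sub, map_intCast, hk, sub_self]
    have e : ι a * b = k • b := by
      rw [zsmul_eq_mul, eq_add_of_sub_eq ha', map_add, map_mul, map_pow, map_natCast, map_intCast,
        add_mul, mul_assoc, ← Nat.cast_pow, ← nsmul_eq_mul, hB, zero_add]
    rw [e, map_zsmul, zsmul_eq_mul, hk]
  let P : B →+ JTors (q ^ 2 * R) p t :=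
    (E.psi t).symm.toAddMonoidHom.comp
      (AddMonoidHom.mk' (fun r i => f (r * x i))
        fun r s => funext fun i => by simp [add_mul, map_add])
  have hP : ∀ r, E.psi t (P r) = fun i => f (r * x i) := fun r => (E.psi t).apply_symm_apply _
  have htor : ∀ r, (JacTorsion.torsionEquiv (q ^ 2 * R) (p ^ t) (P r)).1 =
      atkinHom (q ^ 2 * R) (ZMod (p ^ t)) (homOf fun i => f (r * x i)) := by
    intro r
    rw [← hP r, TorsionIso.psi_apply, homOf_coord (E.e t (P r)).2, hE, atkinHom_atkinHom]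
  have key := glueExp_smul_lowerTr_eq_zero_of_inertia (N := q ^ 2 * R) dvd_rfl hR hL hLn hA hpq
    P θ χ (fun σ hσ u hu r => ?_) h1 h2
  · refine hf ?_
    have e : ∀ u : (ZMod q)ˣ, sPlus (u : ZMod q) • charAt (q := q) (n := n) hres P (χ u) =
        f.comp (χ u • (sPlus (u : ZMod q) • resHom hres (atkinHom _ B (homOf x)))) := fun u => by
      rw [← smul_comm (sPlus (u : ZMod q)) (χ u), comp_smul]
      refine congrArg _ (AddMonoidHom.ext fun δ => ?_)
      show (JacTorsion.torsionEquiv (q ^ 2 * R) (p ^ t) (P (χ u))).1 _ = _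
      rw [htor, show (homOf fun i => f (χ u * x i)) =
        (f.comp (AddMonoidHom.mulLeft (χ u))).comp (homOf x) from
          homOf_comp (f.comp (AddMonoidHom.mulLeft (χ u))) x, atkinHom_comp]
      rfl
    have hsum : ∀ {ι' : Type} (s : Finset ι')
        (F : ι' → Additive (CongruenceSubgroup.Gamma (q * n)) →+ B),
        f.comp (∑ i ∈ s, F i) = ∑ i ∈ s, f.comp (F i) := fun s F =>
      map_sum (AddMonoidHom.compHom f) F s
    rw [Finset.sum_congr rfl fun u _ => e u, ← hsum] at key
    simp only [lowerTr, ← comp_smul, ← hsum] at key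
    rw [AddMonoidHom.smul_apply, map_nsmul]
    exact DFunLike.congr_fun key γ
  · refine congrArg Subtype.val (show galTors t σ (P r) = P (θ u * r) from (E.psi t).injective ?_)
    rw [← E.galLvl_mulVec, hP, hP, ← E.map_gal]
    funext i
    have hx := congrFun (hgal σ hσ u hu) i
    simp only [Matrix.mulVec, dotProduct, Matrix.map_apply, Pi.smul_apply, smul_eq_mul] at hx ⊢
    rw [mul_comm (θ u) r, mul_assoc, ← hx, Finset.mul_sum, map_sum]
    exact Finset.sum_congr rfl fun j _ => by rw [mul_left_comm r, hι]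

variable {O : Type} [CommRing O] [IsDomain O] [IsDiscreteValuationRing O]
  {K : Type} [Field K] [CharZero K] [Algebra O K] [Algebra.IsAlgebraic O K]

include hR hL hLn hE in
/-- An eigenvector of inertia has vanishing twisted trace. -/
theorem psiTw_eq_zero_of_eigen (hpO : (p : O) ∈ IsLocalRing.maximalIdeal O)
    (hinj : Function.Injective (algebraMap O K)) (ι : ℤ_[p] →+* O)
    {A : ValuationSubring (AlgebraicClosure ℚ)} (hA : A.LiesOverPrime q) (hpq : p ≠ q)
    (θ χ : (ZMod q)ˣ →* K) (x : Fin (2 * Gamma0.genus (q ^ 2 * R)) → K)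
    (hgal : ∀ σ ∈ A.inertiaSubgroupIn ℚ, ∀ u : (ZMod q)ˣ,
      (∀ μ : AlgebraicClosure ℚ, μ ^ q = 1 → σ μ = μ ^ (u : ZMod q).val) →
        ((E.gal σ).map ((algebraMap O K).comp ι)).mulVec x = θ u • x)
    (h1 : ∑ u : (ZMod q)ˣ, θ u * χ u = 0) (h2 : ∑ u : (ZMod q)ˣ, θ u * χ u⁻¹ = 0) :
    psiTw (n := n) (fun γ => rescale_mem_Gamma0 dvd_rfl hR γ) χ x = 0 := by
  classical
  set hres := fun γ : CongruenceSubgroup.Gamma (q * n) =>
    rescale_mem_Gamma0 (q := q) (n := n) (N := q ^ 2 * R) dvd_rfl hR γ with hhres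
  obtain ⟨c, hc0, hc⟩ := Algebra.IsAlgebraic.exists_integral_multiples O (Finset.univ.image x)
  have hcK : algebraMap O K c ≠ 0 := fun h => hc0 (hinj (h.trans (map_zero _).symm))
  set S := integralClosure O K
  let x' : Fin (2 * Gamma0.genus (q ^ 2 * R)) → S :=
    fun i => ⟨algebraMap O K c * x i, by
      rw [← Algebra.smul_def]; exact hc _ (Finset.mem_image_of_mem x (Finset.mem_univ i))⟩
  have hint : ∀ (φ : (ZMod q)ˣ →* K) (u : (ZMod q)ˣ), φ u ∈ S := fun φ u =>
    IsIntegral.of_pow (Fintype.card_pos (α := (ZMod q)ˣ))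
      (by rw [← map_pow, pow_card_eq_one, map_one]; exact isIntegral_one)
  let θS : (ZMod q)ˣ →* S := θ.codRestrict S (hint θ)
  let χS : (ZMod q)ˣ →* S := χ.codRestrict S (hint χ)
  have hS : psiTw (n := n) hres χ (fun i => S.val (x' i)) =
      S.val.toAddMonoidHom.comp (psiTw (n := n) hres χS x') :=
    psiTw_natural (n := n) hres S.val.toAddMonoidHom χS χ (fun u y => rfl) x'
  have hzero : psiTw (n := n) hres χS x' = 0 := by
    refine AddMonoidHom.ext fun γ => ?_
    have hdiv : ∀ t : ℕ, ((p : S) ^ t) ∣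
        Carayol.glueExp (upperComb q) • psiTw (n := n) hres χS x' γ := by
      intro t
      let I : Ideal S := Ideal.span {(p : S) ^ t}
      let π : S →+* S ⧸ I := Ideal.Quotient.mk I
      have hBt : ∀ b : S ⧸ I, (p ^ t) • b = 0 := fun b => by
        rw [nsmul_eq_mul, Nat.cast_pow, ← map_natCast π, ← map_pow,
          Ideal.Quotient.eq_zero_iff_mem.mpr (Ideal.mem_span_singleton_self _), zero_mul]
      have key := glueExp_smul_psiTw_eq_zero (n := n) hR hL hLn E hE hA hpq t hBt
        (π.comp ((algebraMap O S).comp ι)) (π.toMonoidHom.comp θS) (π.toMonoidHom.comp χS)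
        (fun i => π (x' i)) (fun σ hσ u hu => ?_) ?_ ?_
      · have e : psiTw (n := n) hres (π.toMonoidHom.comp χS) (fun i => π (x' i)) =
            π.toAddMonoidHom.comp (psiTw (n := n) hres χS x') :=
          psiTw_natural (n := n) hres π.toAddMonoidHom χS _ (fun u y => map_mul π _ _) x'
        rw [e] at key
        have h' := DFunLike.congr_fun key γ
        rw [AddMonoidHom.smul_apply, AddMonoidHom.comp_apply, ← map_nsmul] at h'
        exact Ideal.mem_span_singleton.mp (Ideal.Quotient.eq_zero_iff_mem.mp h')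
      · have hx : ((E.gal σ).map ((algebraMap O S).comp ι)).mulVec x' = θS u • x' := by
          refine funext fun i => Subtype.ext ?_
          have e : ((((E.gal σ).map ((algebraMap O S).comp ι)).mulVec x' i : S) : K) =
              ((E.gal σ).map ((algebraMap O K).comp ι)).mulVec (algebraMap O K c • x) i := by
            simp [Matrix.mulVec, dotProduct, x']
          rw [e, Matrix.mulVec_smul, hgal σ hσ u hu, smul_comm]
          rfl
        funext i
        have h' := congrArg π (congrFun hx i)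
        rw [RingHom.map_mulVec] at h'
        simpa [Matrix.map_map, Function.comp_def] using h'
      · simp only [MonoidHom.comp_apply, RingHom.toMonoidHom_eq_coe, MonoidHom.coe_coe,
          ← map_mul, ← map_sum]
        rw [show ∑ u : (ZMod q)ˣ, θS u * χS u = 0 from Subtype.ext (by simpa [θS, χS] using h1),
          map_zero]
      · simp only [MonoidHom.comp_apply, RingHom.toMonoidHom_eq_coe, MonoidHom.coe_coe,
          ← map_mul, ← map_sum]
        rw [show ∑ u : (ZMod q)ˣ, θS u * χS u⁻¹ = 0 from Subtype.ext (by simpa [θS, χS] using h2),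
          map_zero]
    have h0 : ((Carayol.glueExp (upperComb q) • psiTw (n := n) hres χS x' γ : S) : K) = 0 :=
      eq_zero_of_forall_divPow hinj hpO (Subtype.prop _) fun t => by
        obtain ⟨y, hy⟩ := hdiv t
        exact ⟨y, y.2, by rw [hy]; push_cast; simp⟩
    have h0' : Carayol.glueExp (upperComb q) • ((psiTw (n := n) hres χS x' γ : S) : K) = 0 := by
      simpa using h0
    refine Subtype.ext ((smul_eq_zero.mp ?_).resolve_left
      (Carayol.glueExp_pos (upperComb q)).ne' : ((psiTw (n := n) hres χS x' γ : S) : K) = 0)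
    exact h0'
  have hval : (fun i => S.val (x' i)) = algebraMap O K c • x := funext fun i => rfl
  rw [hval, hzero, AddMonoidHom.comp_zero, psiTw_smul, smul_eq_zero] at hS
  exact hS.resolve_left hcK

end Reduce

end Fermat.Agent.RT.InertiaTW

end
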