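import Fermat.Agent.RT.InertiaTW.Statement
import Fermat.Agent.RT.InertiaTW.Inertia
import Fermat.Agent.RT.InertiaTW.EigenRel
import Fermat.Agent.RT.InertiaTW.Plane
import Fermat.Agent.RT.InertiaTW.Reduce
import Fermat.Agent.GaloisReps.Results
import Fermat.Agent.Arith.TraceSpan

/-!
# The trace of inertia at a prime of twisted level

If inertia at `q` acted through a character other than `χ^{±1}`, the eigenspace of `χ ⊗ f` in the
completed lattice of level `q²R` would be spanned by translates of eigenvectors of inertia, whose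
twisted traces vanish; the periods of the twist show that they do not.
-/

set_option autoImplicit false
set_option maxHeartbeats 1000000

noncomputable section

open CongruenceSubgroup IsLocalRing ModularFormClass
open Fermat.Agent.GaloisReps
open Fermat.Agent.RT.GammaH (IsNeb HasCoeff seqOp nebWeight)
open scoped MatrixGroups Pointwise

namespace Fermat.Agent.RT.InertiaTW

theorem sum_units_mul_eq_zero {q : ℕ} [Fact q.Prime] {K : Type*} [Field K]
    {φ ψ : (ZMod q)ˣ →* K} (h : ¬ ∀ u, φ u * ψ u = 1) : ∑ u : (ZMod q)ˣ, φ u * ψ u = 0 :=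
  sum_hom_units_eq_zero (φ * ψ) fun e => h fun u => DFunLike.congr_fun e u

theorem dvd_sub_one_of_pow {q p : ℕ} [Fact q.Prime] (hp : p.Prime) {χ : DirichletCharacter ℂ q}
    (hne : χ ≠ 1) {k : ℕ} (hk : χ ^ p ^ k = 1) : p ∣ q - 1 := by
  have h1 : χ ^ (q - 1) = 1 := by
    refine MulChar.ext fun u => ?_
    rw [MulChar.pow_apply_coe, MulChar.one_apply_coe, ← map_pow, ← Units.val_pow_eq_pow_val,
      ← ZMod.card_units q, pow_card_eq_one, Units.val_one, map_one]
  obtain ⟨i, -, hi⟩ := (Nat.dvd_prime_pow hp).mp (orderOf_dvd_of_pow_eq_one hk)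
  rcases i with _ | i
  · exact absurd (orderOf_eq_one_iff.mp (by rw [hi, pow_zero])) hne
  · exact (dvd_pow_self p i.succ_ne_zero).trans (hi ▸ orderOf_dvd_of_pow_eq_one h1)

variable {p q R n L : ℕ} [Fact p.Prime] [Fact q.Prime] [NeZero (q * R)] [NeZero (q ^ 2 * R)]
  [NeZero n] [NeZero (q * n)] [hcop : Fact (q.Coprime n)]
  {O : Type} [CommRing O] [IsDomain O] [IsDiscreteValuationRing O]
  [IsAdicComplete (maximalIdeal O) O] [CharZero O]
  {K : Type} [Field K] [CharZero K] [Algebra O K] [Algebra.IsAlgebraic O K]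

omit [CharZero O] in
/-- If inertia has an eigencharacter orthogonal to `χ` and `χ⁻¹`, the periods of the twist give a
contradiction. -/
theorem false_of_orthogonal (hR : R ∣ n) (hL : L = 7 ∨ L = 9) (hLn : L ∣ n)
    (hES : CongruenceProperty (q ^ 2 * R) p) (hpO : (p : O) ∈ maximalIdeal O) (hpq : p ≠ q)
    (hinj : Function.Injective (algebraMap O K)) (ι : K →+* ℂ)
    (χ : DirichletCharacter ℂ q) (hχ : χ ≠ 1) (hχ2 : χ ^ 2 ≠ 1)
    {f : UpperHalfPlane → ℂ} {a : ℕ → ℂ} (hf : IsNeb (q * R) (χ⁻¹ ^ 2) f) (ha : HasCoeff f a)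
    (hne : f ≠ 0) (S : Finset ℕ) (hS : ∀ ℓ : ℕ, ℓ.Prime → ℓ ∣ q * R * p → ℓ ∈ S) (t : ℕ → O)
    (heig : ∀ ℓ : ℕ, ℓ.Prime → ℓ ∉ S → ∀ m : ℕ, seqOp (nebWeight (χ⁻¹ ^ 2)) ℓ a m =
      χ⁻¹ (ℓ : ZMod q) * ι (algebraMap O K (t ℓ)) * a m)
    (ρ : AbsGal →* Matrix (Fin 2) (Fin 2) O)
    (hcont : ∀ k : ℕ, ∃ L : IntermediateField ℚ (AlgebraicClosure ℚ), FiniteDimensional ℚ L ∧
      ∀ σ : AbsGal, (∀ x ∈ L, σ x = x) → ∀ i j, (ρ σ - 1) i j ∈ maximalIdeal O ^ k)
    (hfrob : ∀ ℓ : ℕ, ℓ.Prime → ℓ ∉ S → ∀ A : ValuationSubring (AlgebraicClosure ℚ),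
      A.LiesOverPrime ℓ → ∀ σ : AbsGal, A.IsFrobeniusAt σ ℓ →
        (ρ σ).trace = t ℓ ∧ (ρ σ).det = (ℓ : O))
    (hspan : Submodule.span O (Set.range ρ) = ⊤)
    {A : ValuationSubring (AlgebraicClosure ℚ)} (hA : A.LiesOverPrime q)
    {v : Fin 2 → K} (hv : v ≠ 0) (θ : (ZMod q)ˣ →* K)
    (hθ : ∀ σ ∈ A.inertiaSubgroupIn ℚ, ∀ u : (ZMod q)ˣ,
      (∀ μ : AlgebraicClosure ℚ, μ ^ q = 1 → σ μ = μ ^ (u : ZMod q).val) →
        ((ρ σ).map (algebraMap O K)).mulVec v = θ u • v)
    (χK : (ZMod q)ˣ →* K) (hχK : ∀ u, ι (χK u) = χ (u : ZMod q))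
    (h1 : ∑ u : (ZMod q)ˣ, θ u * χK u = 0) (h2 : ∑ u : (ZMod q)ˣ, θ u * χK u⁻¹ = 0) : False := by
  classical
  set N := q ^ 2 * R with hN
  have hSN : ∀ ℓ : ℕ, ℓ.Prime → ℓ ∣ N * p → ℓ ∈ S := fun ℓ hℓ h => hS ℓ hℓ <| by
    rcases hℓ.dvd_mul.mp h with h | h
    · rcases hℓ.dvd_mul.mp h with h | h
      · exact ((hℓ.dvd_of_dvd_pow h).mul_right R).mul_right p
      · exact (h.mul_left q).mul_right p
    · exact h.mul_left _
  let E : TorsionIso N p := torsionIso N p (conjProperty N)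
  have G : TorsionGalois N p := torsionGalois N p hES
  obtain ⟨ιp⟩ := exists_padicHom O hpO
  let gK : AbsGal →* Matrix (Fin (2 * Gamma0.genus N)) (Fin (2 * Gamma0.genus N)) K :=
    ((algebraMap O K).comp ιp).mapMatrix.toMonoidHom.comp E.gal
  -- the eigenspace
  let V : Submodule K (Fin (2 * Gamma0.genus N) → K) :=
    ⨅ (ℓ : ℕ) (hℓ : ℓ.Prime) (_ : ℓ ∉ S), LinearMap.ker
      (((opMat N ℓ hℓ).map (Int.castRingHom K)).mulVecLin - algebraMap O K (t ℓ) • LinearMap.id)
  have memV : ∀ y, y ∈ V ↔ ∀ (ℓ : ℕ) (hℓ : ℓ.Prime), ℓ ∉ S →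
      ((opMat N ℓ hℓ).map (Int.castRingHom K)).mulVec y = algebraMap O K (t ℓ) • y := fun y => by
    simp only [V, Submodule.mem_iInf, LinearMap.mem_ker, LinearMap.sub_apply,
      Matrix.mulVecLin_apply, LinearMap.smul_apply, LinearMap.id_apply, sub_eq_zero]
  have hstab : ∀ σ, ∀ y ∈ V, (gK σ).mulVecLin y ∈ V := fun σ y hy => by
    rw [memV] at hy ⊢
    intro ℓ hℓ hℓS
    have e : ((opMat N ℓ hℓ).map (Int.castRingHom ℤ_[p])).map ((algebraMap O K).comp ιp) =
        (opMat N ℓ hℓ).map (Int.castRingHom K) := by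
      ext i j
      simp
    have hc := ((E.gal_commute_opMat G σ ℓ hℓ).map ((algebraMap O K).comp ιp).mapMatrix).eq
    rw [RingHom.mapMatrix_apply, RingHom.mapMatrix_apply, e] at hc
    rw [Matrix.mulVecLin_apply, Matrix.mulVec_mulVec,
      show (opMat N ℓ hℓ).map (Int.castRingHom K) * gK σ =
        gK σ * (opMat N ℓ hℓ).map (Int.castRingHom K) from hc.symm,
      ← Matrix.mulVec_mulVec, hy ℓ hℓ hℓS, Matrix.mulVec_smul]
  let r : AbsGal →* Module.End K V :=
    { toFun := fun σ => (gK σ).mulVecLin.restrict (hstab σ)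
      map_one' := by
        refine LinearMap.ext fun y => Subtype.ext ?_
        simp [LinearMap.restrict_apply]
      map_mul' := fun σ τ => by
        refine LinearMap.ext fun y => Subtype.ext ?_
        simp [LinearMap.restrict_apply, Matrix.mulVec_mulVec] }
  have hr : ∀ σ (y : V), ((r σ y : V) : _ → K) = (gK σ).mulVec y := fun σ y => rfl
  let ρK : AbsGal →* Matrix (Fin 2) (Fin 2) K := (algebraMap O K).mapMatrix.toMonoidHom.comp ρ
  have hspanK : Submodule.span K (Set.range ρK) = ⊤ := by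
    refine eq_top_iff.mpr fun M _ => ?_
    have hmap : ∀ X : Matrix (Fin 2) (Fin 2) O,
        X.map (algebraMap O K) ∈ Submodule.span K (Set.range ρK) := by
      intro X
      have hX : X ∈ Submodule.span O (Set.range ρ) := hspan ▸ Submodule.mem_top
      induction hX using Submodule.span_induction with
      | mem X hX => obtain ⟨σ, rfl⟩ := hX; exact Submodule.subset_span ⟨σ, rfl⟩
      | zero => simp
      | add x y _ _ hx hy => rw [Matrix.map_add _ (map_add _)]; exact add_mem hx hy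
      | smul c x _ hx =>
        rw [show (c • x).map (algebraMap O K) = algebraMap O K c • x.map (algebraMap O K) by
          ext i j; simp]
        exact Submodule.smul_mem _ _ hx
    rw [Matrix.matrix_eq_sum_single M]
    refine sum_mem fun i _ => sum_mem fun j _ => ?_
    rw [show Matrix.single i j (M i j) =
      M i j • (Matrix.single i j (1 : O)).map (algebraMap O K) by
        rw [Matrix.map_single _ _ _ _, map_one, Matrix.smul_single, smul_eq_mul, mul_one]]
    exact Submodule.smul_mem _ _ (hmap _)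
  obtain ⟨Φ, hΦ⟩ := exists_algHom_of_quadratic (A := Module.End K V) (ρ := ρK) (r := r) (fun g => by
    refine LinearMap.ext fun y => Subtype.ext ?_
    have h := quadratic_on_eigen E G hpO hinj ιp ρ hcont S hSN t hfrob (y : _ → K)
      ((memV _).mp y.2) g
    have etr : (ρK g).trace = algebraMap O K (ρ g).trace := by
      simp [ρK, Matrix.trace]
    have edet : (ρK g).det = algebraMap O K (ρ g).det :=
      ((algebraMap O K).map_det _).symm
    rw [etr, edet]
    simpa [hr, gK] using h) hspanK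
  -- the eigenvectors of inertia have vanishing twisted trace
  set hres := fun γ : CongruenceSubgroup.Gamma (q * n) =>
    rescale_mem_Gamma0 (q := q) (n := n) (N := q ^ 2 * R) dvd_rfl hR γ
  have hW : (psiKer (n := n) hres χK).comap V.subtype = ⊤ := by
    refine eq_top_of_eigen hspanK Φ hv _ fun τ lam y => ?_
    rw [Submodule.mem_comap, mem_psiKer, hΦ]
    refine psiTw_eq_zero_of_eigen hR hL hLn E (fun _ _ => rfl) hpO hinj ιp
      (A := τ • A) (Arith.liesOverPrime_smul_iff.mpr hA) hpq θ χK _ ?_ h1 h2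
    intro σ hσ u hu
    have hσ' : τ⁻¹ * σ * τ ∈ A.inertiaSubgroupIn ℚ := Arith.mem_inertia_smul_iff.mp
      (by group; exact hσ : τ * (τ⁻¹ * σ * τ) * τ⁻¹ ∈ (τ • A).inertiaSubgroupIn ℚ)
    have hu' : ∀ μ : AlgebraicClosure ℚ, μ ^ q = 1 →
        (τ⁻¹ * σ * τ) μ = μ ^ (u : ZMod q).val := fun μ hμ => by
      rw [AlgEquiv.mul_apply, AlgEquiv.mul_apply, hu (τ μ) (by rw [← map_pow, hμ, map_one]),
        map_pow]
      exact congrArg (· ^ (u : ZMod q).val) (τ.symm_apply_apply μ)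
    set z := Φ (Matrix.vecMulVec v lam) y
    have hz : r (τ⁻¹ * σ * τ) z = θ u • z := by
      rw [← hΦ, ← Module.End.mul_apply, ← map_mul,
        show ρK (τ⁻¹ * σ * τ) * Matrix.vecMulVec v lam = θ u • Matrix.vecMulVec v lam by
          rw [Matrix.mul_vecMulVec,
            show (ρK (τ⁻¹ * σ * τ)).mulVec v = θ u • v from hθ _ hσ' u hu',
            Matrix.smul_vecMulVec],
        map_smul, LinearMap.smul_apply]
    have e : r σ (r τ z) = θ u • r τ z := by
      rw [← Module.End.mul_apply, ← map_mul, show σ * τ = τ * (τ⁻¹ * σ * τ) by group, map_mul,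
        Module.End.mul_apply, hz, map_smul]
    exact congrArg Subtype.val e
  -- the periods of the twist
  obtain ⟨φ, hcoef, hne0⟩ :=
    exists_twist_lowerTr_ne_zero (n := n) χ hf hR hχ hχ2 ha hne
  set w := coord N ℂ (atkinHom N ℂ (ModularCurve.periodMap N φ)) with hw
  have hψ : psiTw (n := n) hres (chiU χ) w ≠ 0 := by
    rwa [psiTw, hw, homOf_coord (atkinHom_mem (periodMap_mem_ellParHoms φ)), atkinHom_atkinHom]
  obtain ⟨γ, hγ⟩ := DFunLike.ne_iff.mp hψ
  let : Algebra K ℂ := ι.toAlgebra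
  obtain ⟨π, hπ⟩ := LinearMap.exists_leftInverse_of_injective
    (LinearMap.toSpanSingleton K ℂ (psiTw (n := n) hres (chiU χ) w γ))
    (LinearMap.ker_eq_bot.mpr (smul_left_injective K hγ))
  have hπ1 : π (psiTw (n := n) hres (chiU χ) w γ) = 1 := by
    have := LinearMap.congr_fun hπ 1
    simpa using this
  have hπmul : ∀ (c : K) (z : ℂ), π (ι c * z) = c * π z := fun c z => by
    rw [show ι c * z = c • z from (Algebra.smul_def c z).symm, map_smul, smul_eq_mul]
  have hπV : (fun i => π (w i)) ∈ V := by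
    rw [memV]
    intro ℓ hℓ hℓS
    have hℓN : ¬ ℓ ∣ q ^ 2 * R := fun h => hℓS (hSN ℓ hℓ (h.mul_right p))
    have h := opMat_mulVec_periods hℓ hℓN (heckeOp_twist χ hcoef hℓ hℓN (heig ℓ hℓ hℓS))
    rw [← hw] at h
    funext i
    have hi := congrArg π (congrFun h i)
    rw [Pi.smul_apply, smul_eq_mul, hπmul] at hi
    rw [Pi.smul_apply, smul_eq_mul, ← hi]
    simp only [Matrix.mulVec, dotProduct, map_sum, Matrix.map_apply, eq_intCast]
    refine Finset.sum_congr rfl fun j _ => ?_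
    rw [← map_intCast ι, hπmul]
  have hzero : psiTw (n := n) hres χK (fun i => π (w i)) = 0 :=
    (mem_psiKer hres).mp (show (⟨_, hπV⟩ : V) ∈ (psiKer (n := n) hres χK).comap V.subtype from
      hW ▸ Submodule.mem_top)
  have hnat := psiTw_natural (n := n) hres π.toAddMonoidHom (chiU χ) χK
    (fun u z => by
      show π (chiU χ u * z) = χK u * π z
      rw [chiU_apply, ← hχK, hπmul]) w
  have := DFunLike.congr_fun (hnat.symm.trans hzero) γ
  exact one_ne_zero (hπ1.symm.trans this)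

omit n L hcop in
/-- **The trace of inertia at `q`.** -/
theorem traceInertia (p q R M : ℕ) [Fact p.Prime] [Fact q.Prime] [NeZero R] [NeZero M]
    (g : CuspForm (CongruenceSubgroup.Gamma0 M) 2) : TraceInertia p q R M g := by
  intro hp2 hpq hqR _hM _hnew hES χ hχ hχk f a hf ha hne S hS heig O _ _ _ _ _ _ hpO j hj ρ hirr
    hfrob A hA hI σ hσ u hu
  classical
  have hq : q.Prime := Fact.out
  have hp : p.Prime := Fact.out
  obtain ⟨k, hk⟩ := hχk
  have hdvd : p ∣ q - 1 := dvd_sub_one_of_pow hp hχ hk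
  have hχ2 : χ ^ 2 ≠ 1 := fun h => hχ <| by
    have h1 : χ ^ Nat.gcd 2 (p ^ k) = 1 := pow_gcd_eq_one.mpr ⟨h, hk⟩
    rwa [Nat.Coprime.pow_right k ((Nat.coprime_primes Nat.prime_two hp).mpr (Ne.symm hp2)),
      pow_one] at h1
  -- the field
  let K := AlgebraicClosure (FractionRing O)
  have hinj : Function.Injective (algebraMap O K) := by
    rw [IsScalarTower.algebraMap_eq O (FractionRing O) K]
    exact (algebraMap (FractionRing O) K).injective.comp (IsFractionRing.injective O _)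
  have : CharZero K := charZero_of_injective_algebraMap hinj
  have : Algebra.IsAlgebraic O (FractionRing O) := IsLocalization.isAlgebraic _ (nonZeroDivisors O)
  have : Algebra.IsAlgebraic O K := Algebra.IsAlgebraic.trans O (FractionRing O) K
  let j' : FractionRing O →+* ℂ := IsFractionRing.lift hj
  let : Algebra (FractionRing O) ℂ := j'.toAlgebra
  let ι : K →+* ℂ := (IsAlgClosed.lift : K →ₐ[FractionRing O] ℂ).toRingHom
  have hι : ∀ x : O, ι (algebraMap O K x) = j x := fun x => by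
    rw [IsScalarTower.algebraMap_apply O (FractionRing O) K]
    exact ((IsAlgClosed.lift : K →ₐ[FractionRing O] ℂ).commutes _).trans
      (IsFractionRing.lift_algebraMap hj x)
  -- the matrices
  let b := Module.finBasisOfFinrankEq O ρ.V ρ.finrank_eq
  let ρm : AbsGal →* Matrix (Fin 2) (Fin 2) O := Deform.matOf ρ b
  have htr : ∀ g, (ρm g).trace = ρ.trace g := fun g =>
    (LinearMap.trace_eq_matrix_trace O b _).symm
  have hdet : ∀ g, (ρm g).det = LinearMap.det (ρ.ρ g) := fun g => LinearMap.det_toMatrix b _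
  have hcont : ∀ k : ℕ, ∃ L : IntermediateField ℚ (AlgebraicClosure ℚ), FiniteDimensional ℚ L ∧
      ∀ σ : AbsGal, (∀ x ∈ L, σ x = x) → ∀ i j, (ρm σ - 1) i j ∈ maximalIdeal O ^ k := fun k => by
    obtain ⟨L, hL, h⟩ := Deform.isCont_matOf ρ b k
    exact ⟨L, hL, fun σ hσ i j => h σ hσ i j⟩
  obtain ⟨v, θ, hv, hθ⟩ := exists_inertia_eigen (K := K) hinj hA hq hp hp2 hdvd hpO ρm hcont
    (fun g hg => (hdet g).trans (hI g hg).1) (fun g hg => by rw [htr]; exact (hI g hg).2)
  obtain ⟨χK, hχK⟩ := exists_monoidHom_lift ι (chiU χ) (m := p ^ k) (fun u => by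
    rw [chiU_apply, ← MulChar.pow_apply_coe, hk, MulChar.one_apply_coe])
  -- the conclusion when `θ = χ^{±1}`
  have hdone : (θ u = χK u ∨ θ u = (χK u)⁻¹) →
      j (ρ.trace σ) = χ (u : ZMod q) + χ⁻¹ (u : ZMod q) := fun hcase => by
    have e := trace_eq_add_inv_of_eigen hv (M := (ρm σ).map (algebraMap O K))
      (by
        rw [show ((ρm σ).map (algebraMap O K)).det = algebraMap O K (ρm σ).det from
          ((algebraMap O K).map_det _).symm, hdet, (hI σ hσ).1, map_one])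
      (hθ σ hσ u hu)
    have e1 : ((ρm σ).map (algebraMap O K)).trace = algebraMap O K (ρ.trace σ) := by
      rw [← htr]
      simp [Matrix.trace]
    rw [← hι, ← e1, e, map_add, map_inv₀, MulChar.inv_apply_eq_inv']
    rcases hcase with h | h
    · rw [h, hχK, chiU_apply]
    · rw [h, map_inv₀, hχK, chiU_apply, inv_inv, add_comm]
  by_cases c1 : ∀ x, θ x * χK x = 1
  · exact hdone (Or.inr (eq_inv_of_mul_eq_one_left (c1 u)))
  by_cases c2 : ∀ x, θ x * χK.comp invMonoidHom x = 1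
  · refine hdone (Or.inl ?_)
    have := c2 u
    rw [MonoidHom.comp_apply, invMonoidHom_apply] at this
    calc θ u = θ u * (χK u⁻¹ * χK u) := by rw [← map_mul, inv_mul_cancel, map_one, mul_one]
      _ = χK u := by rw [← mul_assoc, this, one_mul]
  exfalso
  have hs := sum_units_mul_eq_zero c1
  have hs' := sum_units_mul_eq_zero c2
  obtain ⟨L, hL, hqL⟩ : ∃ L, (L = 7 ∨ L = 9) ∧ ¬ q ∣ L := by
    by_cases h7 : q = 7
    · exact ⟨9, Or.inr rfl, by subst h7; decide⟩
    · exact ⟨7, Or.inl rfl, fun h => h7 ((Nat.prime_dvd_prime_iff_eq hq (by decide)).mp h)⟩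
  have hL0 : L ≠ 0 := by omega
  have : NeZero (R * L) := ⟨mul_ne_zero (NeZero.ne R) hL0⟩
  have : NeZero (q * (R * L)) := ⟨mul_ne_zero hq.ne_zero (NeZero.ne _)⟩
  have : NeZero (q * R) := ⟨mul_ne_zero hq.ne_zero (NeZero.ne _)⟩
  have : NeZero (q ^ 2 * R) := ⟨mul_ne_zero (pow_ne_zero 2 hq.ne_zero) (NeZero.ne _)⟩
  have : Fact (q.Coprime (R * L)) := ⟨(Nat.Prime.coprime_iff_not_dvd hq).mpr fun h =>
    (hq.dvd_mul.mp h).elim hqR hqL⟩
  have ht : ∀ ℓ : ℕ, ∃ t : O, ℓ.Prime → ℓ ∉ S → j t = qCoeff g ℓ := fun ℓ => by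
    by_cases hℓ : ℓ.Prime ∧ ℓ ∉ S
    · obtain ⟨B, hB⟩ := Arith.exists_liesOverPrime (q := ℓ) hℓ.1
      obtain ⟨τ, hτ⟩ := Arith.exists_isFrobeniusAt hB hℓ.1
      exact ⟨ρ.trace τ, fun h1 h2 => (hfrob ℓ h1 h2 B hB τ hτ).1⟩
    · exact ⟨0, fun h1 h2 => absurd ⟨h1, h2⟩ hℓ⟩
  choose t ht using ht
  refine false_of_orthogonal (n := R * L) (dvd_mul_right R L) hL (dvd_mul_left L R) hES hpO hpq hinj
    ι χ hχ hχ2 hf ha hne S hS t (fun ℓ h1 h2 m => by rw [hι, ht ℓ h1 h2]; exact heig ℓ h1 h2 m)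
    ρm hcont (fun ℓ h1 h2 B hB τ hτ => ?_) ?_ hA hv θ hθ χK
    (fun x => by rw [hχK, chiU_apply]) hs (by simpa using hs')
  · obtain ⟨e1, e2⟩ := hfrob ℓ h1 h2 B hB τ hτ
    exact ⟨hj (by rw [htr, e1, ht ℓ h1 h2]), (hdet τ).trans e2⟩
  · exact Arith.span_matOf_eq_top ρ hirr b

end Fermat.Agent.RT.InertiaTW

end
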