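import Fermat.Agent.Carayol.Glue

/-!
# Units modulo constants and powers

The group of units of a field over `k` modulo constants and `m`-th powers, with the action of the
automorphisms over `k`; divisibility of the orders at all places over `k` is stable under products
and automorphisms.
-/

set_option autoImplicit false

noncomputable section

namespace Fermat.Agent.RT.InertiaTW

open Fermat.Agent.Carayol (Places)
open WithZero

variable (k Ω : Type*) [Field k] [Field Ω] [Algebra k Ω] (m : ℕ)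

/-- Constants times `m`-th powers. -/
def constPow : Subgroup Ωˣ :=
  (Units.map (algebraMap k Ω).toMonoidHom).range ⊔ (powMonoidHom m : Ωˣ →* Ωˣ).range

/-- Units modulo constants and `m`-th powers. -/
abbrev Cls : Type _ := Additive (Ωˣ ⧸ constPow k Ω m)

variable {Ω}

/-- The class of a unit. -/
def clsOf (x : Ωˣ) : Cls k Ω m := Additive.ofMul (QuotientGroup.mk x)

theorem clsOf_mul (x y : Ωˣ) : clsOf k m (x * y) = clsOf k m x + clsOf k m y := rfl

theorem clsOf_prod {ι : Type*} (s : Finset ι) (x : ι → Ωˣ) :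
    clsOf k m (∏ i ∈ s, x i) = ∑ i ∈ s, clsOf k m (x i) := by
  classical
  induction s using Finset.induction_on with
  | empty => rfl
  | insert a s ha ih => rw [Finset.prod_insert ha, Finset.sum_insert ha, clsOf_mul, ih]

theorem clsOf_eq_zero_iff {x : Ωˣ} :
    clsOf k m x = 0 ↔ ∃ (κ : kˣ) (γ : Ωˣ), x = Units.map (algebraMap k Ω).toMonoidHom κ * γ ^ m := by
  rw [clsOf, ← ofMul_one, Additive.ofMul.injective.eq_iff, QuotientGroup.eq_one_iff, constPow,
    Subgroup.mem_sup]
  constructor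
  · rintro ⟨_, ⟨κ, rfl⟩, _, ⟨γ, rfl⟩, h⟩
    exact ⟨κ, γ, h.symm⟩
  · rintro ⟨κ, γ, h⟩
    exact ⟨_, ⟨κ, rfl⟩, _, ⟨γ, rfl⟩, h.symm⟩

theorem clsOf_mul_pow (x γ : Ωˣ) : clsOf k m (x * γ ^ m) = clsOf k m x := by
  rw [clsOf_mul, (clsOf_eq_zero_iff k m (x := γ ^ m)).mpr ⟨1, γ, by rw [map_one, one_mul]⟩]
  exact add_zero (clsOf k m x)

/-- An automorphism on units. -/
def unitAct (e : Ω ≃ₐ[k] Ω) : Ωˣ →* Ωˣ := Units.map e.toRingEquiv.toRingHom.toMonoidHom

variable {k}

theorem coe_unitAct (e : Ω ≃ₐ[k] Ω) (x : Ωˣ) : (unitAct k e x : Ω) = e x := rfl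

theorem unitAct_mul (e f : Ω ≃ₐ[k] Ω) (x : Ωˣ) :
    unitAct k (e * f) x = unitAct k e (unitAct k f x) := Units.ext rfl

variable (k)

/-- An automorphism on classes. -/
def clsAct (e : Ω ≃ₐ[k] Ω) : Cls k Ω m →+ Cls k Ω m :=
  MonoidHom.toAdditive (QuotientGroup.map (constPow k Ω m) (constPow k Ω m) (unitAct k e) (by
    rw [constPow, sup_le_iff]
    constructor
    · rintro _ ⟨κ, rfl⟩
      exact Subgroup.mem_sup_left ⟨κ, Units.ext (e.commutes _).symm⟩
    · rintro _ ⟨γ, rfl⟩
      exact Subgroup.mem_sup_right ⟨unitAct k e γ, (map_pow (unitAct k e) γ m).symm⟩))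

theorem clsAct_clsOf (e : Ω ≃ₐ[k] Ω) (x : Ωˣ) :
    clsAct k m e (clsOf k m x) = clsOf k m (unitAct k e x) := rfl

theorem clsAct_mul (e f : Ω ≃ₐ[k] Ω) (z : Cls k Ω m) :
    clsAct k m (e * f) z = clsAct k m e (clsAct k m f z) := by
  obtain ⟨z, rfl⟩ := Additive.ofMul.surjective z
  obtain ⟨x, rfl⟩ := QuotientGroup.mk_surjective z
  show clsAct k m (e * f) (clsOf k m x) = clsAct k m e (clsAct k m f (clsOf k m x))
  rw [clsAct_clsOf, clsAct_clsOf, clsAct_clsOf, unitAct_mul]

variable {k m}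

theorem places_mul {x y : Ωˣ} (hx : Places k m x) (hy : Places k m y) : Places k m (x * y) :=
  fun v hv => by
    rw [Units.val_mul, map_mul, log_mul ((Valuation.ne_zero_iff v).mpr x.ne_zero)
      ((Valuation.ne_zero_iff v).mpr y.ne_zero)]
    exact dvd_add (hx v hv) (hy v hv)

theorem places_prod {ι : Type*} (s : Finset ι) {x : ι → Ωˣ} (hx : ∀ i ∈ s, Places k m (x i)) :
    Places k m (∏ i ∈ s, x i) := by
  classical
  induction s using Finset.induction_on with
  | empty => exact fun v _ => by simp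
  | insert a s ha ih =>
    rw [Finset.prod_insert ha]
    exact places_mul (hx a (Finset.mem_insert_self a s))
      (ih fun i hi => hx i (Finset.mem_insert_of_mem hi))

theorem places_unitAct {x : Ωˣ} (hx : Places k m x) (e : Ω ≃ₐ[k] Ω) :
    Places k m (unitAct k e x) := fun v hv =>
  hx (v.comap e.toRingEquiv.toRingHom) fun c hc => by
    show v (e (algebraMap k Ω c)) = 1
    rw [e.commutes]
    exact hv c hc

end Fermat.Agent.RT.InertiaTW

end
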