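import Fermat.Agent.Carayol.Omega.Field
import Mathlib.FieldTheory.Galois.Infinite
import Mathlib.FieldTheory.IntermediateField.Adjoin.Algebra
import Mathlib.FieldTheory.Normal.Closure

/-!
# Descent of the constants in a field of series

An element generated by a field of series with fixed coefficients and by constants, fixed by the
Galois group of the constants, lies in the field.
-/

set_option autoImplicit false

noncomputable section

open Fermat.Agent.Carayol.Omega
open ModularCurve (coeffMap)

namespace Fermat.Agent.RT.InertiaTW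

variable {k K : Type*} [Field k] [Field K] [Algebra k K] [CharZero k] [IsGalois k K]

theorem mem_of_coeffMap_fixed {S : IntermediateField k (LaurentSeries K)}
    (hS : ∀ σ : K ≃ₐ[k] K, ∀ s ∈ S, coeffMap (σ : K →+* K) s = s) {x : LaurentSeries K}
    (hx : x ∈ IntermediateField.adjoin S (Set.range (HahnSeries.C : K →+* LaurentSeries K)))
    (hfix : ∀ σ : K ≃ₐ[k] K, coeffMap (σ : K →+* K) x = x) : x ∈ S := by
  classical
  obtain ⟨T, hT, hxT⟩ := IntermediateField.exists_finset_of_mem_adjoin hx
  obtain ⟨s, -, rfl⟩ := Finset.subset_set_image_iff.mp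
    (show (T : Set (LaurentSeries K)) ⊆ (HahnSeries.C : K →+* LaurentSeries K) '' Set.univ by
      rwa [Set.image_univ])
  let l₀ : IntermediateField k K := IntermediateField.adjoin k (s : Set K)
  have : FiniteDimensional k l₀ := IntermediateField.finiteDimensional_adjoin
    fun y _ => Algebra.IsIntegral.isIntegral y
  let l : IntermediateField k K := IntermediateField.normalClosure k l₀ K
  have hl₀ : l₀ ≤ l := IntermediateField.le_normalClosure l₀
  set C' : Set (LaurentSeries K) := (HahnSeries.C : K →+* LaurentSeries K) '' (l : Set K)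
  have hC : C' = (((l : IntermediateField k K).toSubalgebra.toSubsemiring.toSubmonoid.map
      (HahnSeries.C : K →+* LaurentSeries K).toMonoidHom : Submonoid (LaurentSeries K)) :
        Set (LaurentSeries K)) := rfl
  have halg : ∀ y ∈ C', IsAlgebraic S y := by
    rintro _ ⟨b, -, rfl⟩
    obtain ⟨P, hP, hb⟩ := Algebra.IsAlgebraic.isAlgebraic (R := k) b
    refine ⟨P.map (algebraMap k S), (Polynomial.map_ne_zero_iff (algebraMap k S).injective).mpr hP,
      ?_⟩
    rw [Polynomial.aeval_map_algebraMap, Polynomial.aeval_def]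
    have hh := congrArg (HahnSeries.C : K →+* LaurentSeries K) hb
    rw [map_zero, Polynomial.aeval_def, Polynomial.hom_eval₂] at hh
    rwa [show (algebraMap k (LaurentSeries K)) =
      (HahnSeries.C : K →+* LaurentSeries K).comp (algebraMap k K) from
      RingHom.ext fun c => algebraMap_laurent_comp c]
  have hxs : x ∈ Submodule.span S C' := by
    have h1 : x ∈ IntermediateField.adjoin S C' := by
      refine IntermediateField.adjoin.mono S _ _ ?_ hxT
      intro y hy
      obtain ⟨b, hb, rfl⟩ := Finset.mem_image.mp (Finset.mem_coe.mp hy)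
      exact ⟨b, hl₀ (IntermediateField.subset_adjoin k _ (Finset.mem_coe.mpr hb)), rfl⟩
    rw [← IntermediateField.mem_toSubalgebra,
      IntermediateField.adjoin_toSubalgebra_of_isAlgebraic halg,
      ← Subalgebra.mem_toSubmodule, Algebra.adjoin_eq_span, hC, Submonoid.closure_eq] at h1
    exact h1
  obtain ⟨N, a, g, rfl⟩ := Submodule.mem_span_set'.mp hxs
  choose b hb hg using fun i => (g i).2
  simp only [← hg] at hfix ⊢
  have hsum : ∀ τ : l ≃ₐ[k] l, ∑ i, (a i : LaurentSeries K) *
      HahnSeries.C ((τ ⟨b i, hb i⟩ : l) : K) = ∑ i, a i • HahnSeries.C (b i) := fun τ => by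
    refine Eq.trans ?_ (hfix (τ.liftNormal K))
    rw [map_sum]
    refine Finset.sum_congr rfl fun i _ => ?_
    rw [show a i • HahnSeries.C (b i) = (a i : LaurentSeries K) * HahnSeries.C (b i) from rfl,
      map_mul, hS _ _ (a i).2, HahnSeries.C_apply, HahnSeries.C_apply,
      ModularCurve.coeffMap_single]
    congr 2
    exact (τ.liftNormal_commutes K ⟨b i, hb i⟩).symm
  have hcard : (Fintype.card (l ≃ₐ[k] l) : LaurentSeries K) ≠ 0 := by
    have : CharZero (LaurentSeries K) :=
      charZero_of_injective_ringHom (algebraMap k (LaurentSeries K)).injective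
    exact Nat.cast_ne_zero.mpr Fintype.card_ne_zero
  have htr : (Fintype.card (l ≃ₐ[k] l) : LaurentSeries K) * ∑ i, a i • HahnSeries.C (b i) ∈ S := by
    rw [← nsmul_eq_mul, ← Finset.card_univ, ← Finset.sum_const,
      ← Finset.sum_congr rfl fun τ _ => hsum τ, Finset.sum_comm]
    refine sum_mem fun i _ => ?_
    rw [← Finset.mul_sum, ← map_sum]
    refine mul_mem (a i).2 ?_
    have : IsGalois k l := ⟨⟩
    rw [show ∑ τ : l ≃ₐ[k] l, ((τ ⟨b i, hb i⟩ : l) : K) =
      algebraMap k K (Algebra.trace k l ⟨b i, hb i⟩) by
        rw [IsScalarTower.algebraMap_apply k l K, trace_eq_sum_automorphisms, map_sum]; rfl,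
      ← algebraMap_laurent_comp]
    exact S.algebraMap_mem _
  have := S.mul_mem (S.inv_mem (S.natCast_mem (Fintype.card (l ≃ₐ[k] l)))) htr
  rwa [inv_mul_cancel_left₀ hcard] at this

end Fermat.Agent.RT.InertiaTW
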