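import Fermat.Agent.RT.Mazur.FixedBasis
import Fermat.Agent.RT.Mazur.Rational
import Fermat.Agent.RT.InertiaTW.ConstDescent
import Mathlib.RingTheory.Valuation.LocalSubring

/-!
# Functions with coefficients in a field of constants

The functions on `X₀(N)` whose expansion has coefficients in `k ⊆ ℚ̄` attain every order at a
place prescribed by a fixed divisor. Hence such a function with divisor divisible by `m` has
order divisible by `m` at every valuation trivial on `k`, and it lies in `k (j (d τ))`.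
-/

set_option autoImplicit false

noncomputable section

open AlgebraicCurve ModularCurve
open Fermat.Agent.Semistable Fermat.Agent.Arith
open WithZero

namespace Fermat.Agent.RT.InertiaTW

variable (N : ℕ) (k : Type*) [Field k] [Algebra k QBar]

/-- A `k`-automorphism of the constants over `ℚ`. -/
def ratAut (σ : QBar ≃ₐ[k] QBar) : GQ :=
  AlgEquiv.ofRingEquiv (f := σ.toRingEquiv) fun c => map_ratCast σ.toRingEquiv c

/-- The semilinear automorphism of a `k`-automorphism of the constants. -/
def galSemi (σ : QBar ≃ₐ[k] QBar) : SemilinearAut QBar (FB N) :=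
  arithmeticGalois (modularFunctionFieldFull N) (ratAut k σ)

/-- The functions with coefficients in `k`. -/
def fixedFB : Subfield (FB N) where
  carrier := {x | ∀ σ : QBar ≃ₐ[k] QBar, coeffMap (σ : QBar →+* QBar) (x : LSer) = x}
  mul_mem' {a b} ha hb σ := by
    show coeffMap _ ((a : LSer) * (b : LSer)) = _
    rw [map_mul, ha σ, hb σ]; rfl
  one_mem' σ := map_one _
  add_mem' {a b} ha hb σ := by
    show coeffMap _ ((a : LSer) + (b : LSer)) = _
    rw [map_add, ha σ, hb σ]; rfl
  zero_mem' σ := map_zero _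
  neg_mem' {a} ha σ := by
    show coeffMap _ (-(a : LSer)) = _
    rw [map_neg, ha σ]; rfl
  inv_mem' a ha σ := by
    show coeffMap _ ((a : LSer)⁻¹) = _
    rw [map_inv₀, ha σ]; rfl

theorem mem_fixedFB {x : FB N} : x ∈ fixedFB N k ↔ ∀ σ : QBar ≃ₐ[k] QBar,
    galSemi N k σ • x = x :=
  ⟨fun h σ => Subtype.ext (h σ), fun h σ => congrArg Subtype.val (h σ)⟩

variable [NeZero N] [CharZero k] [IsGalois k QBar]

/-- Descent to `k` of series generated by fixed series and constants. -/
theorem mem_adjoin_of_coeffMap_fixed {k₀ K : Type*} [Field k₀] [Field K] [Algebra k₀ K]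
    [CharZero k₀] [IsGalois k₀ K] {T : Set (LaurentSeries K)}
    (hT : ∀ σ : K ≃ₐ[k₀] K, ∀ t ∈ T, coeffMap (σ : K →+* K) t = t) {x : LaurentSeries K}
    (hx : x ∈ Subfield.closure (Set.range (HahnSeries.C : K →+* LaurentSeries K) ∪ T))
    (hfix : ∀ σ : K ≃ₐ[k₀] K, coeffMap (σ : K →+* K) x = x) :
    x ∈ IntermediateField.adjoin k₀ T := by
  set S := IntermediateField.adjoin k₀ T with hSdef
  have hS : ∀ σ : K ≃ₐ[k₀] K, ∀ s ∈ S, coeffMap (σ : K →+* K) s = s := by
    intro σ s hs
    induction hs using IntermediateField.adjoin_induction with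
    | mem y hy => exact hT σ y hy
    | algebraMap c =>
      rw [Fermat.Agent.Carayol.Omega.algebraMap_laurent_comp, HahnSeries.C_apply, coeffMap_single]
      exact congrArg _ (σ.commutes c)
    | add y z _ _ hy hz => rw [map_add, hy, hz]
    | inv y _ hy => rw [map_inv₀, hy]
    | mul y z _ _ hy hz => rw [map_mul, hy, hz]
  refine mem_of_coeffMap_fixed hS ?_ hfix
  refine (Subfield.closure_le (t := (IntermediateField.adjoin S
    (Set.range (HahnSeries.C : K →+* LaurentSeries K))).toSubfield)).mpr ?_ hx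
  rintro y (hy | hy)
  · exact IntermediateField.subset_adjoin S _ hy
  · exact (IntermediateField.adjoin S _).algebraMap_mem
      ⟨y, IntermediateField.subset_adjoin k₀ _ hy⟩

/-- A function with coefficients in `k` lies in the field generated over `k` by the `j (d τ)`. -/
theorem mem_adjoin_of_fixed {x : FB N} (hx : x ∈ fixedFB N k) :
    (x : LSer) ∈ IntermediateField.adjoin k (Set.range (gen QBar : Dvs N → LSer)) := by
  refine mem_adjoin_of_coeffMap_fixed ?_ ?_ fun σ => hx σ
  · rintro σ _ ⟨d, rfl⟩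
    exact coeffMap_gen _ d
  · have hmem : (x : LSer) ∈ IntermediateField.adjoin QBar
        (Set.range (gen QBar : Dvs N → LSer)) := fb_eq_adjoin N ▸ x.2
    generalize (x : LSer) = z at hmem ⊢
    induction hmem using IntermediateField.adjoin_induction with
    | mem y hy => exact Subfield.subset_closure (Or.inr hy)
    | algebraMap c =>
      refine Subfield.subset_closure (Or.inl ⟨c, ?_⟩)
      rw [Fermat.Agent.Carayol.Omega.algebraMap_laurent_comp]
      rfl
    | add y z _ _ hy hz => exact add_mem hy hz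
    | inv y _ hy => exact inv_mem hy
    | mul y z _ _ hy hz => exact mul_mem hy hz

omit [CharZero k] [IsGalois k QBar] in
/-- A fixed divisor is attained at a given place by a fixed function. -/
theorem exists_fixed_ord (D : Divisor QBar (FB N))
    (hD : ∀ σ : QBar ≃ₐ[k] QBar, galSemi N k σ • D = D) (P : Place QBar (FB N)) :
    ∃ g : FB N, g ≠ 0 ∧ g ∈ fixedFB N k ∧ P.ord g = D P := by
  classical
  set P₀ := Mazur.Eisenstein.placeInf N with hP₀
  have hfix₀ : ∀ (σ : QBar ≃ₐ[k] QBar) (n : ℤ),
      galSemi N k σ • (Finsupp.single P₀ n : Divisor QBar (FB N)) = Finsupp.single P₀ n :=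
    fun σ n => by
      rw [SemilinearAut.smul_single, hP₀]
      exact congrArg (fun Q => Finsupp.single Q n) (RT.Mazur.galois_smul_placeInf _)
  obtain ⟨c, hc⟩ := FF.exists_ell_eq (K := QBar) (F := FB N)
  -- a fixed function with the extreme order allowed by a fixed divisor of large degree
  have key : ∀ E : Divisor QBar (FB N), (∀ σ : QBar ≃ₐ[k] QBar, galSemi N k σ • E = E) →
      c + 1 ≤ Divisor.degree E → ∃ g : FB N, g ≠ 0 ∧ g ∈ fixedFB N k ∧ P.ord g = -E P := by
    intro E hE hdeg
    set W := riemannRochSpace E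
    have hW : ∀ τ ∈ Set.range fun σ : QBar ≃ₐ[k] QBar => ratAut k σ, ∀ x ∈ W,
        arithmeticRingAut (modularFunctionFieldFull N) τ x ∈ W := by
      rintro _ ⟨σ, rfl⟩ x hx
      show galSemi N k σ • x ∈ W
      rw [mem_riemannRochSpace_iff] at hx ⊢
      intro v
      set g := galSemi N k σ
      have h := hx (g⁻¹ • v)
      rcases h with h | h
      · left; rw [h]; exact map_zero _
      · right
        have h2 := SemilinearAut.ord_smul g (g⁻¹ • v) x
        rw [smul_inv_smul] at h2
        have h3 := DFunLike.congr_fun (hE σ) v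
        rw [SemilinearAut.divisor_smul_apply] at h3
        rw [h2, ← h3]
        exact h
    obtain ⟨b, hbW, hbli, hbfix⟩ := RT.Mazur.exists_fixed_basis _ W hW
    obtain ⟨i, hi⟩ : ∃ i, b i ∉ riemannRochSpace (E - Finsupp.single P (1 : ℤ)) := by
      by_contra! hall
      let bW : Fin (Module.finrank QBar W) → riemannRochSpace (E - Finsupp.single P (1 : ℤ)) :=
        fun i => ⟨b i, hall i⟩
      have hli : LinearIndependent QBar bW :=
        LinearIndependent.of_comp (riemannRochSpace (E - Finsupp.single P (1 : ℤ))).subtype hbli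
      have h1 := hli.fintype_card_le_finrank
      rw [Fintype.card_fin] at h1
      have h2 := hc E (by omega)
      have hdeg' : Divisor.degree (E - Finsupp.single P (1 : ℤ)) = Divisor.degree E - 1 := by
        rw [map_sub, FiniteFlat.degree_single_one]
      have h3 := hc (E - Finsupp.single P (1 : ℤ)) (by omega)
      rw [FF.ell] at h2 h3
      have : (Module.finrank QBar (riemannRochSpace E) : ℤ) ≤
          Module.finrank QBar (riemannRochSpace (E - Finsupp.single P (1 : ℤ))) := by
        exact_mod_cast h1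
      omega
    have hne : b i ≠ 0 := fun h0 => hi (h0 ▸ Submodule.zero_mem _)
    refine ⟨b i, hne, fun σ => congrArg Subtype.val (hbfix i _ ⟨σ, rfl⟩), ?_⟩
    have hmem := hbW i
    rw [mem_riemannRochSpace_iff] at hmem
    by_contra hord
    refine hi (mem_riemannRochSpace_iff.mpr fun v => Or.inr ?_)
    have hv := (hmem v).resolve_left hne
    rw [Finsupp.sub_apply]
    rcases eq_or_ne v P with rfl | hvP
    · rw [Finsupp.single_eq_same]; omega
    · rw [Finsupp.single_eq_of_ne hvP]; omega
  obtain ⟨n, hn1, hn2⟩ : ∃ n : ℕ, c + 1 ≤ (n : ℤ) ∧ c + 1 + Divisor.degree D ≤ (n : ℤ) :=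
    ⟨(max (c + 1) (c + 1 + Divisor.degree D)).toNat, (le_max_left _ _).trans (Int.self_le_toNat _),
      (le_max_right _ _).trans (Int.self_le_toNat _)⟩
  obtain ⟨g₁, h₁, hf₁, ho₁⟩ := key (-D + Finsupp.single P₀ (n : ℤ))
    (fun σ => by rw [smul_add, smul_neg, hD, hfix₀])
    (by rw [map_add, map_neg, FiniteFlat.degree_single_one]; omega)
  obtain ⟨g₂, h₂, hf₂, ho₂⟩ := key (Finsupp.single P₀ (n : ℤ)) (fun σ => hfix₀ σ _)
    (by rw [FiniteFlat.degree_single_one]; omega)
  refine ⟨g₁ / g₂, div_ne_zero h₁ h₂, (fixedFB N k).div_mem hf₁ hf₂, ?_⟩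
  rw [JacTorsion.ord_div P h₁ h₂, ho₁, ho₂, Finsupp.add_apply, Finsupp.neg_apply]
  ring

omit [CharZero k] in
/-- The order of a fixed function with divisor divisible by `m` is divisible by `m` at every
valuation trivial on `k`. -/
theorem dvd_log_valuation {m : ℕ} [NeZero m] (f : JacTorsion.divGrp QBar (FB N) m)
    (hf : ((f : (FB N)ˣ) : FB N) ∈ fixedFB N k) (v : Valuation (fixedFB N k) ℤᵐ⁰)
    (hv : ∀ (c : k) (h : algebraMap QBar (FB N) (algebraMap k QBar c) ∈ fixedFB N k), c ≠ 0 → v ⟨_, h⟩ = 1) :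
    (m : ℤ) ∣ log (v ⟨_, hf⟩) := by
  classical
  by_cases htriv : ∀ x : fixedFB N k, x ≠ 0 → v x = 1
  · rw [htriv _ fun h0 => Units.ne_zero (f : (FB N)ˣ) (congrArg Subtype.val h0), log_one]
    exact dvd_zero _
  push Not at htriv
  obtain ⟨x₀, hx₀, hvx₀⟩ := htriv
  -- a place of the whole field above the valuation
  obtain ⟨V, hVmem, hloc⟩ := IsLocalRing.exists_factor_valuationRing (K := FB N)
    ((fixedFB N k).subtype.comp v.valuationSubring.subtype)
  have hle : ∀ x : fixedFB N k, v x ≤ 1 → (x : FB N) ∈ V := fun x hx =>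
    hVmem ⟨x, hx⟩
  have hunit : ∀ x : fixedFB N k, x ≠ 0 → (x : FB N) ∈ V → ((x : FB N))⁻¹ ∈ V → v x = 1 := by
    intro x hx h1 h2
    have hx' : (x : FB N) ≠ 0 := fun h => hx (Subtype.ext h)
    rcases le_total (v x) 1 with h | h
    · have hu : IsUnit (⟨x, hVmem ⟨x, h⟩⟩ : V) :=
        IsUnit.of_mul_eq_one ⟨_, h2⟩ (Subtype.ext (mul_inv_cancel₀ hx'))
      have hu' : IsUnit (⟨x, h⟩ : v.valuationSubring) := by
        refine hloc.map_nonunit _ ?_
        exact hu
      refine le_antisymm h ?_
      obtain ⟨w, hw⟩ := hu'.exists_right_inv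
      have e := congrArg (fun z : v.valuationSubring => v (z : fixedFB N k)) hw
      simp only [MulMemClass.coe_mul, map_mul, OneMemClass.coe_one, map_one] at e
      rw [← e]
      exact mul_le_of_le_one_right' w.2
    · have hinv : v x⁻¹ ≤ 1 := by rw [map_inv₀]; exact inv_le_one_of_one_le₀ h
      have hu : IsUnit (⟨((x⁻¹ : fixedFB N k) : FB N), hVmem ⟨x⁻¹, hinv⟩⟩ : V) :=
        IsUnit.of_mul_eq_one ⟨_, h1⟩ (Subtype.ext (inv_mul_cancel₀ hx'))
      have hu' : IsUnit (⟨x⁻¹, hinv⟩ : v.valuationSubring) := hloc.map_nonunit _ hu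
      refine le_antisymm ?_ h
      obtain ⟨w, hw⟩ := hu'.exists_right_inv
      have e := congrArg (fun z : v.valuationSubring => v (z : fixedFB N k)) hw
      simp only [MulMemClass.coe_mul, map_mul, OneMemClass.coe_one, map_one, map_inv₀] at e
      have : v x⁻¹ = 1 := by
        rw [map_inv₀]
        refine le_antisymm (by rw [← map_inv₀]; exact hinv) ?_
        rw [← e]
        exact mul_le_of_le_one_right' w.2
      rw [map_inv₀, inv_eq_one] at this
      exact this.le
  have hconstmem : ∀ c : k, algebraMap QBar (FB N) (algebraMap k QBar c) ∈ fixedFB N k := fun c σ => by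
    show coeffMap (σ : QBar →+* QBar) (algebraMap QBar LSer (algebraMap k QBar c)) =
      algebraMap QBar LSer (algebraMap k QBar c)
    rw [coeffMap_algebraMap]
    exact congrArg _ (σ.commutes c)
  have hk : ∀ c : k, algebraMap QBar (FB N) (algebraMap k QBar c) ∈ V := fun c => by
    refine hle ⟨_, hconstmem c⟩ ?_
    rcases eq_or_ne c 0 with rfl | hc
    · rw [show (⟨_, hconstmem 0⟩ : fixedFB N k) = 0 from
        Subtype.ext (by simp), map_zero]
      exact zero_le
    · exact (hv c _ hc).le
  have hA : ∀ a : QBar, algebraMap QBar (FB N) a ∈ V := by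
    intro a
    have hint : IsIntegral k a := Algebra.IsIntegral.isIntegral a
    obtain ⟨p, hp, hpa⟩ := hint
    let φ : k →+* V := ((algebraMap QBar (FB N)).comp (algebraMap k QBar)).codRestrict V hk
    have hInt : IsIntegral V (algebraMap QBar (FB N) a) := ⟨p.map φ, hp.map φ, by
      rw [Polynomial.eval₂_map, show (algebraMap V (FB N)).comp φ
        = (algebraMap QBar (FB N)).comp (algebraMap k QBar) from rfl, ← Polynomial.hom_eval₂,
        hpa, map_zero]⟩
    obtain ⟨y, hy⟩ := IsIntegrallyClosed.algebraMap_eq_of_integral hInt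
    exact hy ▸ y.2
  have hne : V ≠ ⊤ := fun htop =>
    hvx₀ (hunit x₀ hx₀ (by rw [htop]; trivial) (by rw [htop]; trivial))
  set P : Place QBar (FB N) := FF.placeOfValuationSubring V hA hne with hP
  -- a fixed function with the order of the divisor `div f / m`
  set D := JacTorsion.divQuot f with hDdef
  have hDfix : ∀ σ : QBar ≃ₐ[k] QBar, galSemi N k σ • D = D := fun σ => by
    refine JacTorsion.eq_of_smul_eq (m := m) ?_
    rw [hDdef, smul_comm, JacTorsion.smul_divQuot]
    refine Finsupp.ext fun v' => ?_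
    rw [SemilinearAut.divisor_smul_apply, JacTorsion.div_apply, JacTorsion.div_apply]
    have h := SemilinearAut.ord_smul (galSemi N k σ) ((galSemi N k σ)⁻¹ • v')
      ((f : (FB N)ˣ) : FB N)
    rw [smul_inv_smul, (mem_fixedFB N k).mp hf σ] at h
    exact h.symm
  obtain ⟨g, hg0, hgfix, hgord⟩ := exists_fixed_ord N k D hDfix P
  have hfD : P.ord ((f : (FB N)ˣ) : FB N) = (m : ℤ) * D P := by
    rw [← JacTorsion.div_apply, ← JacTorsion.smul_divQuot, Finsupp.smul_apply, smul_eq_mul]
  set F' : fixedFB N k := ⟨_, hf⟩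
  set G : fixedFB N k := ⟨g, hgfix⟩
  have hf0 : ((f : (FB N)ˣ) : FB N) ≠ 0 := Units.ne_zero _
  have hgm : g ^ m ≠ 0 := pow_ne_zero _ hg0
  have ha : P.ord (((f : (FB N)ˣ) : FB N) / g ^ m) = 0 := by
    rw [JacTorsion.ord_div P hf0 hgm, FF.ord_pow, hgord, hfD]
    ring
  have hG : G ≠ 0 := fun h => hg0 (congrArg Subtype.val h)
  have hF : F' ≠ 0 := fun h => hf0 (congrArg Subtype.val h)
  have hva : v (F' / G ^ m) = 1 := by
    refine hunit _ (div_ne_zero hF (pow_ne_zero _ hG)) ?_ ?_
    · exact (JacTorsion.mem_iff_ord_nonneg P).mpr ha.ge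
    · refine (JacTorsion.mem_iff_ord_nonneg P).mpr ?_
      rw [Place.ord_inv]
      show 0 ≤ -P.ord (((f : (FB N)ˣ) : FB N) / g ^ m)
      rw [ha, neg_zero]
  have hvG : v G ≠ 0 := (Valuation.ne_zero_iff v).mpr hG
  rw [map_div₀, map_pow, div_eq_one_iff_eq (pow_ne_zero _ hvG)] at hva
  rw [hva, log_pow, nsmul_eq_mul]
  exact dvd_mul_right _ _

end Fermat.Agent.RT.InertiaTW

end
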