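import Fermat.Agent.Carayol.Comb

/-!
# The torus identity

For a function on `GL₂(𝔽_q)` invariant on the right under the lower unipotent matrices and on the
left under the elements congruent to one modulo a line, the combination
`(q - 1) (N₁ + N₂) - N_T` of its sums over the two one-parameter tori and the whole torus is
`(q - 1) ^ 2` times its value at one.
-/

set_option autoImplicit false

namespace Fermat.Agent.RT.InertiaTW

open Matrix Carayol

variable {q : ℕ} [Fact q.Prime] {M : Type*} [AddCommGroup M]

theorem coe_diagElt (a d : (ZMod q)ˣ) : ((diagElt a d : GL (Fin 2) (ZMod q)) :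
    Matrix (Fin 2) (Fin 2) (ZMod q)) = !![(a : ZMod q), 0; 0, (d : ZMod q)] := rfl

theorem coe_uMinus (a : ZMod q) : ((uMinus a : GL (Fin 2) (ZMod q)) :
    Matrix (Fin 2) (Fin 2) (ZMod q)) = !![1, 0; a, 1] := rfl

/-- The combination of sums over the tori. -/
def torOp (Φ : GL (Fin 2) (ZMod q) → M) : M :=
  ((q : ℤ) - 1) • (∑ a : (ZMod q)ˣ, Φ (diagElt a 1) + ∑ d : (ZMod q)ˣ, Φ (diagElt 1 d))
    - ∑ a : (ZMod q)ˣ, ∑ d : (ZMod q)ˣ, Φ (diagElt a d)

/-- The exponent of the identity. -/
def torExp (q : ℕ) : ℕ := (q - 1) ^ 2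

theorem natCast_card_units : ((Finset.univ : Finset (ZMod q)ˣ).card : ℤ) = (q : ℤ) - 1 := by
  rw [Finset.card_univ, ZMod.card_units, Nat.cast_sub (Fact.out : q.Prime).one_le, Nat.cast_one]

/-- The identity. -/
theorem torOp_eq (Φ : GL (Fin 2) (ZMod q) → M) (hU : ∀ g s, Φ (g * uMinus s) = Φ g)
    {v : Fin 2 → ZMod q} (hv : v ≠ 0)
    (hS : ∀ s g : GL (Fin 2) (ZMod q),
      (∀ w : Fin 2 → ZMod q, ∃ k : ZMod q,
        (s : Matrix (Fin 2) (Fin 2) (ZMod q)).mulVec w - w = k • v) → Φ (s * g) = Φ g) :
    torOp Φ = (torExp q : ℤ) • Φ 1 := by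
  have hq : ((torExp q : ℕ) : ℤ) = ((q : ℤ) - 1) * ((q : ℤ) - 1) := by
    rw [torExp, Nat.cast_pow, Nat.cast_sub (Fact.out : q.Prime).one_le, Nat.cast_one, sq]
  have hmul : ∀ a d, diagElt (q := q) a d = diagElt a 1 * diagElt 1 d := fun a d => by
    refine Units.ext ?_
    rw [Units.val_mul]
    simp [coe_diagElt]
  have hcomm : ∀ a d, diagElt (q := q) a 1 * diagElt 1 d = diagElt 1 d * diagElt a 1 := fun a d => by
    refine Units.ext ?_
    rw [Units.val_mul, Units.val_mul]
    simp [coe_diagElt]
  by_cases h0 : v 0 = 0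
  · -- the line of the second basis vector: `diag(1, d)` is congruent to one
    have h1 : v 1 ≠ 0 := fun h1 => hv (by funext i; fin_cases i <;> simp [h0, h1])
    have hd : ∀ d g, Φ (diagElt 1 d * g) = Φ g := fun d g => hS _ g fun w =>
      ⟨((d : ZMod q) - 1) * w 1 / v 1, by
        funext i
        fin_cases i
        · simp [coe_diagElt, h0, dotProduct, Fin.sum_univ_two]
        · simp [coe_diagElt, dotProduct, Fin.sum_univ_two]
          field_simp⟩
    have hT : ∀ a d, Φ (diagElt a d) = Φ (diagElt a 1) := fun a d => by rw [hmul, hcomm, hd]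
    have h2 : ∀ d, Φ (diagElt 1 d) = Φ 1 := fun d => by rw [← mul_one (diagElt 1 d), hd]
    simp only [torOp, hT, h2, Finset.sum_const, ← natCast_zsmul, natCast_card_units, hq,
      ← Finset.smul_sum]
    module
  · -- another line: some conjugate of `diag(a, 1)` by a lower unipotent is congruent to one
    have ha : ∀ a g, Φ (uMinus (v 1 / v 0) * diagElt a 1 * uMinus (-(v 1 / v 0)) * g) = Φ g :=
      fun a g => hS _ g fun w => ⟨((a : ZMod q) - 1) * w 0 / v 0, by
        funext i
        fin_cases i
        · simp [coe_uMinus, coe_diagElt, dotProduct, Fin.sum_univ_two]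
          field_simp
        · simp [coe_uMinus, coe_diagElt, dotProduct, Fin.sum_univ_two]
          field_simp
          ring⟩
    have key : ∀ a d, Φ (diagElt a d) = Φ (diagElt 1 d) := fun a d => by
      set t := v 1 / v 0
      have e : diagElt a d = uMinus t * diagElt a 1 * uMinus (-t) * diagElt 1 d *
          uMinus ((t - t * (a : ZMod q)) / (d : ZMod q)) := by
        refine Units.ext ?_
        simp only [Units.val_mul]
        ext i j
        fin_cases i <;> fin_cases j <;>
          simp [coe_uMinus, coe_diagElt]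
        have := d.ne_zero
        field_simp
        ring
      rw [e, hU, ha]
    have h2 : ∀ a, Φ (diagElt a 1) = Φ 1 := fun a => by
      have h11 : diagElt (q := q) 1 1 = 1 := Units.ext (by simp [coe_diagElt, Matrix.one_fin_two])
      rw [key a 1, h11]
    simp only [torOp, key, h2, Finset.sum_const, ← natCast_zsmul, natCast_card_units, hq]
    module

end Fermat.Agent.RT.InertiaTW
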