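import Fermat.Agent.RT.InertiaTW.OmegaEmb
import Fermat.Agent.RT.Mazur.Rational
import Fermat.Agent.JacTorsion.Main

/-!
# Normalised Kummer functions with coefficients in `k (ζ_q)`

A torsion class fixed by the automorphisms fixing `k (ζ_q)` has a Kummer function with leading
coefficient one and coefficients in `k (ζ_q)`, unique up to powers of such functions.
-/

set_option autoImplicit false

noncomputable section

open AlgebraicCurve
open ModularCurve (coeffMap JZero arithmeticGalois modularFunctionFieldFull)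
open Fermat.Agent.Semistable Fermat.Agent.Arith
open Fermat.Agent.Carayol.Omega

namespace Fermat.Agent.RT.InertiaTW

set_option linter.unusedSectionVars false

variable {N : ℕ} [NeZero N] {q n : ℕ} [NeZero (q * n)] (E : Setup (q * n) QBar)
  (k : Type*) [Field k] [Algebra k QBar] {m : ℕ} [NeZero m]

/-- The leading coefficient. -/
def leadFB (y : FB N) : QBar := (y : LSer).leadingCoeff

omit [NeZero N] in
theorem leadFB_mul (x y : FB N) : leadFB (x * y) = leadFB x * leadFB y :=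
  HahnSeries.leadingCoeff_mul _ _

theorem leadFB_pow (x : FB N) (j : ℕ) : leadFB (x ^ j) = leadFB x ^ j := by
  induction j with
  | zero => simp [leadFB]
  | succ j ih => rw [pow_succ, leadFB_mul, ih, pow_succ]

omit [NeZero N] in
theorem leadFB_algebraMap (c : QBar) : leadFB (algebraMap QBar (FB N) c) = c := by
  show (algebraMap QBar LSer c).leadingCoeff = c
  rw [algebraMap_laurent_comp, HahnSeries.C_apply, HahnSeries.leadingCoeff_of_single]
  rfl

omit [NeZero N] in
theorem leadFB_galSemi (σ : QBar ≃ₐ[k] QBar) (y : FB N) :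
    leadFB (galSemi N k σ • y) = σ (leadFB y) :=
  JacTorsion.coeffMap_leadingCoeff (σ : QBar →+* QBar) _

/-- A class fixed by the automorphisms fixing `ζ_q` has a normalised fixed Kummer function. -/
theorem exists_qFixed_kummer (x : Pic0.torsion QBar (FB N) m)
    (hx : ∀ σ : QBar ≃ₐ[k] QBar, σ (E.ζ ^ n) = E.ζ ^ n → ratAut k σ • (x : JZero N) = x) :
    ∃ f : JacTorsion.divGrp QBar (FB N) m, JacTorsion.toTorsion (Additive.ofMul f) = x ∧
      leadFB ((f : (FB N)ˣ) : FB N) = 1 ∧ ((f : (FB N)ˣ) : FB N) ∈ qFixed N E k := by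
  obtain ⟨f, hfx, hl, hfix⟩ := RT.Mazur.exists_fixed_kummer
    (S := galSemi N k '' {σ : QBar ≃ₐ[k] QBar | σ (E.ζ ^ n) = E.ζ ^ n})
    (P₀ := Mazur.Eisenstein.placeInf N)
    (by rintro _ ⟨σ, -, rfl⟩; exact RT.Mazur.galois_smul_placeInf _)
    (leadFB (N := N))
    (fun c y => by rw [leadFB_mul, leadFB_algebraMap])
    (fun y hy => HahnSeries.leadingCoeff_ne_zero.mpr fun h => hy (Subtype.ext h))
    (by rintro _ ⟨σ, -, rfl⟩ y; exact leadFB_galSemi k σ y)
    (x := x) (by rintro _ ⟨σ, hσ, rfl⟩; exact hx σ hσ)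
  refine ⟨f, hfx, hl, (mem_qFixed N E k).mpr fun σ hσ => ?_⟩
  exact congrArg Subtype.val (hfix _ ⟨σ, hσ, rfl⟩)

/-- Two normalised fixed Kummer functions of a class differ by a fixed power. -/
theorem exists_root_of_toTorsion_eq {f f' : JacTorsion.divGrp QBar (FB N) m}
    (he : JacTorsion.toTorsion (Additive.ofMul f) = JacTorsion.toTorsion (Additive.ofMul f'))
    (hl : leadFB ((f : (FB N)ˣ) : FB N) = 1) (hl' : leadFB ((f' : (FB N)ˣ) : FB N) = 1)
    (hf : ((f : (FB N)ˣ) : FB N) ∈ qFixed N E k) (hf' : ((f' : (FB N)ˣ) : FB N) ∈ qFixed N E k) :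
    ∃ g : FB N, g ≠ 0 ∧ g ∈ qFixed N E k ∧
      ((f : (FB N)ˣ) : FB N) = ((f' : (FB N)ˣ) : FB N) * g ^ m := by
  have h0 : JacTorsion.toTorsion (Additive.ofMul (f * f'⁻¹)) = 0 := by
    rw [ofMul_mul, ofMul_inv, map_add, map_neg, he, add_neg_cancel]
  obtain ⟨h, hh⟩ := (JacTorsion.toTorsion_eq_zero_iff _).mp h0
  have hpow : ((f : (FB N)ˣ) : FB N) = ((f' : (FB N)ˣ) : FB N) * (h : FB N) ^ m := by
    have e := congrArg Units.val hh
    rw [powMonoidHom_apply, Units.val_pow_eq_pow_val] at e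
    rw [e, Subgroup.subtype_apply, Subgroup.coe_mul, Subgroup.coe_inv, Units.val_mul, Units.val_inv_eq_inv_val]
    field_simp
  set c := leadFB (h : FB N)
  have hc : c ^ m = 1 := by
    have e := congrArg (leadFB (N := N)) hpow
    rw [leadFB_mul, leadFB_pow, hl, hl', one_mul] at e
    exact e.symm
  have hc0 : c ≠ 0 := fun h1 => by rw [h1, zero_pow (NeZero.ne m)] at hc; exact zero_ne_one hc
  set g : FB N := algebraMap QBar (FB N) c⁻¹ * h with hg
  have hgm : g ^ m = (h : FB N) ^ m := by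
    rw [hg, mul_pow, ← map_pow, inv_pow, hc, inv_one, map_one, one_mul]
  have hlg : leadFB g = 1 := by
    rw [hg, leadFB_mul, leadFB_algebraMap, inv_mul_cancel₀ hc0]
  have hg0 : g ≠ 0 := mul_ne_zero ((map_ne_zero _).mpr (inv_ne_zero hc0)) h.ne_zero
  refine ⟨g, hg0, (mem_qFixed N E k).mpr fun σ hσ => congrArg (Subtype.val (p := fun z => z ∈ FB N)) (?_ : galSemi N k σ • g = g), by rw [hgm, hpow]⟩
  have hfix : ∀ y ∈ qFixed N E k, galSemi N k σ • y = y := fun y hy =>
    Subtype.ext ((mem_qFixed N E k).mp hy σ hσ)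
  have hσm : (galSemi N k σ • g) ^ m = g ^ m := by
    have h2 : g ^ m ∈ qFixed N E k := by
      have : g ^ m = ((f : (FB N)ˣ) : FB N) / ((f' : (FB N)ˣ) : FB N) := by
        rw [hgm, hpow, mul_div_cancel_left₀ _ (Units.ne_zero _)]
      rw [this]
      exact div_mem hf hf'
    exact (map_pow (SemilinearAut.toRingAut (galSemi N k σ)) g m).symm.trans (hfix _ h2)
  have hunit : ((galSemi N k σ • g) / g) ^ m = 1 := by
    rw [div_pow, hσm, div_self (pow_ne_zero _ hg0)]
  obtain ⟨z, hz⟩ : ∃ z : QBar, algebraMap QBar (FB N) z = galSemi N k σ • g / g := by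
    obtain ⟨ζ, hζ⟩ := HasEnoughRootsOfUnity.exists_primitiveRoot QBar m
    have hζ' := hζ.map_of_injective (algebraMap QBar (FB N)).injective
    obtain ⟨i, -, hi⟩ := hζ'.eq_pow_of_pow_eq_one hunit
    exact ⟨ζ ^ i, by rw [map_pow, hi]⟩
  have h3 : galSemi N k σ • g = algebraMap QBar (FB N) z * g := by
    rw [hz, div_mul_cancel₀ _ hg0]
  have h4 := congrArg (leadFB (N := N)) h3
  rw [leadFB_galSemi, hlg, map_one, leadFB_mul, leadFB_algebraMap, hlg, mul_one] at h4
  rw [h3, ← h4, map_one, one_mul]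

/-- Conjugates of normalised fixed Kummer functions. -/
theorem exists_galSemi_kummer (σ : QBar ≃ₐ[k] QBar) {c : ℕ}
    (hσ : σ (E.ζ ^ n) = (E.ζ ^ n) ^ c) (f : JacTorsion.divGrp QBar (FB N) m)
    (hl : leadFB ((f : (FB N)ˣ) : FB N) = 1) (hf : ((f : (FB N)ˣ) : FB N) ∈ qFixed N E k) :
    ∃ f' : JacTorsion.divGrp QBar (FB N) m,
      ((f' : (FB N)ˣ) : FB N) = galSemi N k σ • ((f : (FB N)ˣ) : FB N) ∧
      (JacTorsion.toTorsion (Additive.ofMul f') : JZero N) =
        ratAut k σ • (JacTorsion.toTorsion (Additive.ofMul f) : JZero N) ∧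
      leadFB ((f' : (FB N)ˣ) : FB N) = 1 ∧ ((f' : (FB N)ˣ) : FB N) ∈ qFixed N E k := by
  set G := galSemi N k σ with hG
  set F : FB N := ((f : (FB N)ˣ) : FB N)
  have h0 : G • F ≠ 0 := (map_ne_zero (SemilinearAut.toRingAut G)).mpr (Units.ne_zero _)
  have hord : ∀ P : Place QBar (FB N), P.ord (G • F) = (G⁻¹ • P).ord F := fun P => by
    have h := SemilinearAut.ord_smul G (G⁻¹ • P) F
    rwa [smul_inv_smul] at h
  have hmem : Units.mk0 _ h0 ∈ JacTorsion.divGrp QBar (FB N) m := fun P => by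
    rw [Units.val_mk0, hord]; exact f.2 _
  refine ⟨⟨_, hmem⟩, rfl, ?_, ?_, ?_⟩
  · show Pic0.mk (K := QBar) (F := FB N) _ = G • Pic0.mk (K := QBar) (F := FB N) _
    rw [SemilinearAut.pic0_smul_mk]
    refine congrArg Pic0.mk (Subtype.ext (JacTorsion.eq_of_smul_eq (m := m) ?_))
    show (m : ℤ) • JacTorsion.divQuot _ = (m : ℤ) • (G • JacTorsion.divQuot f)
    rw [smul_comm (m : ℤ) G, JacTorsion.smul_divQuot, JacTorsion.smul_divQuot]
    refine Finsupp.ext fun P => ?_
    rw [SemilinearAut.divisor_smul_apply, JacTorsion.div_apply, JacTorsion.div_apply]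
    exact hord P
  · rw [Units.val_mk0, hG, leadFB_galSemi, hl, map_one]
  · refine (mem_qFixed N E k).mpr fun τ hτ => ?_
    show coeffMap (τ : QBar →+* QBar) (coeffMap (σ : QBar →+* QBar) (F : LSer)) =
      coeffMap (σ : QBar →+* QBar) (F : LSer)
    have hfix := (mem_qFixed N E k).mp hf (σ⁻¹ * τ * σ) (by
      rw [AlgEquiv.mul_apply, AlgEquiv.mul_apply, hσ, map_pow, hτ, ← hσ]
      exact σ.symm_apply_apply _)
    conv_rhs => rw [← hfix]
    rw [ModularCurve.coeffMap_coeffMap, ModularCurve.coeffMap_coeffMap]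
    exact ModularCurve.coeffMap_congr (RingHom.ext fun a => (σ.apply_symm_apply _).symm) _

end Fermat.Agent.RT.InertiaTW

end
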