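import Fermat.Agent.RT.InertiaTW.FixedFunctions
import Fermat.Agent.Carayol.Omega.Maps
import Fermat.Agent.Carayol.Glue

/-!
# Functions on `X₀(N)` inside the field of level `q n`

A function with coefficients in `k (ζ_q)` becomes, at `τ/q`, an element of the field of level
`q n` over `k`. The diagonal matrices act on it through the coefficients, and the order is
divisible by `m` at every place over `k` when the divisor is.
-/

set_option autoImplicit false

noncomputable section

open AlgebraicCurve
open ModularCurve (coeffMap qExpand jqModC)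
open Fermat.Agent.Semistable Fermat.Agent.Arith
open Fermat.Agent.Carayol.Omega
open WithZero

namespace Fermat.Agent.RT.InertiaTW

variable (N : ℕ) {q n : ℕ} [NeZero (q * n)] (E : Setup (q * n) QBar)
  (k : Type*) [Field k] [Algebra k QBar]

/-- The field `k (ζ_q)`. -/
abbrev qConst : IntermediateField k QBar := IntermediateField.adjoin k {E.ζ ^ n}

/-- The functions with coefficients in `k (ζ_q)`. -/
def qFixed : Subfield (FB N) := fixedFB N (qConst E k)

omit [NeZero (q * n)] in
theorem mem_qFixed {x : FB N} :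
    x ∈ qFixed N E k ↔ ∀ σ : QBar ≃ₐ[k] QBar, σ (E.ζ ^ n) = E.ζ ^ n →
      coeffMap (σ : QBar →+* QBar) (x : LSer) = x := by
  constructor
  · intro h σ hσ
    have hall : ∀ c : qConst E k, σ c = c := fun c => by
      have : qConst E k ≤ IntermediateField.fixedField (Subgroup.closure {σ}) := by
        rw [IntermediateField.adjoin_le_iff, Set.singleton_subset_iff]
        refine (IntermediateField.mem_fixedField_iff _ _).mpr fun τ hτ => ?_
        induction hτ using Subgroup.closure_induction with
        | mem τ hτ => rw [Set.mem_singleton_iff.mp hτ, hσ]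
        | one => rfl
        | mul a b _ _ ha hb => rw [AlgEquiv.mul_apply, hb, ha]
        | inv a _ ha =>
          apply a.injective
          rw [← AlgEquiv.mul_apply, mul_inv_cancel, AlgEquiv.one_apply, ha]
      exact (IntermediateField.mem_fixedField_iff _ _).mp (this c.2) σ
        (Subgroup.subset_closure rfl)
    exact h (AlgEquiv.ofRingEquiv (f := σ.toRingEquiv) hall)
  · intro h τ
    exact h (τ.restrictScalars k)
      (τ.commutes ⟨_, IntermediateField.mem_adjoin_simple_self k (E.ζ ^ n)⟩)

variable [NeZero N] [NeZero q] [NeZero n] [CharZero k] [IsGalois k QBar]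

omit [CharZero k] [IsGalois k QBar] [NeZero N] [NeZero q] [NeZero n] in
theorem C_mem_field {c : QBar} (hc : c ∈ qConst E k) :
    (HahnSeries.C c : LaurentSeries QBar) ∈ E.field k := by
  induction hc using IntermediateField.adjoin_induction with
  | mem y hy =>
    rw [Set.mem_singleton_iff.mp hy, E.zeta_pow_congr (ZMod.natCast_zmod_val (n : ZMod (q * n))).symm]
    exact E.zetaS_mem _
  | algebraMap b =>
    rw [← algebraMap_laurent_comp]
    exact (E.field k).algebraMap_mem b
  | add y z _ _ hy hz => rw [map_add]; exact add_mem hy hz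
  | inv y _ hy => rw [map_inv₀]; exact inv_mem hy
  | mul y z _ _ hy hz => rw [map_mul]; exact mul_mem hy hz

variable {P : ZMod (q * n) × ZMod (q * n)} (hP : GoodPt P) (hcop : q.Coprime n) (hq : q.Prime)
  {M : ℕ} (hM : M ∣ n) (hN : N ∣ q * M * q)

include hP hcop hq hM hN

theorem qExpand_mem_field {x : FB N} (hx : x ∈ qFixed N E k) :
    qExpand QBar n (x : LSer) ∈ E.field k := by
  have h := mem_adjoin_of_fixed N (qConst E k) hx
  generalize (x : LSer) = z at h ⊢
  induction h using IntermediateField.adjoin_induction with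
  | mem y hy =>
    obtain ⟨d, rfl⟩ := hy
    exact E.qExpand_jd_mem k hP hcop hq hM (d.2.trans hN)
  | algebraMap c =>
    rw [algebraMap_laurent_comp, ModularCurve.qExpand_C]
    exact C_mem_field E k c.2
  | add y z _ _ hy hz => rw [map_add]; exact add_mem hy hz
  | inv y _ hy => rw [map_inv₀]; exact inv_mem hy
  | mul y z _ _ hy hz => rw [map_mul]; exact mul_mem hy hz

/-- `x ↦ x (τ/q)`. -/
def toOmega : qFixed N E k →+* E.field k :=
  RingHom.codRestrict ((qExpand QBar n).comp ((FB N).val.toRingHom.comp (qFixed N E k).subtype))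
    (E.field k).toSubfield fun x => qExpand_mem_field N E k hP hcop hq hM hN x.2

theorem coe_toOmega (x : qFixed N E k) :
    (toOmega N E k hP hcop hq hM hN x : LaurentSeries QBar) = qExpand QBar n ((x : FB N) : LSer) :=
  rfl

omit [NeZero N] [IsGalois k QBar] [CharZero k] [NeZero q] [NeZero n] hP hcop hq hM hN in
theorem fz_eq (a : ZMod (q * n)) :
    ((E.fz k a : E.field k) : LaurentSeries QBar) = HahnSeries.C (E.ζ ^ a.val) := rfl

set_option maxHeartbeats 1000000 in
/-- Diagonal matrices act through the coefficients. -/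
theorem coe_moves_diag_toOmega {g : GL (Fin 2) (ZMod q)}
    (hg01 : (g : Matrix (Fin 2) (Fin 2) (ZMod q)) 0 1 = 0)
    (hg10 : (g : Matrix (Fin 2) (Fin 2) (ZMod q)) 1 0 = 0) {e : E.field k ≃ₐ[k] E.field k}
    (he : E.Moves k e (liftMat hcop (g : Matrix (Fin 2) (Fin 2) (ZMod q))))
    {σ : QBar ≃ₐ[k] QBar}
    (hσ : σ (E.ζ ^ n) =
      (E.ζ ^ n) ^ ((g : Matrix (Fin 2) (Fin 2) (ZMod q)).det).val) (x : qFixed N E k) :
    ((e (toOmega N E k hP hcop hq hM hN x) : E.field k) : LaurentSeries QBar) =
      qExpand QBar n (coeffMap (σ : QBar →+* QBar) ((x : FB N) : LSer)) := by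
  -- the automorphism on the constants
  have hC : ∀ c ∈ qConst E k, ∀ hc : (HahnSeries.C c : LaurentSeries QBar) ∈ E.field k,
      ((e ⟨_, hc⟩ : E.field k) : LaurentSeries QBar) = HahnSeries.C (σ c) := by
    intro c hc
    induction hc using IntermediateField.adjoin_induction with
    | mem y hy =>
      rw [Set.mem_singleton_iff.mp hy]
      intro hc
      have e1 : (⟨_, hc⟩ : E.field k) = E.fz k (n : ZMod (q * n)) :=
        Subtype.ext (congrArg (HahnSeries.C : QBar →+* LaurentSeries QBar)
          (E.zeta_pow_congr (ZMod.natCast_zmod_val _).symm))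
      obtain ⟨hu, hz, -⟩ := he
      rw [e1, hz, fz_eq, hσ, ← pow_mul]
      refine congrArg _ (E.zeta_pow_congr ?_)
      rw [ZMod.natCast_zmod_val]
      apply (crt hcop).injective
      rw [map_mul, crt_det_liftMat, map_natCast, map_natCast]
      refine Prod.ext ?_ ?_
      · simp [mul_comm]
      · simp
    | algebraMap b =>
      intro hc
      rw [show (⟨_, hc⟩ : E.field k) = algebraMap k (E.field k) b from
        Subtype.ext (algebraMap_laurent_comp b).symm, AlgEquiv.commutes, σ.commutes,
        ← algebraMap_laurent_comp]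
      rfl
    | add y z hy' hz' hy hz =>
      intro hc
      have h1 := C_mem_field E k hy'
      have h2 := C_mem_field E k hz'
      rw [show (⟨_, hc⟩ : E.field k) = ⟨_, h1⟩ + ⟨_, h2⟩ from Subtype.ext (map_add _ _ _),
        map_add, IntermediateField.coe_add, hy h1, hz h2, map_add, map_add]
    | inv y hy' hy =>
      intro hc
      have h1 := C_mem_field E k hy'
      rw [show (⟨_, hc⟩ : E.field k) = (⟨_, h1⟩ : E.field k)⁻¹ from Subtype.ext (map_inv₀ _ _),
        map_inv₀, IntermediateField.coe_inv, hy h1, map_inv₀, map_inv₀]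
    | mul y z hy' hz' hy hz =>
      intro hc
      have h1 := C_mem_field E k hy'
      have h2 := C_mem_field E k hz'
      rw [show (⟨_, hc⟩ : E.field k) = ⟨_, h1⟩ * ⟨_, h2⟩ from Subtype.ext (map_mul _ _ _),
        map_mul, IntermediateField.coe_mul, hy h1, hz h2, map_mul, map_mul]
  suffices key : ∃ y : E.field k,
      (y : LaurentSeries QBar) = qExpand QBar n ((x : FB N) : LSer) ∧
        ((e y : E.field k) : LaurentSeries QBar) =
          qExpand QBar n (coeffMap (σ : QBar →+* QBar) ((x : FB N) : LSer)) by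
    obtain ⟨y, hy, hy'⟩ := key
    rw [show toOmega N E k hP hcop hq hM hN x = y from Subtype.ext hy.symm, hy']
  have hz := mem_adjoin_of_fixed N (qConst E k) x.2
  generalize ((x : FB N) : LSer) = z at hz ⊢
  induction hz using IntermediateField.adjoin_induction with
  | mem y hy =>
    obtain ⟨d, rfl⟩ := hy
    refine ⟨⟨_, E.qExpand_jd_mem k hP hcop hq hM (d.2.trans hN)⟩, rfl, ?_⟩
    rw [E.fixed_diag hP hcop hq hM (d.2.trans hN) hg01 hg10 he (y := ⟨_,
      E.qExpand_jd_mem k hP hcop hq hM (d.2.trans hN)⟩) rfl, coeffMap_gen]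
    rfl
  | algebraMap c =>
    refine ⟨⟨_, C_mem_field E k c.2⟩, ?_, ?_⟩
    · rw [algebraMap_laurent_comp, ModularCurve.qExpand_C]
      rfl
    · rw [hC _ c.2, algebraMap_laurent_comp, HahnSeries.C_apply, HahnSeries.C_apply,
        ModularCurve.coeffMap_single, ← HahnSeries.C_apply, ← HahnSeries.C_apply,
        ModularCurve.qExpand_C]
      rfl
  | add y z _ _ hy hz =>
    obtain ⟨a, ha, ha'⟩ := hy
    obtain ⟨b, hb, hb'⟩ := hz
    refine ⟨a + b, by rw [IntermediateField.coe_add, ha, hb, map_add], ?_⟩
    rw [map_add, IntermediateField.coe_add, ha', hb', map_add, map_add]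
  | inv y _ hy =>
    obtain ⟨a, ha, ha'⟩ := hy
    refine ⟨a⁻¹, by rw [IntermediateField.coe_inv, ha, map_inv₀], ?_⟩
    rw [map_inv₀, IntermediateField.coe_inv, ha', map_inv₀, map_inv₀]
  | mul y z _ _ hy hz =>
    obtain ⟨a, ha, ha'⟩ := hy
    obtain ⟨b, hb, hb'⟩ := hz
    refine ⟨a * b, by rw [IntermediateField.coe_mul, ha, hb, map_mul], ?_⟩
    rw [map_mul, IntermediateField.coe_mul, ha', hb', map_mul, map_mul]

/-- Divisibility of the divisor gives divisibility at all places over `k`. -/
theorem places_toOmega {m : ℕ} [NeZero m] (f : JacTorsion.divGrp QBar (FB N) m)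
    (hf : ((f : (FB N)ˣ) : FB N) ∈ qFixed N E k) {u : (E.field k)ˣ}
    (hu : (u : E.field k) = toOmega N E k hP hcop hq hM hN ⟨_, hf⟩) :
    Fermat.Agent.Carayol.Places k m u := by
  intro v hv
  rw [hu]
  refine dvd_log_valuation N (qConst E k) f hf (v.comap (toOmega N E k hP hcop hq hM hN))
    fun c h hc => ?_
  have hCmem : (HahnSeries.C (c : QBar) : LaurentSeries QBar) ∈ E.field k := C_mem_field E k c.2
  show v (toOmega N E k hP hcop hq hM hN ⟨_, h⟩) = 1
  rw [show toOmega N E k hP hcop hq hM hN ⟨_, h⟩ = ⟨_, hCmem⟩ from Subtype.ext (by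
    rw [coe_toOmega]
    show qExpand QBar n (algebraMap QBar LSer (c : QBar)) = _
    rw [algebraMap_laurent_comp, ModularCurve.qExpand_C]
    rfl)]
  -- units of `v` are closed under algebraic elements
  have hle : ∀ a : QBar, ∀ ha : (HahnSeries.C a : LaurentSeries QBar) ∈ E.field k,
      v ⟨_, ha⟩ ≤ 1 := by
    intro a ha
    have hint : IsIntegral k a := Algebra.IsIntegral.isIntegral a
    have hkv : ∀ b : k, algebraMap k (E.field k) b ∈ v.valuationSubring := fun b => by
      show v _ ≤ 1
      rcases eq_or_ne b 0 with rfl | hb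
      · rw [map_zero, map_zero]; exact zero_le
      · exact (hv b hb).le
    let φ : k →+* v.valuationSubring := (algebraMap k (E.field k)).codRestrict _ hkv
    have hInt : IsIntegral v.valuationSubring (⟨_, ha⟩ : E.field k) := by
      obtain ⟨p, hp, hpa⟩ := hint
      refine ⟨p.map φ, hp.map φ, Subtype.ext ?_⟩
      rw [Polynomial.eval₂_map]
      show ((Polynomial.eval₂ ((algebraMap v.valuationSubring (E.field k)).comp φ) ⟨_, ha⟩ p :
        E.field k) : LaurentSeries QBar) = 0
      rw [show (algebraMap v.valuationSubring (E.field k)).comp φ = algebraMap k (E.field k)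
        from rfl, ← Polynomial.aeval_def,
        show ((Polynomial.aeval (⟨_, ha⟩ : E.field k) p : E.field k) : LaurentSeries QBar) =
          Polynomial.aeval (HahnSeries.C a : LaurentSeries QBar) p from
          (Polynomial.aeval_algHom_apply (E.field k).val _ _).symm,
        Polynomial.aeval_def, show algebraMap k (LaurentSeries QBar) =
          (HahnSeries.C : QBar →+* LaurentSeries QBar).comp (algebraMap k QBar) from
          RingHom.ext fun b => algebraMap_laurent_comp b, ← Polynomial.hom_eval₂, hpa, map_zero]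
    obtain ⟨y, hy⟩ := IsIntegrallyClosed.algebraMap_eq_of_integral hInt
    exact hy ▸ y.2
  refine le_antisymm (hle _ _) ?_
  have hinv : (HahnSeries.C ((c : QBar)⁻¹) : LaurentSeries QBar) ∈ E.field k := by
    rw [map_inv₀]; exact inv_mem hCmem
  have h1 := hle _ hinv
  rw [show (⟨_, hinv⟩ : E.field k) = (⟨_, hCmem⟩ : E.field k)⁻¹ from Subtype.ext (map_inv₀ _ _),
    map_inv₀, inv_le_one₀ (zero_lt_iff.mpr ((Valuation.ne_zero_iff v).mpr fun h0 => hc ?_))] at h1
  · exact h1
  · have h2 : (HahnSeries.C (c : QBar) : LaurentSeries QBar) = 0 := congrArg Subtype.val h0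
    exact Subtype.ext ((map_eq_zero _).mp h2)

end Fermat.Agent.RT.InertiaTW

end
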