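import Mathlib.LinearAlgebra.Matrix.Charpoly.Coeff
import Mathlib.LinearAlgebra.Matrix.Trace
import Mathlib.Algebra.Algebra.Prod
import Mathlib.Tactic

/-!
# A family satisfying the characteristic polynomials of a spanning two dimensional representation

If every `r g` is killed by the characteristic polynomial of `ρ g`, where the `ρ g` span the
matrices, then `r` factors through an algebra homomorphism of the matrices.
-/

set_option autoImplicit false

namespace Fermat.Agent.RT.InertiaTW

variable {K : Type*} [Field K] [CharZero K] {G : Type*} [Group G] {A : Type*} [Ring A] [Algebra K A]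
  {ρ : G →* Matrix (Fin 2) (Fin 2) K} {r : G →* A}

omit [CharZero K] in
/-- The polarised quadratic relation. -/
theorem polarised_of_quadratic
    (hq : ∀ g, r g * r g - (ρ g).trace • r g + (ρ g).det • (1 : A) = 0) (g h : G) :
    r g * r h + r h * r g - (ρ g).trace • r h - (ρ h).trace • r g
      + ((ρ g).trace * (ρ h).trace - (ρ g * ρ h).trace) • (1 : A) = 0 := by
  have hi : ∀ x, (ρ x).trace • (1 : A) - r x = (ρ x).det • r x⁻¹ := fun x => by
    have h1 := congrArg (fun z => r x⁻¹ * z) (hq x)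
    simp only [mul_add, mul_sub, mul_smul_comm, mul_zero, mul_one, ← mul_assoc, ← map_mul,
      inv_mul_cancel, map_one, one_mul] at h1
    rw [sub_add_eq_add_sub, sub_eq_zero] at h1
    rw [← h1]
    abel
  have e : ((ρ h).trace • (1 : A) - r h) * ((ρ g).trace • (1 : A) - r g) =
      (ρ (g * h)).trace • (1 : A) - r (g * h) := by
    rw [hi, hi, hi, smul_mul_smul_comm, ← map_mul r, ← mul_inv_rev, map_mul ρ, Matrix.det_mul,
      mul_comm (ρ h).det]
  rw [map_mul, map_mul] at e
  simp only [sub_mul, mul_sub, smul_mul_assoc, mul_smul_comm, one_mul, mul_one, smul_smul,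
    smul_sub] at e
  rw [← sub_eq_zero] at e
  convert e using 1
  rw [sub_smul, mul_comm (ρ g).trace]
  abel

variable (ρ r)

/-- The span of the pairs `(ρ g, r g)`. -/
def graphSpan : Submodule K (Matrix (Fin 2) (Fin 2) K × A) :=
  Submodule.span K (Set.range fun g => (ρ g, r g))

variable {ρ r}

omit [CharZero K] in
theorem one_mem_graphSpan : (1 : Matrix (Fin 2) (Fin 2) K × A) ∈ graphSpan ρ r :=
  Submodule.subset_span ⟨1, by simp⟩

omit [CharZero K] in
theorem mul_mem_graphSpan {x y : Matrix (Fin 2) (Fin 2) K × A} (hx : x ∈ graphSpan ρ r)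
    (hy : y ∈ graphSpan ρ r) : x * y ∈ graphSpan ρ r := by
  induction hx, hy using Submodule.span_induction₂ with
  | mem_mem x y hx hy =>
    obtain ⟨g, rfl⟩ := hx
    obtain ⟨h, rfl⟩ := hy
    exact Submodule.subset_span ⟨g * h, by simp⟩
  | zero_left y hy => rw [zero_mul]; exact zero_mem _
  | zero_right x hx => rw [mul_zero]; exact zero_mem _
  | add_left x y z _ _ _ h1 h2 => rw [add_mul]; exact add_mem h1 h2
  | add_right x y z _ _ _ h1 h2 => rw [mul_add]; exact add_mem h1 h2
  | smul_left c x y _ _ h => rw [smul_mul_assoc]; exact Submodule.smul_mem _ c h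
  | smul_right c x y _ _ h => rw [mul_smul_comm]; exact Submodule.smul_mem _ c h

omit [CharZero K] in
theorem polarised_span (hq : ∀ g, r g * r g - (ρ g).trace • r g + (ρ g).det • (1 : A) = 0)
    {x y : Matrix (Fin 2) (Fin 2) K × A} (hx : x ∈ graphSpan ρ r) (hy : y ∈ graphSpan ρ r) :
    x.2 * y.2 + y.2 * x.2 - x.1.trace • y.2 - y.1.trace • x.2
      + (x.1.trace * y.1.trace - (x.1 * y.1).trace) • (1 : A) = 0 := by
  induction hx, hy using Submodule.span_induction₂ with
  | mem_mem x y hx hy =>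
    obtain ⟨g, rfl⟩ := hx
    obtain ⟨h, rfl⟩ := hy
    exact polarised_of_quadratic hq g h
  | zero_left y hy => simp
  | zero_right x hx => simp
  | add_left x y z _ _ _ h1 h2 =>
    rw [← add_zero (0 : A)]
    nth_rw 1 [← h1]
    rw [← h2]
    simp only [Prod.fst_add, Prod.snd_add, Matrix.trace_add, add_mul, mul_add]
    module
  | add_right x y z _ _ _ h1 h2 =>
    rw [← add_zero (0 : A)]
    nth_rw 1 [← h1]
    rw [← h2]
    simp only [Prod.fst_add, Prod.snd_add, Matrix.trace_add, add_mul, mul_add]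
    module
  | smul_left c x y _ _ h =>
    rw [← smul_zero c, ← h]
    simp only [Prod.smul_fst, Prod.smul_snd, Matrix.trace_smul, smul_mul_assoc, mul_smul_comm,
      smul_eq_mul]
    module
  | smul_right c x y _ _ h =>
    rw [← smul_zero c, ← h]
    simp only [Prod.smul_fst, Prod.smul_snd, Matrix.trace_smul, smul_mul_assoc, mul_smul_comm,
      smul_eq_mul]
    module

/-- A relation among the `ρ g` is a relation among the `r g`. -/
theorem snd_eq_zero_of_fst (hq : ∀ g, r g * r g - (ρ g).trace • r g + (ρ g).det • (1 : A) = 0)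
    (hspan : Submodule.span K (Set.range ρ) = ⊤) {w : A}
    (hw : ((0 : Matrix (Fin 2) (Fin 2) K), w) ∈ graphSpan ρ r) : w = 0 := by
  have hlift : ∀ X : Matrix (Fin 2) (Fin 2) K, ∃ a : A, (X, a) ∈ graphSpan ρ r := fun X => by
    have hX : X ∈ (graphSpan ρ r).map (LinearMap.fst K _ A) := by
      rw [graphSpan, Submodule.map_span, ← Set.range_comp]
      exact hspan ▸ Submodule.mem_top
    obtain ⟨⟨_, a⟩, ha, rfl⟩ := hX
    exact ⟨a, ha⟩
  obtain ⟨u, hu⟩ := hlift !![0, 1; 0, 0]
  obtain ⟨v, hv⟩ := hlift !![0, 0; 1, 0]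
  have hanti : ∀ {z : A}, ((0 : Matrix (Fin 2) (Fin 2) K), z) ∈ graphSpan ρ r →
      z * u + u * z = 0 ∧ z * v + v * z = 0 := fun {z} hz =>
    ⟨by simpa [Matrix.trace_fin_two] using polarised_span hq hz hu,
      by simpa [Matrix.trace_fin_two] using polarised_span hq hz hv⟩
  have huu : u * u = 0 := by
    have h : u * u + u * u = 0 := by simpa [Matrix.trace_fin_two] using polarised_span hq hu hu
    have h2 : (2 : K) • (u * u) = 0 := by rw [two_smul]; exact h
    exact (smul_eq_zero.mp h2).resolve_left two_ne_zero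
  have huv : u * v + v * u = 1 := by
    have h : u * v + v * u + -1 = 0 := by simpa [Matrix.trace_fin_two] using polarised_span hq hu hv
    exact eq_of_sub_eq_zero (by rwa [sub_eq_add_neg])
  have hwu : ((0 : Matrix (Fin 2) (Fin 2) K), w * u) ∈ graphSpan ρ r := by
    simpa using mul_mem_graphSpan hw hu
  obtain ⟨-, h1⟩ := hanti hwu
  obtain ⟨-, h2⟩ := hanti hw
  have hvw : v * (w * u) = -(w * (v * u)) := by
    rw [← mul_assoc, eq_neg_of_add_eq_zero_right h2, neg_mul, mul_assoc]
  rw [hvw, ← sub_eq_add_neg, sub_eq_zero, mul_assoc] at h1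
  have hw2 : w = w * (u * v) + w * (u * v) := by
    conv_lhs => rw [← mul_one w, ← huv, mul_add, ← h1]
  have huvu : u * v * u = u := by
    rw [mul_assoc, eq_sub_of_add_eq' huv, mul_sub, mul_one, ← mul_assoc, huu, zero_mul, sub_zero]
  have hwu0 : w * u = 0 := by
    have h3 : w * u = w * u + w * u := by
      conv_lhs => rw [hw2, add_mul, mul_assoc w, huvu]
    exact left_eq_add.mp h3
  rw [hw2, ← mul_assoc, hwu0, zero_mul, add_zero]

/-- `r` extends to an algebra homomorphism of the matrices. -/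
theorem exists_algHom_of_quadratic
    (hq : ∀ g, r g * r g - (ρ g).trace • r g + (ρ g).det • (1 : A) = 0)
    (hspan : Submodule.span K (Set.range ρ) = ⊤) :
    ∃ Φ : Matrix (Fin 2) (Fin 2) K →ₐ[K] A, ∀ g, Φ (ρ g) = r g := by
  let S : Subalgebra K (Matrix (Fin 2) (Fin 2) K × A) :=
    (graphSpan ρ r).toSubalgebra one_mem_graphSpan fun _ _ => mul_mem_graphSpan
  let π : S →ₐ[K] Matrix (Fin 2) (Fin 2) K := (AlgHom.fst K _ A).comp S.val
  have hπ : Function.Bijective π := by
    refine ⟨(injective_iff_map_eq_zero π).mpr fun x hx => ?_, fun X => ?_⟩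
    · obtain ⟨⟨X, a⟩, hXa⟩ := x
      obtain rfl : X = 0 := hx
      obtain rfl : a = 0 := snd_eq_zero_of_fst hq hspan hXa
      rfl
    · have hX : X ∈ (graphSpan ρ r).map (LinearMap.fst K _ A) := by
        rw [graphSpan, Submodule.map_span, ← Set.range_comp]
        exact hspan ▸ Submodule.mem_top
      obtain ⟨x, hx, rfl⟩ := hX
      exact ⟨⟨x, hx⟩, rfl⟩
  refine ⟨((AlgHom.snd K _ A).comp S.val).comp (AlgEquiv.ofBijective π hπ).symm.toAlgHom,
    fun g => ?_⟩
  have hg : (ρ g, r g) ∈ S := Submodule.subset_span ⟨g, rfl⟩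
  have e : (AlgEquiv.ofBijective π hπ).symm (ρ g) = ⟨_, hg⟩ :=
    (AlgEquiv.ofBijective π hπ).injective (by rw [AlgEquiv.apply_symm_apply]; rfl)
  show ((((AlgEquiv.ofBijective π hπ).symm (ρ g)) : S) : Matrix (Fin 2) (Fin 2) K × A).2 = r g
  rw [e]

end Fermat.Agent.RT.InertiaTW
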