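import Fermat.Agent.Carayol.CombId
import Fermat.Agent.RT.InertiaTW.Identity

/-!
# The torus identity as a combination for the integral study at `q`

The combination of sums over the tori is a multiple of the value at one for functions invariant
on the right under either unipotent group; here it is used for the upper one.
-/

set_option autoImplicit false

noncomputable section

open Matrix Fermat.Agent.Carayol

namespace Fermat.Agent.RT.InertiaTW

variable {q : ℕ} [Fact q.Prime] {M N : Type*} [AddCommGroup M] [AddCommGroup N]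

theorem uPlus_add (a b : ZMod q) : (uPlus (a + b) : GL (Fin 2) (ZMod q)) = uPlus a * uPlus b := by
  refine Units.ext ?_
  simp [uPlus, add_comm]

variable (q) in
/-- The upper unipotent subgroup. -/
def upperSubgroup : Subgroup (GL (Fin 2) (ZMod q)) :=
  (MonoidHom.mk' (fun a : Multiplicative (ZMod q) => uPlus a.toAdd)
    fun a b => uPlus_add a.toAdd b.toAdd).range

theorem uPlus_mem_upperSubgroup (a : ZMod q) : uPlus a ∈ upperSubgroup q :=
  ⟨Multiplicative.ofAdd a, rfl⟩

theorem weylElt_mul_uMinus (s : ZMod q) :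
    weylElt * uMinus s * (weylElt : GL (Fin 2) (ZMod q))⁻¹ = uPlus (-s) := by
  rw [mul_inv_eq_iff_eq_mul]
  refine Units.ext ?_
  simp [weylElt, uMinus, uPlus]

theorem weylElt_mul_diagElt (a d : (ZMod q)ˣ) :
    weylElt * diagElt a d * (weylElt : GL (Fin 2) (ZMod q))⁻¹ = diagElt d a := by
  rw [mul_inv_eq_iff_eq_mul]
  refine Units.ext ?_
  simp only [Units.val_mul, weylElt, diagElt]
  ext i j
  fin_cases i <;> fin_cases j <;> simp

/-- The identity, with invariance under the upper unipotent matrices. -/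
theorem torOp_eq_upper (Φ : GL (Fin 2) (ZMod q) → M) (hU : ∀ g s, Φ (g * uPlus s) = Φ g)
    {v : Fin 2 → ZMod q} (hv : v ≠ 0)
    (hS : ∀ s g : GL (Fin 2) (ZMod q),
      (∀ w : Fin 2 → ZMod q, ∃ k : ZMod q,
        (s : Matrix (Fin 2) (Fin 2) (ZMod q)).mulVec w - w = k • v) → Φ (s * g) = Φ g) :
    torOp Φ = (torExp q : ℤ) • Φ 1 := by
  set w : GL (Fin 2) (ZMod q) := weylElt with hw
  let Ψ : GL (Fin 2) (ZMod q) → M := fun g => Φ (w * g * w⁻¹)
  have e : torOp Ψ = torOp Φ := by
    simp only [torOp, Ψ, hw, weylElt_mul_diagElt]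
    rw [add_comm (∑ a : (ZMod q)ˣ, Φ (diagElt 1 a)), Finset.sum_comm]
  have h := torOp_eq Ψ (fun g s => by
      show Φ (w * (g * uMinus s) * w⁻¹) = Φ (w * g * w⁻¹)
      rw [show w * (g * uMinus s) * w⁻¹ = (w * g * w⁻¹) * (w * uMinus s * w⁻¹) by group,
        hw, weylElt_mul_uMinus, hU])
    (v := (((w⁻¹ : GL (Fin 2) (ZMod q)) : Matrix (Fin 2) (Fin 2) (ZMod q))).mulVec v)
    (fun h0 => hv (by
      have := congrArg (fun x => (w : Matrix (Fin 2) (Fin 2) (ZMod q)).mulVec x) h0
      simp only [Matrix.mulVec_mulVec, Units.mul_inv, Matrix.one_mulVec, Matrix.mulVec_zero] at this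
      exact this))
    (fun s g hs => by
      show Φ (w * (s * g) * w⁻¹) = Φ (w * g * w⁻¹)
      rw [show w * (s * g) * w⁻¹ = (w * s * w⁻¹) * (w * g * w⁻¹) by group]
      refine hS _ _ fun x => ?_
      obtain ⟨k, hk⟩ := hs (((w⁻¹ : GL (Fin 2) (ZMod q)) : Matrix (Fin 2) (Fin 2) (ZMod q)).mulVec x)
      refine ⟨k, ?_⟩
      have := congrArg (fun y => (w : Matrix (Fin 2) (Fin 2) (ZMod q)).mulVec y) hk
      simp only [Matrix.mulVec_sub, Matrix.mulVec_smul, Matrix.mulVec_mulVec, Units.mul_inv,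
        Matrix.one_mulVec] at this
      rw [← this, Units.val_mul, Units.val_mul, mul_assoc])
  rw [← e, h]
  show _ • Φ (w * 1 * w⁻¹) = _
  rw [mul_one, mul_inv_cancel]

theorem map_torOp (χ : M →+ N) (Φ : GL (Fin 2) (ZMod q) → M) :
    χ (torOp Φ) = torOp fun g => χ (Φ g) := by
  simp [torOp, map_sum, map_zsmul]

theorem torOp_eq_sum (Φ : GL (Fin 2) (ZMod q) → M) :
    torOp Φ = ∑ g, torOp (fun h => if h = g then (1 : ℤ) else 0) • Φ g := by
  classical
  let χ : (GL (Fin 2) (ZMod q) → ℤ) →+ M :=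
    AddMonoidHom.mk' (fun e => ∑ g, e g • Φ g)
      (fun a b => by simp [add_smul, Finset.sum_add_distrib])
  have hχ : ∀ h, χ (Pi.single h 1) = Φ h := fun h => by
    show ∑ g, (Pi.single h (1 : ℤ) : GL (Fin 2) (ZMod q) → ℤ) g • Φ g = Φ h
    rw [Finset.sum_eq_single h]
    · simp
    · intro g _ hg; simp [Pi.single_eq_of_ne hg]
    · simp
  rw [show torOp Φ = χ (torOp fun h => Pi.single h (1 : ℤ)) by rw [map_torOp]; simp only [hχ]]
  show ∑ g, _ • Φ g = _
  refine Finset.sum_congr rfl fun g _ => ?_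
  congr 1
  have h0 := map_torOp (Pi.evalAddMonoidHom (fun _ => ℤ) g)
    (fun h => (Pi.single h (1 : ℤ) : GL (Fin 2) (ZMod q) → ℤ))
  simp only [Pi.evalAddMonoidHom_apply] at h0
  rw [h0]
  simp only [Pi.single_apply, @eq_comm _ g]

variable (q) in
/-- The combination of the torus identity. -/
def upperComb : CombId q where
  fix := upperSubgroup q
  coeffs g := torOp fun h => if h = g then (1 : ℤ) else 0
  exp := torExp q
  exp_pos := pow_pos (Nat.sub_pos_of_lt (Fact.out : q.Prime).one_lt) 2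
  hid M _ Φ hT v hv hS := by
    rw [← torOp_eq_sum]
    obtain ⟨i, hi⟩ := hv
    exact torOp_eq_upper Φ (fun g s => hT g _ (uPlus_mem_upperSubgroup s))
      (fun h => hi.ne_zero (congrFun h i)) hS

end Fermat.Agent.RT.InertiaTW
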