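import Fermat.Agent.RT.InertiaTW.Classes
import Fermat.Agent.RT.InertiaTW.Kummer
import Fermat.Agent.RT.InertiaTW.KummerChar
import Fermat.Agent.RT.InertiaTW.TorComb
import Fermat.Agent.RT.InertiaTW.GroupSum
import Fermat.Agent.Carayol.Rigid
import Fermat.Agent.Carayol.Omega.Level

/-!
# The integral study applied to eigenclasses of inertia

If inertia over `q` acts on the torsion classes `P r`, `r ∈ B`, through a character `θ` orthogonal
to `χ` and `χ⁻¹`, then the twisted trace of their characters on `Γ(qn)` is killed by the exponent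
of the integral study.
-/

set_option autoImplicit false
set_option linter.unusedSectionVars false
set_option synthInstance.maxHeartbeats 400000

noncomputable section

open AlgebraicCurve CongruenceSubgroup Matrix.SpecialLinearGroup
open ModularCurve (coeffMap qExpand JZero)
open Fermat.Agent.Semistable Fermat.Agent.Arith
open Fermat.Agent.Carayol Fermat.Agent.Carayol.Omega
open scoped MatrixGroups

namespace Fermat.Agent.RT.InertiaTW

variable {N : ℕ} [NeZero N] {q n : ℕ} [Fact q.Prime] [NeZero q] [NeZero n] [NeZero (q * n)]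
  [hcop : Fact (q.Coprime n)] (E : Setup (q * n) QBar)
  (k : Type) [Field k] [Algebra k QBar] [CharZero k] [IsGalois k QBar]
  {m : ℕ} [NeZero m]

theorem redMat_liftSL {g : GL (Fin 2) (ZMod q)} {s : SL(2, ZMod q)}
    (h : ∀ i j, ((s⁻¹ : SL(2, ZMod q)) : Matrix (Fin 2) (Fin 2) (ZMod q)) i j =
      (g : Matrix (Fin 2) (Fin 2) (ZMod q)) j i) :
    redMat (q * n) (liftSL (n := n) s⁻¹) =
      liftMat hcop.out (g : Matrix (Fin 2) (Fin 2) (ZMod q)) := by
  ext i j
  apply (crt hcop.out).injective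
  rw [crt_liftMat]
  show crt hcop.out ((liftSL (n := n) s⁻¹ i j : ℤ) : ZMod (q * n)) = _
  rw [map_intCast]
  refine Prod.ext ?_ ?_
  · rw [Prod.fst_intCast]
    have e := congrFun (congrFun (congrArg Subtype.val (map_liftSL (n := n) s⁻¹)) i) j
    exact (by simpa using e : _ = ((s⁻¹ : SL(2, ZMod q)) : Matrix _ _ (ZMod q)) i j).trans (h i j)
  · rw [Prod.snd_intCast]
    obtain ⟨h1, h2, h3, h4⟩ := Gamma_mem.mp (liftSL_mem (n := n) s⁻¹)
    fin_cases i <;> fin_cases j
    · exact h1.trans (by simp)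
    · exact h2.trans (by simp)
    · exact h3.trans (by simp)
    · exact h4.trans (by simp)

/-- An automorphism moving by `g` twists the monodromy by the inverse transpose. -/
theorem kumChar_moves {y z : E.field k} {Φ : Additive (CongruenceSubgroup.Gamma (q * n)) →+ ZMod m}
    (hy : KumChar E k m y Φ) {g : GL (Fin 2) (ZMod q)} {e : E.field k ≃ₐ[k] E.field k}
    (he : E.Moves k e (liftMat hcop.out (g : Matrix (Fin 2) (Fin 2) (ZMod q))))
    {s : SL(2, ZMod q)}
    (hs : ∀ i j, ((s⁻¹ : SL(2, ZMod q)) : Matrix (Fin 2) (Fin 2) (ZMod q)) i j =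
      (g : Matrix (Fin 2) (Fin 2) (ZMod q)) j i)
    (hz : z = e y) : KumChar E k m z (s • Φ) := by
  obtain ⟨e', he', hval⟩ := E.exists_moves_subst k (liftSL (n := n) s⁻¹)
  rw [redMat_liftSL hs] at he'
  rw [he.ext he'] at hz
  exact hy.subst _ (by rw [hz]; exact hval y)

theorem sMinus_inv (a : ZMod q) : (sMinus a)⁻¹ = sMinus (-a) :=
  inv_eq_of_mul_eq_one_right (by rw [sMinus_mul, add_neg_cancel, sMinus_zero])

theorem sPlus_inv (a : ZMod q) : (sPlus a)⁻¹ = sPlus (-a) :=
  inv_eq_of_mul_eq_one_right (by rw [sPlus_mul, add_neg_cancel, sPlus_zero])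

theorem diagElt_mul_uPlus (a d : (ZMod q)ˣ) (s : ZMod q) :
    diagElt a d * uPlus s = uPlus ((a : ZMod q) * ((d⁻¹ : (ZMod q)ˣ) : ZMod q) * s) * diagElt a d := by
  refine Units.ext ?_
  rw [Units.val_mul, Units.val_mul]
  show !![(a : ZMod q), 0; 0, (d : ZMod q)] * !![1, s; 0, 1] =
    !![1, (a : ZMod q) * ((d⁻¹ : (ZMod q)ˣ) : ZMod q) * s; 0, 1] *
      !![(a : ZMod q), 0; 0, (d : ZMod q)]
  rw [Matrix.mul_fin_two, Matrix.mul_fin_two]
  have e : (a : ZMod q) * s = (a : ZMod q) * ((d⁻¹ : (ZMod q)ˣ) : ZMod q) * s * (d : ZMod q) := by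
    linear_combination -((a : ZMod q) * s) * d.inv_mul
  ext i j
  fin_cases i <;> fin_cases j <;>
    simp only [Fin.zero_eta, Fin.mk_one, Fin.isValue, Matrix.cons_val', Matrix.cons_val_zero,
      Matrix.cons_val_one, Matrix.cons_val_fin_one, Matrix.of_apply] <;>
    first
      | linear_combination e
      | ring1

theorem diagElt_mul_uMinus (a d : (ZMod q)ˣ) (s : ZMod q) :
    diagElt a d * uMinus s =
      uMinus ((d : ZMod q) * ((a⁻¹ : (ZMod q)ˣ) : ZMod q) * s) * diagElt a d := by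
  refine Units.ext ?_
  rw [Units.val_mul, Units.val_mul]
  show !![(a : ZMod q), 0; 0, (d : ZMod q)] * !![1, 0; s, 1] =
    !![1, 0; (d : ZMod q) * ((a⁻¹ : (ZMod q)ˣ) : ZMod q) * s, 1] *
      !![(a : ZMod q), 0; 0, (d : ZMod q)]
  rw [Matrix.mul_fin_two, Matrix.mul_fin_two]
  have e : (d : ZMod q) * s = (d : ZMod q) * ((a⁻¹ : (ZMod q)ˣ) : ZMod q) * s * (a : ZMod q) := by
    linear_combination -((d : ZMod q) * s) * a.inv_mul
  ext i j
  fin_cases i <;> fin_cases j <;>
    simp only [Fin.zero_eta, Fin.mk_one, Fin.isValue, Matrix.cons_val', Matrix.cons_val_zero,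
      Matrix.cons_val_one, Matrix.cons_val_fin_one, Matrix.of_apply] <;>
    first
      | linear_combination e
      | ring1

variable {B : Type*} [CommRing B] {P : B →+ Pic0.torsion QBar (FB N) m} {θ χ : (ZMod q)ˣ →* B}
  {Pt : ZMod (q * n) × ZMod (q * n)} (hPt : GoodPt Pt) {M : ℕ} (hM : M ∣ n) (hN : N ∣ q * M * q)

/-- The character of `P r` on `Γ(qn)`. -/
def charAt (hres : ∀ γ : CongruenceSubgroup.Gamma (q * n), rescale q n γ ∈ Gamma0 N)
    (P : B →+ Pic0.torsion QBar (FB N) m) (r : B) :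
    Additive (CongruenceSubgroup.Gamma (q * n)) →+ ZMod m :=
  (JacTorsion.torsionEquiv N m (P r)).1.comp
    (MonoidHom.toAdditive ((rescale q n).codRestrict (Gamma0 N) hres))

/-- Inertia acts on the classes through `θ`. -/
def GalTheta (P : B →+ Pic0.torsion QBar (FB N) m) (θ : (ZMod q)ˣ →* B) : Prop :=
  ∀ (σ : QBar ≃ₐ[k] QBar) (u : (ZMod q)ˣ), σ (E.ζ ^ n) = (E.ζ ^ n) ^ (u : ZMod q).val →
    ∀ r : B, ratAut k σ • (P r : JZero N) = (P (θ u * r) : JZero N)

variable {E k}

theorem GalTheta.fixed (h : GalTheta E k P θ) (r : B) (σ : QBar ≃ₐ[k] QBar)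
    (hσ : σ (E.ζ ^ n) = E.ζ ^ n) : ratAut k σ • (P r : JZero N) = (P r : JZero N) := by
  have e := h σ 1 (by rw [hσ, Units.val_one, ZMod.val_one, pow_one]) r
  rwa [map_one, one_mul] at e

variable (h : GalTheta E k P θ)

/-- The chosen Kummer functions. -/
def kumFun (r : B) : JacTorsion.divGrp QBar (FB N) m :=
  (exists_qFixed_kummer E k (P r) (h.fixed r)).choose

theorem toTorsion_kumFun (r : B) :
    JacTorsion.toTorsion (Additive.ofMul (kumFun h r)) = P r :=
  (exists_qFixed_kummer E k (P r) (h.fixed r)).choose_spec.1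

theorem leadFB_kumFun (r : B) : leadFB ((kumFun h r : (FB N)ˣ) : FB N) = 1 :=
  (exists_qFixed_kummer E k (P r) (h.fixed r)).choose_spec.2.1

theorem kumFun_mem (r : B) : ((kumFun h r : (FB N)ˣ) : FB N) ∈ qFixed N E k :=
  (exists_qFixed_kummer E k (P r) (h.fixed r)).choose_spec.2.2

include hPt hM hN

/-- A nonzero fixed function in the field of level `q n`. -/
def omegaUnit (x : FB N) (hx : x ∈ qFixed N E k) (h0 : x ≠ 0) : (E.field k)ˣ :=
  Units.mk0 (toOmega N E k hPt hcop.out (Fact.out : q.Prime) hM hN ⟨x, hx⟩)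
    ((map_ne_zero _).mpr fun e => h0 (congrArg Subtype.val e))

/-- The Kummer functions in the field of level `q n`. -/
def kumOmega (r : B) : (E.field k)ˣ :=
  omegaUnit hPt hM hN _ (kumFun_mem h r) (Units.ne_zero _)

theorem places_kumOmega (r : B) : Places k m (kumOmega hPt hM hN h r) :=
  places_toOmega N E k hPt hcop.out (Fact.out : q.Prime) hM hN (kumFun h r) (kumFun_mem h r) rfl

/-- Normalised fixed functions of one class have the same image. -/
theorem clsOf_omegaUnit_eq {f f' : JacTorsion.divGrp QBar (FB N) m}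
    (he : JacTorsion.toTorsion (Additive.ofMul f) = JacTorsion.toTorsion (Additive.ofMul f'))
    (hl : leadFB ((f : (FB N)ˣ) : FB N) = 1) (hl' : leadFB ((f' : (FB N)ˣ) : FB N) = 1)
    (hf : ((f : (FB N)ˣ) : FB N) ∈ qFixed N E k) (hf' : ((f' : (FB N)ˣ) : FB N) ∈ qFixed N E k) :
    clsOf k m (omegaUnit hPt hM hN _ hf (Units.ne_zero _)) =
      clsOf k m (omegaUnit hPt hM hN _ hf' (Units.ne_zero _)) := by
  obtain ⟨g, hg0, hg, e⟩ := exists_root_of_toTorsion_eq E k he hl hl' hf hf'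
  rw [show omegaUnit hPt hM hN _ hf (Units.ne_zero _) =
    omegaUnit hPt hM hN _ hf' (Units.ne_zero _) * omegaUnit hPt hM hN g hg hg0 ^ m from
    Units.ext (by
      simp only [omegaUnit, Units.val_mul, Units.val_pow_eq_pow_val, Units.val_mk0, ← map_pow,
        ← map_mul]
      exact congrArg _ (Subtype.ext e)), clsOf_mul_pow]

theorem clsOf_kumOmega_add (r s : B) :
    clsOf k m (kumOmega hPt hM hN h (r + s)) =
      clsOf k m (kumOmega hPt hM hN h r) + clsOf k m (kumOmega hPt hM hN h s) := by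
  rw [← clsOf_mul]
  have hmem : (((kumFun h r * kumFun h s : JacTorsion.divGrp QBar (FB N) m) : (FB N)ˣ) : FB N) ∈
      qFixed N E k := by
    rw [Subgroup.coe_mul, Units.val_mul]
    exact mul_mem (kumFun_mem h r) (kumFun_mem h s)
  refine (clsOf_omegaUnit_eq hPt hM hN (f' := kumFun h r * kumFun h s) ?_ (leadFB_kumFun h _) ?_
    (kumFun_mem h _) hmem).trans (congrArg (clsOf k m) (Units.ext ?_))
  · rw [toTorsion_kumFun, ofMul_mul, map_add, map_add, toTorsion_kumFun, toTorsion_kumFun]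
  · rw [Subgroup.coe_mul, Units.val_mul, leadFB_mul, leadFB_kumFun, leadFB_kumFun, one_mul]
  · simp only [kumOmega, omegaUnit, Units.val_mul, Units.val_mk0, ← map_mul]
    exact congrArg _ (Subtype.ext rfl)

/-- The class of the Kummer function, additively in `r`. -/
def kumCls : B →+ Cls k (E.field k) m :=
  AddMonoidHom.mk' (fun r => clsOf k m (kumOmega hPt hM hN h r))
    (clsOf_kumOmega_add hPt hM hN h)

theorem kumCls_apply (r : B) : kumCls hPt hM hN h r = clsOf k m (kumOmega hPt hM hN h r) := rfl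

variable (act : GL (Fin 2) (ZMod q) →* (E.field k ≃ₐ[k] E.field k))
  (hact : ∀ g, E.Moves k (act g) (liftMat hcop.out (g : Matrix (Fin 2) (Fin 2) (ZMod q))))
  (hσ : ∀ d : (ZMod q)ˣ, ∃ σ : QBar ≃ₐ[k] QBar, σ (E.ζ ^ n) = (E.ζ ^ n) ^ (d : ZMod q).val)

include hact hσ in
/-- Diagonal matrices act on the Kummer classes through `θ` of the determinant. -/
theorem clsAct_diag_kumCls (a d : (ZMod q)ˣ) (r : B) :
    clsAct k m (act (diagElt a d)) (kumCls hPt hM hN h r) =
      kumCls hPt hM hN h (θ (a * d) * r) := by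
  obtain ⟨σ, hσa⟩ := hσ (a * d)
  obtain ⟨f', hf'v, hf't, hl', hf'⟩ := exists_galSemi_kummer E k σ hσa (kumFun h r)
    (leadFB_kumFun h r) (kumFun_mem h r)
  rw [kumCls_apply, clsAct_clsOf]
  have e : unitAct k (act (diagElt a d)) (kumOmega hPt hM hN h r) =
      omegaUnit hPt hM hN _ hf' (Units.ne_zero _) := by
    refine Units.ext (Subtype.ext ?_)
    simp only [coe_unitAct, kumOmega, omegaUnit, Units.val_mk0]
    rw [coe_moves_diag_toOmega N E k hPt hcop.out (Fact.out : q.Prime) hM hN (σ := σ)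
      (show (0 : ZMod q) = 0 from rfl) (show (0 : ZMod q) = 0 from rfl) (hact (diagElt a d))
      (by
        rw [show ((diagElt a d : GL (Fin 2) (ZMod q)) : Matrix (Fin 2) (Fin 2) (ZMod q)) =
          !![(a : ZMod q), 0; 0, (d : ZMod q)] from rfl, Matrix.det_fin_two_of, mul_zero, sub_zero]
        exact hσa), coe_toOmega]
    simp only [hf'v]
    rfl
  rw [e, kumCls_apply]
  refine clsOf_omegaUnit_eq hPt hM hN ?_ hl' (leadFB_kumFun h _) hf' (kumFun_mem h _)
  refine Subtype.ext ?_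
  rw [hf't, toTorsion_kumFun, toTorsion_kumFun]
  exact h σ (a * d) hσa r

/-- The twisted trace of the classes. -/
def twCls (χ : (ZMod q)ˣ →* B) : B →+ Cls k (E.field k) m :=
  AddMonoidHom.mk' (fun r => ∑ s : ZMod q, clsAct k m (act (uPlus s)) (∑ u : (ZMod q)ˣ,
      clsAct k m (act (uMinus (-(u : ZMod q)))) (kumCls hPt hM hN h (r * χ u)))) fun r r' => by
    rw [← Finset.sum_add_distrib]
    refine Finset.sum_congr rfl fun s _ => ?_
    rw [← map_add, ← Finset.sum_add_distrib]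
    refine congrArg _ (Finset.sum_congr rfl fun u _ => ?_)
    rw [← map_add, ← map_add, add_mul]

theorem twCls_apply (r : B) : twCls hPt hM hN h act χ r =
    ∑ s : ZMod q, clsAct k m (act (uPlus s)) (∑ u : (ZMod q)ˣ,
      clsAct k m (act (uMinus (-(u : ZMod q)))) (kumCls hPt hM hN h (r * χ u))) := rfl

include hact hσ in
theorem clsAct_diag_twCls (a d : (ZMod q)ˣ) (r : B) :
    clsAct k m (act (diagElt a d)) (twCls hPt hM hN h act χ r) =
      twCls hPt hM hN h act χ (θ (a * d) * χ (a * d⁻¹) * r) := by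
  rw [twCls_apply, twCls_apply, map_sum]
  refine Fintype.sum_equiv (Equiv.mulLeft₀ ((a : ZMod q) * ((d⁻¹ : (ZMod q)ˣ) : ZMod q))
    (mul_ne_zero a.ne_zero (Units.ne_zero _))) _ _ fun s => ?_
  rw [Equiv.mulLeft₀_apply, ← clsAct_mul, ← map_mul, diagElt_mul_uPlus, map_mul, clsAct_mul]
  refine congrArg _ ?_
  rw [map_sum]
  refine Fintype.sum_equiv (Equiv.mulLeft (d * a⁻¹)) _ _ fun u => ?_
  rw [Equiv.coe_mulLeft, ← clsAct_mul, ← map_mul, diagElt_mul_uMinus, map_mul, clsAct_mul,
    clsAct_diag_kumCls hPt hM hN h act hact hσ]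
  have hc : χ (a * d⁻¹) * χ (d * a⁻¹ * u) = χ u := by
    rw [← map_mul]
    congr 1
    rw [mul_comm d, mul_assoc a, ← mul_assoc d⁻¹, mul_comm a⁻¹, ← mul_assoc d⁻¹,
      inv_mul_cancel, one_mul, ← mul_assoc, mul_inv_cancel, one_mul]
  congr 2
  · rw [Units.val_mul, Units.val_mul]; ring
  · linear_combination -(θ (a * d) * r) * hc

include hact hσ in
theorem torOp_twCls_eq_zero (h1 : ∑ u : (ZMod q)ˣ, θ u * χ u = 0)
    (h2 : ∑ u : (ZMod q)ˣ, θ u * χ u⁻¹ = 0) :
    torOp (fun g => clsAct k m (act g) (twCls hPt hM hN h act χ 1)) = 0 := by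
  have e1 : ∀ a : (ZMod q)ˣ, θ (a * 1) * χ (a * (1 : (ZMod q)ˣ)⁻¹) * 1 = θ a * χ a := fun a => by
    rw [inv_one, mul_one, mul_one]
  have e2 : ∀ d : (ZMod q)ˣ, θ (1 * d) * χ (1 * d⁻¹) * 1 = θ d * χ d⁻¹ := fun d => by
    rw [one_mul, one_mul, mul_one]
  have e3 : ∀ a d : (ZMod q)ˣ, θ (a * d) * χ (a * d⁻¹) * 1 = θ a * χ a * (θ d * χ d⁻¹) :=
    fun a d => by rw [map_mul, map_mul, mul_one]; ring
  simp only [torOp, clsAct_diag_twCls hPt hM hN h act hact hσ, ← map_sum, e1, e2, e3,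
    ← Finset.mul_sum, h1, h2, map_zero, mul_zero, Finset.sum_const_zero]
  have hz : ∀ (A : Type) [AddCommGroup A] (c : ℤ), c • ((0 : A) + 0) - 0 = 0 := by simp
  exact hz (Cls k (E.field k) m) _

/-- The twisted trace of the functions. -/
def twFun (χ : (ZMod q)ˣ →* B) : (E.field k)ˣ :=
  ∏ s : ZMod q, unitAct k (act (uPlus s))
    (∏ u : (ZMod q)ˣ, unitAct k (act (uMinus (-(u : ZMod q)))) (kumOmega hPt hM hN h (χ u)))

theorem clsOf_twFun :
    clsOf k m (twFun hPt hM hN h act χ) = twCls hPt hM hN h act χ 1 := by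
  rw [twFun, clsOf_prod, twCls_apply]
  refine Finset.sum_congr rfl fun s _ => ?_
  rw [← clsAct_clsOf, clsOf_prod]
  refine congrArg _ (Finset.sum_congr rfl fun u _ => ?_)
  rw [← clsAct_clsOf, one_mul]
  rfl

theorem unitAct_twFun (t : ZMod q) :
    unitAct k (act (uPlus t)) (twFun hPt hM hN h act χ) = twFun hPt hM hN h act χ := by
  rw [twFun, map_prod]
  refine Fintype.prod_equiv (Equiv.addLeft t) _ _ fun s => ?_
  rw [Equiv.coe_addLeft, ← unitAct_mul, ← map_mul, ← uPlus_add]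

theorem places_twFun : Places k m (twFun hPt hM hN h act χ) :=
  places_prod _ fun _ _ => places_unitAct (places_prod _ fun _ _ =>
    places_unitAct (places_kumOmega hPt hM hN h _) _) _

omit hPt in
theorem kumChar_units_prod {ι : Type*} (s : Finset ι) {y : ι → (E.field k)ˣ}
    {Φ : ι → Additive (CongruenceSubgroup.Gamma (q * n)) →+ ZMod m}
    (hy : ∀ i ∈ s, KumChar E k m (y i : E.field k) (Φ i)) :
    KumChar E k m ((∏ i ∈ s, y i : (E.field k)ˣ) : E.field k) (∑ i ∈ s, Φ i) := by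
  rw [Units.coe_prod]
  exact KumChar.prod s hy

include hact in
theorem kumChar_twFun (hι : E.ι = JacTorsion.ιQ)
    (hres : ∀ γ : CongruenceSubgroup.Gamma (q * n), rescale q n γ ∈ Gamma0 N) :
    KumChar E k m (twFun hPt hM hN h act χ : E.field k)
      (lowerTr (q := q) (∑ u : (ZMod q)ˣ, sPlus (u : ZMod q) • charAt hres P (χ u))) := by
  rw [lowerTr, ← Fintype.sum_equiv (Equiv.neg (ZMod q)) _ _ fun s => rfl]
  refine kumChar_units_prod hM hN Finset.univ fun s _ => ?_
  refine kumChar_moves E k (y := ((∏ u : (ZMod q)ˣ,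
      unitAct k (act (uMinus (-(u : ZMod q)))) (kumOmega hPt hM hN h (χ u)) : (E.field k)ˣ) :
        E.field k))
    (kumChar_units_prod hM hN Finset.univ fun u _ => ?_) (hact (uPlus s)) (fun i j => ?_) rfl
  · refine kumChar_moves E k (y := (kumOmega hPt hM hN h (χ u) : E.field k)) ?_
      (hact (uMinus (-(u : ZMod q)))) (fun i j => ?_) rfl
    · rw [show charAt hres P (χ u) = (JacTorsion.torsionEquiv N m
          (JacTorsion.toTorsion (Additive.ofMul (kumFun h (χ u))))).1.comp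
            (MonoidHom.toAdditive ((rescale q n).codRestrict (Gamma0 N) hres)) by
        rw [toTorsion_kumFun]; rfl]
      exact kumChar_toTorsion E hι k (kumFun h (χ u)) rfl hres
    · rw [sPlus_inv, coe_sPlus]
      fin_cases i <;> fin_cases j <;> simp [uMinus]
  · rw [show (Equiv.neg (ZMod q)) s = -s from rfl, sMinus_inv, neg_neg, coe_sMinus]
    fin_cases i <;> fin_cases j <;> simp [uPlus]

include h in
/-- The vanishing, given the level structure and its embedding at a cusp. -/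
theorem glueExp_smul_lowerTr_eq_zero [DecidableEq ℂ] [DecidableEq (E.field k)]
    (hι : E.ι = JacTorsion.ιQ) {L : ℕ} (hL : L = 7 ∨ L = 9) (hLn : L ∣ n)
    (hgal : ∀ d : (ZMod q)ˣ, ∃ σ : QBar ≃ₐ[k] QBar, σ (E.ζ ^ q) = E.ζ ^ q ∧
      σ (E.ζ ^ n) = (E.ζ ^ n) ^ (d : ZMod q).val)
    {U : UnramBase k q} {S : SerBase U}
    (C : CuspEmb (E.tateLevel k hcop.out (Fact.out : q.Prime) L hL hLn hgal) S)
    (hmU : IsUnit (m : U.W))
    (hres : ∀ γ : CongruenceSubgroup.Gamma (q * n), rescale q n γ ∈ Gamma0 N)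
    (h1 : ∑ u : (ZMod q)ˣ, θ u * χ u = 0) (h2 : ∑ u : (ZMod q)ˣ, θ u * χ u⁻¹ = 0) :
    glueExp (upperComb q) •
      lowerTr (q := q) (∑ u : (ZMod q)ˣ, sPlus (u : ZMod q) • charAt hres P (χ u)) = 0 := by
  set T := E.tateLevel k hcop.out (Fact.out : q.Prime) L hL hLn hgal
  let act' : GL (Fin 2) (ZMod q) →* (E.field k ≃ₐ[k] E.field k) := T.act
  have hact : ∀ g, E.Moves k (act' g)
      (liftMat hcop.out (g : Matrix (Fin 2) (Fin 2) (ZMod q))) := fun g =>
    (E.exists_moves_lift k hcop.out hgal g).choose_spec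
  have hσ : ∀ d : (ZMod q)ˣ, ∃ σ : QBar ≃ₐ[k] QBar,
      σ (E.ζ ^ n) = (E.ζ ^ n) ^ (d : ZMod q).val := fun d =>
    ⟨(hgal d).choose, (hgal d).choose_spec.2⟩
  set y := twFun hPt hM hN h act' χ
  have hfix : T.FixedBy (upperComb q) y := by
    rintro _ ⟨a, rfl⟩
    exact unitAct_twFun hPt hM hN h act' _
  have hcls : clsOf k m (T.lam (upperComb q) (T.transl y)) = 0 := by
    let π : Additive (E.field k)ˣ →+ Cls k (E.field k) m :=
      AddMonoidHom.mk' (fun x : Additive (E.field k)ˣ => clsOf k m x.toMul)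
        fun x x' => clsOf_mul k m _ _
    have e : clsOf k m (T.lam (upperComb q) (T.transl y)) =
        π (∑ g : GL (Fin 2) (ZMod q), (upperComb q).coeffs g •
          Additive.ofMul (unitAct k (act' g) y)) := rfl
    rw [e, map_sum]
    simp only [map_zsmul]
    refine ((torOp_eq_sum (fun g => π (Additive.ofMul (unitAct k (act' g) y)))).symm).trans ?_
    refine Eq.trans (congrArg torOp (funext fun g => ?_))
      (torOp_twCls_eq_zero hPt hM hN h act' hact hσ h1 h2)
    rw [← clsOf_twFun, clsAct_clsOf]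
    rfl
  obtain ⟨κ, γ, hlam⟩ := (clsOf_eq_zero_iff k m).mp hcls
  obtain ⟨κ', z, e⟩ := exists_const_mul_pow C (upperComb q) hmU (f := y) hfix
    (places_twFun hPt hM hN h act') hlam
  have hK := (kumChar_twFun hPt hM hN h act' (χ := χ) hact hι hres).pow (glueExp (upperComb q))
  have hK' : KumChar E k m ((y : E.field k) ^ glueExp (upperComb q)) 0 := by
    have e' := congrArg Units.val e
    rw [Units.val_pow_eq_pow_val, Units.val_mul, Units.val_pow_eq_pow_val] at e'
    have h' := (kumChar_const (E := E) (k := k) (m := m) κ'.ne_zero).mul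
      (kumChar_pow_self (E := E) (k := k) (m := m) z.ne_zero)
    rw [add_zero] at h'
    exact Eq.mpr (congrArg (fun w => KumChar E k m w 0) e') h'
  exact hK.unique hK'

end Fermat.Agent.RT.InertiaTW

end
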