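import Fermat.Agent.RT.InertiaTW.Vanish
import Fermat.Agent.Carayol.Omega.CuspInst
import Fermat.Agent.GaloisReps.HeckeGalois

/-!
# Vanishing over the field fixed by inertia

The vanishing of twisted traces, for the field fixed by an inertia group over `q` and the cusp
`∞` of the field of level `q n`.
-/

set_option autoImplicit false
set_option synthInstance.maxHeartbeats 400000

noncomputable section

open AlgebraicCurve CongruenceSubgroup
open ModularCurve (JZero)
open Fermat.Agent.Semistable Fermat.Agent.Arith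
open Fermat.Agent.Carayol Fermat.Agent.Carayol.Omega
open scoped MatrixGroups

namespace Fermat.Agent.RT.InertiaTW

attribute [local instance 2000] serAlg

/-- An automorphism fixing the fixed field of a subgroup agrees with one of its elements on
every finite extension. -/
theorem exists_mem_agree (H : Subgroup GQ) {σ : GQ}
    (hσ : ∀ x ∈ IntermediateField.fixedField H, σ x = x) (L : IntermediateField ℚ QBar)
    [FiniteDimensional ℚ L] : ∃ τ ∈ H, ∀ z ∈ L, τ z = σ z := by
  let L' : IntermediateField ℚ QBar := IntermediateField.normalClosure ℚ L QBar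
  have hL : L ≤ L' := IntermediateField.le_normalClosure L
  have : Normal ℚ L' := normalClosure.normal ℚ L QBar
  have : IsGalois ℚ L' := ⟨⟩
  set r := AlgEquiv.restrictNormalHom (F := ℚ) (K₁ := QBar) L' with hr
  have hcomm : ∀ (τ : GQ) (z : L'), ((r τ z : L') : QBar) = τ z := fun τ z =>
    AlgEquiv.restrictNormal_commutes τ L' z
  have hmem : r σ ∈ IntermediateField.fixingSubgroup
      (IntermediateField.fixedField (H.map r)) := by
    rw [IntermediateField.mem_fixingSubgroup_iff]
    intro z hz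
    refine Subtype.ext ((hcomm σ z).trans (hσ _ ?_))
    rw [IntermediateField.mem_fixedField_iff]
    intro τ hτ
    rw [← hcomm τ z]
    exact congrArg Subtype.val ((IntermediateField.mem_fixedField_iff _ _).mp hz (r τ)
      (Subgroup.mem_map_of_mem r hτ))
  rw [IntermediateField.fixingSubgroup_fixedField] at hmem
  obtain ⟨τ, hτ, e⟩ := hmem
  exact ⟨τ, hτ, fun z hz => by rw [← hcomm τ ⟨z, hL hz⟩, e, hcomm σ ⟨z, hL hz⟩]⟩

/-- A setup over `ℚ̄` with the chosen embedding. -/
theorem exists_setup (n : ℕ) [NeZero n] : ∃ E : Setup n QBar, E.ι = JacTorsion.ιQ := by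
  obtain ⟨ζ, hζ⟩ := JacTorsion.mem_range_ιQ (c := zetaC n)
    (IsIntegral.isAlgebraic (IsIntegral.of_pow (NeZero.pos n)
      (by rw [(isPrimitiveRoot_zetaC n).pow_eq_one]; exact isIntegral_one)))
  exact ⟨⟨JacTorsion.ιQ, ζ, hζ⟩, rfl⟩

theorem isUnit_natCast_base {K : Type} [Field K] {q p : ℕ} (U : UnramBase K q) (hp : p.Prime)
    (hq : q.Prime) (hpq : p ≠ q) : IsUnit (p : U.W) := by
  by_contra hu
  have h1 : (p : U.W) ∈ IsLocalRing.maximalIdeal U.W := hu
  have h2 : (q : U.W) ∈ IsLocalRing.maximalIdeal U.W :=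
    U.max_eq.symm ▸ Ideal.mem_span_singleton_self _
  obtain ⟨a, b, hab⟩ :=
    (Int.isCoprime_iff_nat_coprime.mpr (by simpa using (Nat.coprime_primes hp hq).mpr hpq) :
      IsCoprime (p : ℤ) (q : ℤ))
  have h3 : (1 : U.W) ∈ IsLocalRing.maximalIdeal U.W := by
    have e := congrArg (Int.cast : ℤ → U.W) hab
    push_cast at e
    rw [← e]
    exact add_mem (Ideal.mul_mem_left _ _ h1) (Ideal.mul_mem_left _ _ h2)
  exact (IsLocalRing.maximalIdeal.isMaximal U.W).ne_top ((Ideal.eq_top_iff_one _).mpr h3)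

variable {q : ℕ} [Fact q.Prime] {p : ℕ} [Fact p.Prime]

/-- **Vanishing.** A family of torsion classes on which inertia at `q` acts through a character
orthogonal to `χ` and `χ⁻¹` has twisted trace killed by the exponent of the integral study. -/
theorem glueExp_smul_lowerTr_eq_zero_of_inertia {N R n L : ℕ} [NeZero N] [NeZero n]
    [NeZero (q * n)] [hcop : Fact (q.Coprime n)] (hN : N ∣ q ^ 2 * R) (hR : R ∣ n)
    (hL : L = 7 ∨ L = 9) (hLn : L ∣ n) {A : ValuationSubring QBar} (hA : A.LiesOverPrime q)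
    (hpq : p ≠ q) {t : ℕ} {B : Type*} [CommRing B]
    (P : B →+ Pic0.torsion QBar (FB N) (p ^ t)) (θ χ : (ZMod q)ˣ →* B)
    (hgal : ∀ σ ∈ A.inertiaSubgroupIn ℚ, ∀ u : (ZMod q)ˣ,
      (∀ μ : QBar, μ ^ q = 1 → σ μ = μ ^ (u : ZMod q).val) →
        ∀ r : B, σ • (P r : JZero N) = (P (θ u * r) : JZero N))
    (h1 : ∑ u : (ZMod q)ˣ, θ u * χ u = 0) (h2 : ∑ u : (ZMod q)ˣ, θ u * χ u⁻¹ = 0) :
    glueExp (upperComb q) •
      lowerTr (q := q) (∑ u : (ZMod q)ˣ, sPlus (u : ZMod q) •
        charAt (q := q) (n := n) (fun γ => rescale_mem_Gamma0 hN hR γ) P (χ u)) = 0 := by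
  classical
  have hq : q.Prime := Fact.out
  have : NeZero q := ⟨hq.ne_zero⟩
  have : NeZero (p ^ t) := ⟨pow_ne_zero _ (Fact.out : p.Prime).ne_zero⟩
  have hn : ¬ q ∣ n := fun h => hq.one_lt.ne' (Nat.dvd_one.mp
    (hcop.out ▸ Nat.dvd_gcd dvd_rfl h))
  obtain ⟨E, hι⟩ := exists_setup (q * n)
  have : IsGalois (inertiaField A) QBar := IsGalois.tower_top_of_isGalois ℚ _ _
  have hgal' := fun d => exists_aut_inertiaField hA hq hn E.isPrimitiveRoot d
  have hord : ∀ i, i • markLabel hcop.out L = 0 ↔ L ∣ i :=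
    nsmul_markLabel_eq_zero_iff hcop.out (NeZero.ne n) hLn
  have hPt : GoodPt (markLabel (q := q) hcop.out L) := ⟨fun h => by
    have := Nat.le_of_dvd (by norm_num) ((hord 2).mp h); omega, fun h => by
    have := Nat.le_of_dvd (by norm_num) ((hord 3).mp h); omega⟩
  have hG : GalTheta E (inertiaField A) P θ := by
    intro σ u hσ r
    obtain ⟨L₀, hL₀, hfix⟩ := GaloisReps.exists_fixing_torsion N (P r)
    have := IntermediateField.adjoin.finiteDimensional
      (Algebra.IsIntegral.isIntegral (R := ℚ) (E.ζ ^ n))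
    let L₁ : IntermediateField ℚ QBar := L₀ ⊔ IntermediateField.adjoin ℚ {E.ζ ^ n}
    obtain ⟨τ, hτ, hagree⟩ := exists_mem_agree (A.inertiaSubgroupIn ℚ)
      (σ := ratAut (inertiaField A) σ) (fun x hx => σ.commutes ⟨x, hx⟩) L₁
    have hsame : ratAut (inertiaField A) σ • (P r : JZero N) = τ • (P r : JZero N) := by
      have h := hfix (τ⁻¹ * ratAut (inertiaField A) σ) fun z hz => by
        rw [AlgEquiv.mul_apply, ← hagree z ((le_sup_left : L₀ ≤ L₁) hz)]
        exact τ.symm_apply_apply z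
      rw [mul_smul, inv_smul_eq_iff] at h
      exact h
    rw [hsame]
    refine hgal τ hτ u (fun μ hμ => ?_) r
    obtain ⟨i, -, rfl⟩ := (E.isPrimitiveRoot.pow (NeZero.pos _) (mul_comm q n)).eq_pow_of_pow_eq_one hμ
    rw [map_pow, hagree _ ((le_sup_right : _ ≤ L₁) (IntermediateField.mem_adjoin_simple_self ℚ _)),
      show ratAut (inertiaField A) σ (E.ζ ^ n) = σ (E.ζ ^ n) from rfl, hσ]
    exact pow_right_comm _ _ _
  refine glueExp_smul_lowerTr_eq_zero (E := E) (k := inertiaField A) hPt hR (hN.trans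
    (dvd_of_eq (by ring))) hG hι hL hLn hgal'
    (E.cuspEmb hA hq hcop.out L hL hLn hgal') ?_ _ h1 h2
  rw [Nat.cast_pow]
  exact (isUnit_natCast_base (inertialBase hA hq) (Fact.out : p.Prime) hq hpq).pow t

end Fermat.Agent.RT.InertiaTW

end
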